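/-
P-S56, block (C), part C2 (helper54): the abstraction behind `GaloisRepAdic.IsFlatAt`.

`IsFFPoints p X act` : the additive group `X` with the `G_ℚ`-action `act` is, equivariantly, the
group of `ℚ̄`-points of a finite flat commutative group scheme over `ℤ_(p)` (a finite flat
cocommutative Hopf algebra over `GaloisRep.ratLocalizedAt p`).

* `isFlatAt_iff` : `ρ.IsFlatAt p ↔ Finite (ResidueField A) ∧ ∀ I, Finite (A ⧸ I) →
    IsFFPoints p (ρ.V ⧸ I • ⊤) (fun σ => ρ.levelAction I σ)`;
* `IsFFPoints.transport` : along equivariant additive bijections;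
* `IsFFPoints.of_subsingleton` : the trivial group;
* `IsFFPoints.prod` : products (tensor product of Hopf algebras).
-/
import Mathlib
import Fermat.Prelude.Def_GaloisRep_Flat

set_option autoImplicit false
set_option linter.style.haveILetI false
set_option linter.unusedSectionVars false

noncomputable section

namespace Fermat.Agent.S56x.Dict.FFPoints

open scoped TensorProduct
open IsLocalRing WithConv

local notation "Γℚ" => (AlgebraicClosure ℚ ≃ₐ[ℚ] AlgebraicClosure ℚ)
local notation "Qb" => AlgebraicClosure ℚ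
local notation "Zp" p => GaloisRep.ratLocalizedAt p

/-- `X` with the action `act` of `G_ℚ` is the group of `ℚ̄`-points of a finite flat commutative
group scheme over `ℤ_(p)`. -/
def IsFFPoints (p : ℕ) (X : Type) [AddCommGroup X] (act : Γℚ → X → X) : Prop :=
  ∃ (H : Type) (_ : CommRing H) (_ : HopfAlgebra (Zp p) H),
    Module.Finite (Zp p) H ∧ Module.Flat (Zp p) H ∧ Coalgebra.IsCocomm (Zp p) H ∧
    ∃ e : WithConv (H →ₐ[Zp p] Qb) ≃ X,
      (∀ f g : WithConv (H →ₐ[Zp p] Qb), e (f * g) = e f + e g) ∧
      ∀ (σ : Γℚ) (f g : WithConv (H →ₐ[Zp p] Qb)), (∀ h : H, g h = σ (f h)) → e g = act σ (e f)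

theorem isFlatAt_iff {A : Type} [CommRing A] [IsLocalRing A] (ρ : GaloisRepAdic A) (p : ℕ) :
    ρ.IsFlatAt p ↔ Finite (ResidueField A) ∧ ∀ I : Ideal A, Finite (A ⧸ I) →
      IsFFPoints p (ρ.V ⧸ (I • (⊤ : Submodule A ρ.V))) (fun σ => ρ.levelAction I σ) :=
  Iff.rfl

namespace IsFFPoints

variable {p : ℕ} {X Y : Type} [AddCommGroup X] [AddCommGroup Y]
  {actX : Γℚ → X → X} {actY : Γℚ → Y → Y}

/-- transport along an equivariant additive bijection. -/
theorem transport (h : IsFFPoints p X actX) (θ : X ≃+ Y)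
    (hθ : ∀ σ x, θ (actX σ x) = actY σ (θ x)) : IsFFPoints p Y actY := by
  obtain ⟨H, i1, i2, hfin, hflat, hco, e, hadd, heq⟩ := h
  refine ⟨H, i1, i2, hfin, hflat, hco, e.trans θ.toEquiv, fun f g => ?_, fun σ f g hfg => ?_⟩
  · show θ (e (f * g)) = θ (e f) + θ (e g)
    rw [hadd, map_add]
  · show θ (e g) = actY σ (θ (e f))
    rw [heq σ f g hfg, hθ]

/-- the trivial group. -/
theorem of_subsingleton [Subsingleton X] : IsFFPoints p X actX := by
  refine ⟨(Zp p), inferInstance, inferInstance, inferInstance, inferInstance, inferInstance,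
    ?_⟩
  haveI : Subsingleton (WithConv ((Zp p) →ₐ[Zp p] Qb)) :=
    ⟨fun f g => WithConv.ofConv_injective (Subsingleton.elim _ _)⟩
  let e : WithConv ((Zp p) →ₐ[Zp p] Qb) ≃ X :=
    { toFun := fun _ => 0
      invFun := fun _ => 1
      left_inv := fun _ => Subsingleton.elim _ _
      right_inv := fun _ => Subsingleton.elim _ _ }
  exact ⟨e, fun _ _ => Subsingleton.elim _ _, fun _ _ _ _ => Subsingleton.elim _ _⟩

end IsFFPoints

section ConvProd

open Coalgebra

variable {R : Type} [CommRing R] {H1 H2 : Type} [CommRing H1] [CommRing H2]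
  [Bialgebra R H1] [Bialgebra R H2] {Q : Type} [CommRing Q] [Algebra R Q]

theorem convMul_comp_includeLeft (f g : WithConv (H1 ⊗[R] H2 →ₐ[R] Q)) :
    toConv ((f * g).ofConv.comp Algebra.TensorProduct.includeLeft) =
      toConv (f.ofConv.comp Algebra.TensorProduct.includeLeft) *
        toConv (g.ofConv.comp (Algebra.TensorProduct.includeLeft : H1 →ₐ[R] H1 ⊗[R] H2)) := by
  apply WithConv.ofConv_injective
  ext x
  simp only [AlgHom.comp_apply, Algebra.TensorProduct.includeLeft_apply, AlgHom.convMul_apply,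
    TensorProduct.comul_tmul, Bialgebra.comul_one]
  rw [← (ℛ R x).eq]
  simp [TensorProduct.sum_tmul, map_sum, Algebra.TensorProduct.one_def]

theorem convMul_comp_includeRight (f g : WithConv (H1 ⊗[R] H2 →ₐ[R] Q)) :
    toConv ((f * g).ofConv.comp Algebra.TensorProduct.includeRight) =
      toConv (f.ofConv.comp Algebra.TensorProduct.includeRight) *
        toConv (g.ofConv.comp (Algebra.TensorProduct.includeRight : H2 →ₐ[R] H1 ⊗[R] H2)) := by
  apply WithConv.ofConv_injective
  ext x
  simp only [AlgHom.comp_apply, Algebra.TensorProduct.includeRight_apply, AlgHom.convMul_apply,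
    TensorProduct.comul_tmul, Bialgebra.comul_one]
  rw [← (ℛ R x).eq]
  simp [TensorProduct.tmul_sum, map_sum, Algebra.TensorProduct.one_def]

/-- algebra homs out of a tensor product are pairs of algebra homs. -/
def convProdEquiv : WithConv (H1 ⊗[R] H2 →ₐ[R] Q) ≃
    WithConv (H1 →ₐ[R] Q) × WithConv (H2 →ₐ[R] Q) where
  toFun f := (toConv (f.ofConv.comp Algebra.TensorProduct.includeLeft),
    toConv (f.ofConv.comp Algebra.TensorProduct.includeRight))
  invFun z := toConv (Algebra.TensorProduct.productMap z.1.ofConv z.2.ofConv)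
  left_inv f := by
    apply WithConv.ofConv_injective
    refine Algebra.TensorProduct.ext' fun a b => ?_
    simp only [Algebra.TensorProduct.productMap_apply_tmul,
      AlgHom.comp_apply, Algebra.TensorProduct.includeLeft_apply,
      Algebra.TensorProduct.includeRight_apply, ← map_mul,
      Algebra.TensorProduct.tmul_mul_tmul, mul_one, one_mul]
  right_inv z := by
    refine Prod.ext ?_ ?_
    · apply WithConv.ofConv_injective
      simp only [Algebra.TensorProduct.productMap_left]
    · apply WithConv.ofConv_injective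
      simp only [Algebra.TensorProduct.productMap_right]

theorem convProdEquiv_mul (f g : WithConv (H1 ⊗[R] H2 →ₐ[R] Q)) :
    convProdEquiv (f * g) =
      ((convProdEquiv f).1 * (convProdEquiv g).1, (convProdEquiv f).2 * (convProdEquiv g).2) :=
  Prod.ext (convMul_comp_includeLeft f g) (convMul_comp_includeRight f g)

theorem convProdEquiv_fst_apply (f : WithConv (H1 ⊗[R] H2 →ₐ[R] Q)) (x : H1) :
    (convProdEquiv f).1.ofConv x = f.ofConv (x ⊗ₜ[R] 1) := rfl

theorem convProdEquiv_snd_apply (f : WithConv (H1 ⊗[R] H2 →ₐ[R] Q)) (y : H2) :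
    (convProdEquiv f).2.ofConv y = f.ofConv (1 ⊗ₜ[R] y) := rfl

end ConvProd

namespace IsFFPoints

variable {p : ℕ} {X Y : Type} [AddCommGroup X] [AddCommGroup Y]
  {actX : Γℚ → X → X} {actY : Γℚ → Y → Y}

/-- products. -/
theorem prod (hX : IsFFPoints p X actX) (hY : IsFFPoints p Y actY) :
    IsFFPoints p (X × Y) (fun σ z => (actX σ z.1, actY σ z.2)) := by
  obtain ⟨H1, i1, j1, hfin1, hflat1, hco1, e1, hadd1, heq1⟩ := hX
  obtain ⟨H2, i2, j2, hfin2, hflat2, hco2, e2, hadd2, heq2⟩ := hY
  refine ⟨H1 ⊗[Zp p] H2, inferInstance, inferInstance, inferInstance, inferInstance,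
    inferInstance, ?_⟩
  refine ⟨convProdEquiv.trans (Equiv.prodCongr e1 e2), fun f g => ?_, fun σ f g hfg => ?_⟩
  · show ((Equiv.prodCongr e1 e2) (convProdEquiv (f * g))) = _
    rw [convProdEquiv_mul]
    exact Prod.ext (hadd1 _ _) (hadd2 _ _)
  · refine Prod.ext ?_ ?_
    · exact heq1 σ _ _ fun h => hfg (h ⊗ₜ 1)
    · exact heq2 σ _ _ fun h => hfg (1 ⊗ₜ h)

/-- finite powers. -/
theorem pi (hX : IsFFPoints p X actX) (m : ℕ) :
    IsFFPoints p (Fin m → X) (fun σ z i => actX σ (z i)) := by
  induction m with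
  | zero => exact of_subsingleton
  | succ m ih =>
    let θ : X × (Fin m → X) ≃+ (Fin (m + 1) → X) :=
      { toFun := fun z => Fin.cons z.1 z.2
        invFun := fun f => (f 0, Fin.tail f)
        left_inv := fun z => by simp
        right_inv := fun f => by simp
        map_add' := fun z w => by
          funext i
          refine Fin.cases ?_ (fun j => ?_) i <;> simp }
    refine (hX.prod ih).transport θ fun σ z => ?_
    funext i
    refine Fin.cases ?_ (fun j => ?_) i <;> simp [θ]

end IsFFPoints

end Fermat.Agent.S56x.Dict.FFPoints
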