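import Mathlib
import Fermat.Agent.S53.MatrixRep

/-!
# P-S56 (C3): 2×2 matrices over the dual numbers `k[ε]`

`dn A B = A + ε B` for `A B : M₂(k)`; product formula, components, invertibility.
-/

set_option autoImplicit false
set_option linter.unusedSectionVars false

namespace Fermat.Agent.S56x.Dict

open TrivSqZeroExt

variable {k : Type} [Field k]

local notation "M₂" => Matrix (Fin 2) (Fin 2)

/-- `A + ε B` as a matrix over the dual numbers. -/
def dn (A B : M₂ k) : M₂ (DualNumber k) :=
  Matrix.of fun i j => (inl (A i j) + inr (B i j) : DualNumber k)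

/-- The constant part of a matrix over the dual numbers. -/
def fstM (X : M₂ (DualNumber k)) : M₂ k := Matrix.of fun i j => (X i j).fst

/-- The `ε`-part of a matrix over the dual numbers. -/
def sndM (X : M₂ (DualNumber k)) : M₂ k := Matrix.of fun i j => (X i j).snd

@[simp] lemma dn_apply (A B : M₂ k) (i j : Fin 2) :
    dn A B i j = (inl (A i j) + inr (B i j) : DualNumber k) := rfl

@[simp] lemma fstM_apply (X : M₂ (DualNumber k)) (i j : Fin 2) : fstM X i j = (X i j).fst := rfl

@[simp] lemma sndM_apply (X : M₂ (DualNumber k)) (i j : Fin 2) : sndM X i j = (X i j).snd := rfl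

@[simp] lemma fstM_dn (A B : M₂ k) : fstM (dn A B) = A := by
  ext i j; simp

@[simp] lemma sndM_dn (A B : M₂ k) : sndM (dn A B) = B := by
  ext i j; simp

lemma dn_fstM_sndM (X : M₂ (DualNumber k)) : dn (fstM X) (sndM X) = X := by
  ext i j
  · simp
  · simp

lemma dn_injective {A B A' B' : M₂ k} (h : dn A B = dn A' B') : A = A' ∧ B = B' := by
  have h1 := congrArg fstM h
  have h2 := congrArg sndM h
  simpa using And.intro h1 h2

lemma dn_mul (A B A' B' : M₂ k) :
    dn A B * dn A' B' = dn (A * A') (A * B' + B * A') := by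
  ext i j
  · simp [Matrix.mul_apply, Fin.sum_univ_two]
  · simp [Matrix.mul_apply, Fin.sum_univ_two, Matrix.add_apply]
    ring

lemma dn_one : dn (1 : M₂ k) 0 = 1 := by
  ext i j
  · simp [Matrix.one_apply]
    split_ifs <;> simp
  · simp [Matrix.one_apply]
    split_ifs <;> simp

lemma dn_add (A B A' B' : M₂ k) : dn A B + dn A' B' = dn (A + A') (B + B') := by
  ext i j
  · simp
  · simp

lemma fstM_mul (X Y : M₂ (DualNumber k)) : fstM (X * Y) = fstM X * fstM Y := by
  rw [← dn_fstM_sndM X, ← dn_fstM_sndM Y, dn_mul]; simp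

lemma sndM_mul (X Y : M₂ (DualNumber k)) :
    sndM (X * Y) = fstM X * sndM Y + sndM X * fstM Y := by
  conv_lhs => rw [← dn_fstM_sndM X, ← dn_fstM_sndM Y, dn_mul]
  simp

lemma fstM_one : fstM (1 : M₂ (DualNumber k)) = 1 := by
  rw [← dn_one]; simp

lemma sndM_one : sndM (1 : M₂ (DualNumber k)) = 0 := by
  rw [← dn_one]; simp

lemma fstM_eq_map (X : M₂ (DualNumber k)) :
    fstM X = X.map (fun x : DualNumber k => x.fst) := by
  ext i j; simp

end Fermat.Agent.S56x.Dict
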