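import Mathlib
import Fermat.Agent.S53.MatrixRep
import Fermat.Agent.S56x.Dict.DualMat

/-!
# P-S56 (C3): tangent cocycles and their lifts to the dual numbers

Fix a matrix model `rbar : Γℚ →* M₂(k)` of the residual representation.

* `TanCocycle rbar` : maps `c : Γℚ → M₂(k)` with `c(στ) = c(σ) + rbar(σ) c(τ) rbar(σ)⁻¹`, vanishing
  on an open subgroup (the fixing subgroup of a finite extension of `ℚ`).
* `TanCocycle.liftMat c : Γℚ →* M₂(k[ε])`, `σ ↦ (1 + ε c(σ)) rbar(σ)`, and
  `TanCocycle.lift c : GaloisRepAdic k[ε]`.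
* `TanCocycle.Cohomologous c c'` : `c' = c + (X - rbar X rbar⁻¹)` for some `X : M₂(k)`;
  cohomologous cocycles have equivalent lifts (`lift_isEquiv_of_cohomologous`).
* `TanCocycle.ofLift` : a continuous `r : Γℚ →* M₂(k[ε])` with constant part `rbar` is `liftMat c`
  for a unique tangent cocycle `c`.
-/

set_option autoImplicit false
set_option linter.unusedSectionVars false
set_option linter.style.haveILetI false

noncomputable section

namespace Fermat.Agent.S56x.Dict

open TrivSqZeroExt Fermat.Agent.S53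

variable {k : Type} [Field k]

local notation "Γℚ" => (AlgebraicClosure ℚ ≃ₐ[ℚ] AlgebraicClosure ℚ)
local notation "M₂" => Matrix (Fin 2) (Fin 2)

/-- Tangent cocycles of a residual matrix representation. -/
@[ext]
structure TanCocycle (rbar : Γℚ →* M₂ k) where
  /-- the underlying map -/
  c : Γℚ → M₂ k
  map_mul' : ∀ σ τ, c (σ * τ) = c σ + rbar σ * c τ * rbar σ⁻¹
  open' : ∃ L : IntermediateField ℚ (AlgebraicClosure ℚ), FiniteDimensional ℚ L ∧
    ∀ σ : Γℚ, (∀ x ∈ L, σ x = x) → c σ = 0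

namespace TanCocycle

variable {rbar : Γℚ →* M₂ k}

lemma rbar_mul_inv (σ : Γℚ) : rbar σ * rbar σ⁻¹ = 1 := by
  rw [← map_mul, mul_inv_cancel, map_one]

lemma rbar_inv_mul (σ : Γℚ) : rbar σ⁻¹ * rbar σ = 1 := by
  rw [← map_mul, inv_mul_cancel, map_one]

lemma map_one (c : TanCocycle rbar) : c.c 1 = 0 := by
  have h := c.map_mul' 1 1
  simp only [mul_one, _root_.map_one, one_mul, inv_one] at h
  simpa using h

/-- The lift `σ ↦ (1 + ε c(σ)) rbar(σ)`. -/
def liftMat (c : TanCocycle rbar) : Γℚ →* M₂ (DualNumber k) where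
  toFun σ := dn (rbar σ) (c.c σ * rbar σ)
  map_one' := by
    rw [c.map_one, _root_.map_one, zero_mul, dn_one]
  map_mul' σ τ := by
    rw [dn_mul, c.map_mul', _root_.map_mul]
    congr 1
    rw [add_mul, add_comm]
    congr 1
    · simp only [Matrix.mul_assoc]
      rw [← Matrix.mul_assoc (rbar σ⁻¹), rbar_inv_mul, Matrix.one_mul]
    · simp only [Matrix.mul_assoc]

@[simp] lemma liftMat_apply (c : TanCocycle rbar) (σ : Γℚ) :
    c.liftMat σ = dn (rbar σ) (c.c σ * rbar σ) := rfl

lemma isMatCont_liftMat (hrbar : GaloisFactorsThroughFiniteLevel rbar) (c : TanCocycle rbar) :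
    IsMatCont c.liftMat := by
  intro n
  obtain ⟨L, hL, h1⟩ := hrbar
  obtain ⟨L', hL', h2⟩ := c.open'
  haveI := hL; haveI := hL'
  refine ⟨L ⊔ L', IntermediateField.finiteDimensional_sup L L', fun σ hσ i j => ?_⟩
  have e1 : rbar σ = 1 := h1 σ fun x hx => hσ x ((le_sup_left : L ≤ L ⊔ L') hx)
  have e2 : c.c σ = 0 := h2 σ fun x hx => hσ x ((le_sup_right : L' ≤ L ⊔ L') hx)
  rw [liftMat_apply, e1, e2, zero_mul, dn_one, sub_self]
  exact Ideal.zero_mem _

/-- The deformation of `rbar` to the dual numbers attached to a tangent cocycle. -/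
def lift (hrbar : GaloisFactorsThroughFiniteLevel rbar) (c : TanCocycle rbar) :
    GaloisRepAdic (DualNumber k) :=
  ofMat c.liftMat (c.isMatCont_liftMat hrbar)

/-- Two tangent cocycles are cohomologous if they differ by `σ ↦ X - rbar σ X (rbar σ)⁻¹`. -/
def Cohomologous (c c' : TanCocycle rbar) : Prop :=
  ∃ X : M₂ k, ∀ σ, c'.c σ = c.c σ + (X - rbar σ * X * rbar σ⁻¹)

lemma Cohomologous.refl (c : TanCocycle rbar) : Cohomologous c c :=
  ⟨0, fun σ => by simp⟩

lemma Cohomologous.symm {c c' : TanCocycle rbar} (h : Cohomologous c c') : Cohomologous c' c := by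
  obtain ⟨X, hX⟩ := h
  refine ⟨-X, fun σ => ?_⟩
  rw [hX σ]
  simp only [Matrix.mul_neg, Matrix.neg_mul]
  abel

lemma Cohomologous.trans {c c' c'' : TanCocycle rbar} (h : Cohomologous c c')
    (h' : Cohomologous c' c'') : Cohomologous c c'' := by
  obtain ⟨X, hX⟩ := h
  obtain ⟨Y, hY⟩ := h'
  refine ⟨X + Y, fun σ => ?_⟩
  rw [hY σ, hX σ]
  simp only [Matrix.mul_add, Matrix.add_mul]
  abel

/-- `1 + ε X` is invertible. -/
def oneAddEps (X : M₂ k) : GL (Fin 2) (DualNumber k) where
  val := dn 1 X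
  inv := dn 1 (-X)
  val_inv := by rw [dn_mul]; simp [dn_one]
  inv_val := by rw [dn_mul]; simp [dn_one]

/-- Cohomologous tangent cocycles have equivalent lifts. -/
theorem lift_isEquiv_of_cohomologous (hrbar : GaloisFactorsThroughFiniteLevel rbar)
    {c c' : TanCocycle rbar} (h : Cohomologous c c') :
    (c.lift hrbar).IsEquiv (c'.lift hrbar) := by
  obtain ⟨X, hX⟩ := h
  refine (ofMat_isEquiv_iff _ _).mpr ⟨oneAddEps X, fun σ => ?_⟩
  show dn 1 X * dn (rbar σ) (c.c σ * rbar σ) = dn (rbar σ) (c'.c σ * rbar σ) * dn 1 X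
  rw [dn_mul, dn_mul, hX σ]
  congr 1
  · simp
  · simp only [Matrix.one_mul, Matrix.mul_one, Matrix.add_mul, Matrix.sub_mul, Matrix.mul_assoc]
    rw [rbar_inv_mul, Matrix.mul_one]
    abel

/-- A continuous matrix representation over the dual numbers with constant part `rbar` is the lift
of a tangent cocycle. -/
def ofLift (r : Γℚ →* M₂ (DualNumber k)) (hr : IsMatCont r)
    (hfst : ∀ σ, fstM (r σ) = rbar σ) : TanCocycle rbar where
  c σ := sndM (r σ) * rbar σ⁻¹
  map_mul' σ τ := by
    rw [_root_.map_mul, sndM_mul, hfst, Matrix.add_mul, add_comm]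
    congr 1
    · rw [mul_inv_rev, _root_.map_mul]
      have : fstM (r τ) * rbar τ⁻¹ = 1 := by rw [hfst, rbar_mul_inv]
      simp only [Matrix.mul_assoc]
      rw [← Matrix.mul_assoc (fstM (r τ)), this, Matrix.one_mul]
    · rw [mul_inv_rev, _root_.map_mul]
      simp only [Matrix.mul_assoc]
  open' := by
    obtain ⟨L, hL, h⟩ := hr 2
    refine ⟨L, hL, fun σ hσ => ?_⟩
    have hz : ∀ i j, (r σ - 1) i j = 0 := by
      intro i j
      have := h σ hσ i j
      have hm : IsLocalRing.maximalIdeal (DualNumber k) ^ 2 = ⊥ := by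
        rw [DualNumber.maximalIdeal_eq_span_singleton_eps, Ideal.span_singleton_pow,
          pow_two, DualNumber.eps_mul_eps, Ideal.span_singleton_eq_bot]
      rwa [hm, Ideal.mem_bot] at this
    have h1 : r σ = 1 := by
      ext i j
      · have := congrArg TrivSqZeroExt.fst (hz i j); simpa [sub_eq_zero] using this
      · have := congrArg TrivSqZeroExt.snd (hz i j); simpa [sub_eq_zero] using this
    rw [h1, sndM_one, Matrix.zero_mul]

lemma liftMat_ofLift (r : Γℚ →* M₂ (DualNumber k)) (hr : IsMatCont r)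
    (hfst : ∀ σ, fstM (r σ) = rbar σ) : (ofLift r hr hfst).liftMat = r := by
  ext1 σ
  show dn (rbar σ) (sndM (r σ) * rbar σ⁻¹ * rbar σ) = r σ
  rw [Matrix.mul_assoc, rbar_inv_mul, Matrix.mul_one, ← hfst, dn_fstM_sndM]

end TanCocycle

end Fermat.Agent.S56x.Dict

end
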