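import Mathlib
import Fermat.Prelude.Def_GaloisRep_LocalConditions
import Fermat.Prelude.Def_GroupCohomology_ContinuousUnramified
import Fermat.Agent.S53.MatrixRep
import Fermat.Agent.S56x.Dict.TanCocycle

/-!
# P-S56 (C3): the deformation conditions on `c.lift` in terms of the tangent cocycle `c`

For `c : TanCocycle rbar` with lift `L := c.lift hrbar : GaloisRepAdic k[ε]`:

* (i) `trace_eq_zero_of_detIsCyclotomic` : `L.DetIsCyclotomic p` implies `trace (c σ) = 0`;
* (ii) `isUnramifiedAt_lift_iff` : `L.IsUnramifiedAt q` iff `rbar σ = 1 ∧ c σ = 0` on inertia at `q`;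
* (iii) `isUnipotentOnInertiaAt_lift_iff` : `L.IsUnipotentOnInertiaAt q` iff on inertia at `q`:
  `charpoly (rbar σ) = (X - 1)^2`, `trace (c σ * rbar σ) = 0` and `trace (c σ) = 0`;
* (iv) `isLevelConstantS₁_of_unramified_outside` : if `L` is unramified outside `S'`, then `c` (and
  `rbar`) are constant on the cosets of the fixing subgroup of a finite extension of `ℚ` which is
  unramified outside `S'` (the fixed field of the kernel of `c.liftMat`).
-/

set_option autoImplicit false
set_option linter.unusedSectionVars false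
set_option linter.style.haveILetI false

noncomputable section

namespace Fermat.Agent.S56x.Dict

open TrivSqZeroExt Fermat.Agent.S53 Polynomial

variable {k : Type} [Field k]

local notation "Γℚ" => (AlgebraicClosure ℚ ≃ₐ[ℚ] AlgebraicClosure ℚ)
local notation "M₂" => Matrix (Fin 2) (Fin 2)

/-! ### More matrix algebra over the dual numbers -/

section DualMatMore

lemma trace_dn (A B : M₂ k) : (dn A B).trace = (inl A.trace + inr B.trace : DualNumber k) := by
  simp only [Matrix.trace_fin_two, dn_apply]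
  ext <;> simp

lemma det_dn_mul (A C : M₂ k) :
    (dn A (C * A)).det = (inl A.det + inr (A.det * C.trace) : DualNumber k) := by
  simp only [Matrix.det_fin_two, Matrix.trace_fin_two, dn_apply, Matrix.mul_apply,
    Fin.sum_univ_two]
  ext
  · simp
  · simp
    ring

lemma dn_eq_one_iff (A B : M₂ k) : dn A B = 1 ↔ A = 1 ∧ B = 0 := by
  rw [← dn_one]
  constructor
  · intro h
    exact dn_injective h
  · rintro ⟨rfl, rfl⟩
    rfl

/-- `M.charpoly = (X - 1)^2` iff `trace M = 2` and `det M = 1`. -/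
lemma charpoly_eq_X_sub_one_sq_iff {R : Type*} [CommRing R] [Nontrivial R] (M : M₂ R) :
    M.charpoly = (X - 1 : R[X]) ^ 2 ↔ M.trace = 2 ∧ M.det = 1 := by
  rw [Matrix.charpoly_fin_two]
  constructor
  · intro h
    have h1 := congrArg (fun f : R[X] => f.coeff 1) h
    have h0 := congrArg (fun f : R[X] => f.coeff 0) h
    have e : (X - 1 : R[X]) ^ 2 = X ^ 2 - C (2 : R) * X + C (1 : R) := by
      rw [map_ofNat, map_one]; ring
    rw [e] at h1 h0
    simp only [coeff_add, coeff_sub, coeff_X_pow, coeff_C_mul, coeff_X_one, coeff_C_succ,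
      coeff_X_zero, coeff_C_zero] at h1 h0
    norm_num at h1 h0
    exact ⟨h1, h0⟩
  · rintro ⟨h1, h2⟩
    rw [h1, h2, map_ofNat, map_one]
    ring

end DualMatMore

/-! ### Galois action on roots of unity -/

/-- Every automorphism acts on the `N`-th roots of unity by a power map. -/
theorem exists_nat_pow_on_roots (N : ℕ) (hN : 0 < N) (σ : Γℚ) :
    ∃ a : ℕ, ∀ μ : AlgebraicClosure ℚ, μ ^ N = 1 → σ μ = μ ^ a := by
  have : NeZero N := ⟨hN.ne'⟩
  obtain ⟨g, hg⟩ := IsCyclic.exists_monoid_generator (α := rootsOfUnity N (AlgebraicClosure ℚ))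
  obtain ⟨m, hm⟩ := map_rootsOfUnity_eq_pow_self σ g
  refine ⟨m, fun μ hμ => ?_⟩
  obtain ⟨j, hj⟩ := hg (rootsOfUnity.mkOfPowEq μ hμ)
  have h1 : μ = ((g : (AlgebraicClosure ℚ)ˣ) : AlgebraicClosure ℚ) ^ j := by
    have := congrArg (fun x : rootsOfUnity N (AlgebraicClosure ℚ) =>
      ((x : (AlgebraicClosure ℚ)ˣ) : AlgebraicClosure ℚ)) hj
    simpa using this.symm
  rw [h1, map_pow, hm, ← pow_mul, ← pow_mul, mul_comm]

/-! ### The lift in matrix terms -/

namespace TanCocycle

variable {rbar : Γℚ →* M₂ k} (hrbar : GaloisFactorsThroughFiniteLevel rbar) (c : TanCocycle rbar)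

lemma lift_ρ (σ : Γℚ) : (c.lift hrbar).ρ σ = Matrix.toLin' (dn (rbar σ) (c.c σ * rbar σ)) := rfl

lemma det_rbar_ne_zero (σ : Γℚ) : (rbar σ).det ≠ 0 := by
  intro h
  have h1 := congrArg Matrix.det (rbar_mul_inv (rbar := rbar) σ)
  rw [Matrix.det_mul, h, zero_mul, Matrix.det_one] at h1
  exact zero_ne_one h1

lemma det_lift (σ : Γℚ) :
    LinearMap.det ((c.lift hrbar).ρ σ) =
      (inl (rbar σ).det + inr ((rbar σ).det * (c.c σ).trace) : DualNumber k) := by
  have h : LinearMap.det (Matrix.toLin' (dn (rbar σ) (c.c σ * rbar σ))) =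
      (dn (rbar σ) (c.c σ * rbar σ)).det := LinearMap.det_toLin' _
  rw [det_dn_mul] at h
  exact h

lemma charpoly_lift (σ : Γℚ) :
    LinearMap.charpoly ((c.lift hrbar).ρ σ) = (dn (rbar σ) (c.c σ * rbar σ)).charpoly := by
  exact Matrix.charpoly_toLin' (dn (rbar σ) (c.c σ * rbar σ))

lemma lift_ρ_eq_one_iff (σ : Γℚ) : (c.lift hrbar).ρ σ = 1 ↔ rbar σ = 1 ∧ c.c σ = 0 := by
  rw [lift_ρ]
  have h1 : (1 : Module.End (DualNumber k) (Fin 2 → DualNumber k)) =
      Matrix.toLin' (1 : M₂ (DualNumber k)) := Matrix.toLin'_one.symm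
  have hV : (c.lift hrbar).V = (Fin 2 → DualNumber k) := rfl
  constructor
  · intro h
    have h2 : Matrix.toLin' (dn (rbar σ) (c.c σ * rbar σ)) =
        Matrix.toLin' (1 : M₂ (DualNumber k)) := h.trans h1
    have h3 := Matrix.toLin'.injective h2
    obtain ⟨e1, e2⟩ := (dn_eq_one_iff _ _).mp h3
    refine ⟨e1, ?_⟩
    rw [e1, Matrix.mul_one] at e2
    exact e2
  · rintro ⟨e1, e2⟩
    rw [e1, e2, Matrix.zero_mul, dn_one]
    exact Matrix.toLin'_one

/-! ### (i) the determinant condition -/

/-- If `p` lies in the maximal ideal of `k[ε]` then `p = 0` in `k`. -/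
lemma natCast_eq_zero_of_mem_maximalIdeal {p : ℕ}
    (h : (p : DualNumber k) ∈ IsLocalRing.maximalIdeal (DualNumber k)) : (p : k) = 0 := by
  by_contra h0
  rw [IsLocalRing.mem_maximalIdeal, mem_nonunits_iff] at h
  apply h
  rw [TrivSqZeroExt.isUnit_iff_isUnit_fst, TrivSqZeroExt.fst_natCast]
  exact isUnit_iff_ne_zero.mpr h0

/-- **(i)** If the lift has cyclotomic determinant, the tangent cocycle has trace zero. -/
theorem trace_eq_zero_of_detIsCyclotomic {p : ℕ} (hp : 0 < p)
    (h : (c.lift hrbar).DetIsCyclotomic p) (σ : Γℚ) : (c.c σ).trace = 0 := by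
  have hpk : (p : k) = 0 := natCast_eq_zero_of_mem_maximalIdeal h.1
  have hpD : ((p ^ 1 : ℕ) : DualNumber k) = 0 := by
    rw [pow_one]
    ext
    · rw [TrivSqZeroExt.fst_natCast, hpk, TrivSqZeroExt.fst_zero]
    · rw [TrivSqZeroExt.snd_natCast, TrivSqZeroExt.snd_zero]
  obtain ⟨a, ha⟩ := exists_nat_pow_on_roots (p ^ 1) (pow_pos hp 1) σ
  have h1 := h.2 1 σ a ha
  rw [hpD, Ideal.span_singleton_eq_bot.mpr rfl, Ideal.mem_bot, sub_eq_zero, det_lift] at h1
  have h2 := congrArg TrivSqZeroExt.snd h1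
  rw [TrivSqZeroExt.snd_natCast] at h2
  simp only [snd_add, snd_inl, snd_inr, zero_add] at h2
  rcases mul_eq_zero.mp h2 with h3 | h3
  · exact absurd h3 (det_rbar_ne_zero σ)
  · exact h3

/-- Conversely, the determinant of the lift is the determinant of `rbar` when the trace of the
tangent cocycle vanishes. -/
theorem det_lift_of_trace_eq_zero (σ : Γℚ) (h : (c.c σ).trace = 0) :
    LinearMap.det ((c.lift hrbar).ρ σ) = (inl (rbar σ).det : DualNumber k) := by
  rw [det_lift, h, mul_zero, inr_zero, add_zero]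

/-! ### (ii) unramifiedness -/

/-- **(ii)** The lift is unramified at `q` iff `rbar` is trivial and `c` vanishes on all inertia
subgroups at `q`. -/
theorem isUnramifiedAt_lift_iff (q : ℕ) :
    (c.lift hrbar).IsUnramifiedAt q ↔
      ∀ P : ValuationSubring (AlgebraicClosure ℚ), P.LiesOverPrime q →
        ∀ σ ∈ P.inertiaSubgroupIn ℚ, rbar σ = 1 ∧ c.c σ = 0 := by
  constructor
  · intro h P hP σ hσ
    exact (c.lift_ρ_eq_one_iff hrbar σ).mp (h P hP σ hσ)
  · intro h P hP σ hσ
    exact (c.lift_ρ_eq_one_iff hrbar σ).mpr (h P hP σ hσ)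

/-! ### (iii) unipotence on inertia -/

/-- **(iii)** The lift is unipotent on inertia at `q` iff on all inertia subgroups at `q`:
`charpoly (rbar σ) = (X - 1)^2`, `trace (c σ * rbar σ) = 0` and `trace (c σ) = 0`. -/
theorem isUnipotentOnInertiaAt_lift_iff (q : ℕ) :
    (c.lift hrbar).IsUnipotentOnInertiaAt q ↔
      ∀ P : ValuationSubring (AlgebraicClosure ℚ), P.LiesOverPrime q →
        ∀ σ ∈ P.inertiaSubgroupIn ℚ, (rbar σ).charpoly = (X - 1 : k[X]) ^ 2 ∧
          (c.c σ * rbar σ).trace = 0 ∧ (c.c σ).trace = 0 := by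
  have key : ∀ σ : Γℚ, LinearMap.charpoly ((c.lift hrbar).ρ σ) = (X - 1) ^ 2 ↔
      ((rbar σ).charpoly = (X - 1 : k[X]) ^ 2 ∧
        (c.c σ * rbar σ).trace = 0 ∧ (c.c σ).trace = 0) := by
    intro σ
    rw [charpoly_lift, charpoly_eq_X_sub_one_sq_iff, charpoly_eq_X_sub_one_sq_iff, trace_dn,
      det_dn_mul]
    have e1 : (1 : DualNumber k) = inl (1 : k) := (inl_one k).symm
    have e2 : (2 : DualNumber k) = inl (2 : k) := by
      rw [← one_add_one_eq_two, ← one_add_one_eq_two (R := k), inl_add, inl_one]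
    constructor
    · rintro ⟨h1, h2⟩
      have h1a := congrArg TrivSqZeroExt.fst h1
      have h1b := congrArg TrivSqZeroExt.snd h1
      have h2a := congrArg TrivSqZeroExt.fst h2
      have h2b := congrArg TrivSqZeroExt.snd h2
      rw [e2] at h1a h1b
      rw [e1] at h2a h2b
      simp only [fst_add, fst_inl, fst_inr, add_zero, snd_add, snd_inl, snd_inr, zero_add]
        at h1a h1b h2a h2b
      refine ⟨⟨h1a, h2a⟩, h1b, ?_⟩
      rcases mul_eq_zero.mp h2b with h | h
      · exact absurd h (det_rbar_ne_zero σ)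
      · exact h
    · rintro ⟨⟨h1, h2⟩, h3, h4⟩
      rw [h1, h2, h3, h4, e2, e1]
      constructor <;> ext <;> simp
  constructor
  · intro h P hP σ hσ
    exact (key σ).mp (h P hP σ hσ)
  · intro h P hP σ hσ
    exact (key σ).mpr (h P hP σ hσ)

/-! ### (iv) the splitting field of the lift -/

section Level

local instance isAlgebraicQbar_cond : Algebra.IsAlgebraic ℚ (AlgebraicClosure ℚ) :=
  AlgebraicClosure.isAlgebraic ℚ
local instance isAlgClosureQbar_cond : IsAlgClosure ℚ (AlgebraicClosure ℚ) :=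
  ⟨inferInstance, inferInstance⟩
local instance normalQbar_cond : Normal ℚ (AlgebraicClosure ℚ) :=
  IsAlgClosure.normal ℚ (AlgebraicClosure ℚ)
local instance isGaloisQbar_cond : IsGalois ℚ (AlgebraicClosure ℚ) := ⟨⟩

lemma mem_ker_liftMat_iff (σ : Γℚ) : σ ∈ c.liftMat.ker ↔ rbar σ = 1 ∧ c.c σ = 0 := by
  rw [MonoidHom.mem_ker, liftMat_apply, dn_eq_one_iff]
  constructor
  · rintro ⟨e1, e2⟩
    refine ⟨e1, ?_⟩
    rw [e1, Matrix.mul_one] at e2
    exact e2
  · rintro ⟨e1, e2⟩
    exact ⟨e1, by rw [e2, Matrix.zero_mul]⟩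

include hrbar in
/-- The kernel of the lift contains the fixing subgroup of a finite extension of `ℚ`. -/
lemma exists_fixingSubgroup_le_ker_liftMat :
    ∃ L₀ : IntermediateField ℚ (AlgebraicClosure ℚ), FiniteDimensional ℚ L₀ ∧
      L₀.fixingSubgroup ≤ c.liftMat.ker := by
  obtain ⟨L, hL, h1⟩ := hrbar
  obtain ⟨L', hL', h2⟩ := c.open'
  haveI := hL; haveI := hL'
  refine ⟨L ⊔ L', IntermediateField.finiteDimensional_sup L L', fun σ hσ => ?_⟩
  rw [IntermediateField.mem_fixingSubgroup_iff] at hσ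
  rw [mem_ker_liftMat_iff]
  exact ⟨h1 σ fun x hx => hσ x ((le_sup_left : L ≤ L ⊔ L') hx),
    h2 σ fun x hx => hσ x ((le_sup_right : L' ≤ L ⊔ L') hx)⟩

/-- The splitting field of the lift `c.lift`: the fixed field of the kernel of `c.liftMat`. -/
def splittingField : IntermediateField ℚ (AlgebraicClosure ℚ) :=
  IntermediateField.fixedField c.liftMat.ker

include hrbar in
lemma fixingSubgroup_splittingField : c.splittingField.fixingSubgroup = c.liftMat.ker := by
  obtain ⟨L₀, hL₀, hle⟩ := c.exists_fixingSubgroup_le_ker_liftMat hrbar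
  haveI := hL₀
  have hclosed : IsClosed (c.liftMat.ker : Set Γℚ) :=
    c.liftMat.ker.isClosed_of_isOpen (Subgroup.isOpen_mono hle L₀.fixingSubgroup_isOpen)
  exact InfiniteGalois.fixingSubgroup_fixedField ⟨c.liftMat.ker, hclosed⟩

include hrbar in
lemma mem_fixingSubgroup_splittingField_iff (σ : Γℚ) :
    σ ∈ c.splittingField.fixingSubgroup ↔ rbar σ = 1 ∧ c.c σ = 0 := by
  rw [c.fixingSubgroup_splittingField hrbar, mem_ker_liftMat_iff]

include hrbar in
lemma finiteDimensional_splittingField : FiniteDimensional ℚ c.splittingField := by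
  obtain ⟨L₀, hL₀, hle⟩ := c.exists_fixingSubgroup_le_ker_liftMat hrbar
  haveI := hL₀
  have h := IntermediateField.fixedField_antitone hle
  rw [InfiniteGalois.fixedField_fixingSubgroup] at h
  exact FiniteDimensional.of_injective (IntermediateField.inclusion h).toLinearMap
    (IntermediateField.inclusion_injective h)

include hrbar in
/-- The splitting field of the lift is Galois over `ℚ`. -/
lemma isGalois_splittingField : IsGalois ℚ c.splittingField := by
  have hN : c.splittingField.fixingSubgroup.Normal := by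
    rw [c.fixingSubgroup_splittingField hrbar]
    infer_instance
  have h := (InfiniteGalois.normal_iff_isGalois c.splittingField).mp hN
  convert h
  exact Subsingleton.elim _ _

include hrbar in
/-- `c` and `rbar` are constant on the cosets of the fixing subgroup of the splitting field. -/
lemma c_mul_of_mem_fixingSubgroup (g s : Γℚ) (hs : s ∈ c.splittingField.fixingSubgroup) :
    c.c (g * s) = c.c g ∧ rbar (g * s) = rbar g := by
  obtain ⟨e1, e2⟩ := (c.mem_fixingSubgroup_splittingField_iff hrbar s).mp hs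
  constructor
  · rw [c.map_mul', e2, Matrix.mul_zero, Matrix.zero_mul, add_zero]
  · rw [_root_.map_mul, e1, mul_one]

/-- **(iv)** If the lift is unramified outside `S'`, its splitting field is unramified
outside `S'`. -/
theorem isUnramifiedOutside_splittingField (S' : Finset Nat.Primes)
    (hur : ∀ q : Nat.Primes, q ∉ S' → (c.lift hrbar).IsUnramifiedAt (q : ℕ)) :
    c.splittingField.IsUnramifiedOutside S' := by
  refine ⟨c.finiteDimensional_splittingField hrbar, fun q hq P hP σ hσ => ?_⟩
  rw [c.mem_fixingSubgroup_splittingField_iff hrbar]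
  exact (c.isUnramifiedAt_lift_iff hrbar (q : ℕ)).mp (hur q hq) P hP σ hσ

/-- **(iv')** If the lift is unramified outside `S'`, the tangent cocycle is `S'`-level constant
in the sense of the Prelude. -/
theorem isLevelConstantS₁_of_unramified_outside (S' : Finset Nat.Primes)
    (hur : ∀ q : Nat.Primes, q ∉ S' → (c.lift hrbar).IsUnramifiedAt (q : ℕ)) :
    groupCohomology.IsLevelConstantS₁ S' c.c :=
  ⟨c.splittingField, c.isUnramifiedOutside_splittingField hrbar S' hur,
    fun g s hs => (c.c_mul_of_mem_fixingSubgroup hrbar g s hs).1⟩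

/-- Same for `rbar`. -/
theorem isLevelConstantS₁_rbar_of_unramified_outside (S' : Finset Nat.Primes)
    (hur : ∀ q : Nat.Primes, q ∉ S' → (c.lift hrbar).IsUnramifiedAt (q : ℕ)) :
    groupCohomology.IsLevelConstantS₁ S' (fun σ => rbar σ) :=
  ⟨c.splittingField, c.isUnramifiedOutside_splittingField hrbar S' hur,
    fun g s hs => (c.c_mul_of_mem_fixingSubgroup hrbar g s hs).2⟩

end Level

end TanCocycle

end Fermat.Agent.S56x.Dict

end
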