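import Mathlib
import Fermat.Prelude.Def_GroupCohomology_ContinuousUnramified
import Fermat.Agent.S56x.GW.Interface
import Fermat.Agent.S56x.Dict.Conditions

/-!
# P-S56 (C3/C4): the adjoint representation `ad⁰ ρbar` as a `Rep (ZMod p) Γℚ` and the class of a
tangent cocycle

* `ad0Rep p rbar : Rep (ZMod p) Γℚ` : trace-zero matrices with `σ • X = rbar σ * X * rbar σ⁻¹`.
* `TanCocycle.toCocycle c htr : cocycles₁ (ad0Rep p rbar)` and `TanCocycle.toClass`.
* `cohomologous_of_toClass_eq` (`p ≠ 2`): equal classes ⇒ cohomologous tangent cocycles.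
* `toClass_mem_continuousH1S` : the class is continuous and unramified outside `S'` when the
  lift is.
-/

set_option autoImplicit false
set_option linter.unusedSectionVars false
set_option linter.style.haveILetI false

noncomputable section

namespace Fermat.Agent.S56x.Dict

open TrivSqZeroExt Fermat.Agent.S53 groupCohomology CategoryTheory

local notation "Γℚ" => (AlgebraicClosure ℚ ≃ₐ[ℚ] AlgebraicClosure ℚ)
local notation "M₂" => Matrix (Fin 2) (Fin 2)

variable {k : Type} [Field k] (p : ℕ) [Fact p.Prime] [Algebra (ZMod p) k]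

/-- Trace-zero `2 × 2` matrices, as a `ZMod p`-module. -/
def ad0 (k : Type) [Field k] (p : ℕ) [Fact p.Prime] [Algebra (ZMod p) k] :
    Submodule (ZMod p) (M₂ k) :=
  (LinearMap.ker (Matrix.traceLinearMap (Fin 2) k k)).restrictScalars (ZMod p)

variable {p}

lemma mem_ad0 (X : M₂ k) : X ∈ ad0 k p ↔ X.trace = 0 := Iff.rfl

variable (p)

lemma trace_conj_rbar (rbar : Γℚ →* M₂ k) (σ : Γℚ) (X : M₂ k) :
    (rbar σ * X * rbar σ⁻¹).trace = X.trace := by
  rw [Matrix.trace_mul_comm, ← Matrix.mul_assoc, TanCocycle.rbar_inv_mul, Matrix.one_mul]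

/-- The adjoint action on trace-zero matrices. -/
def ad0Representation (rbar : Γℚ →* M₂ k) : Representation (ZMod p) Γℚ (ad0 k p) where
  toFun σ :=
    { toFun := fun X => ⟨rbar σ * X.1 * rbar σ⁻¹, by
        rw [mem_ad0, trace_conj_rbar]; exact X.2⟩
      map_add' := fun X Y => by
        apply Subtype.ext
        simp [Matrix.mul_add, Matrix.add_mul]
      map_smul' := fun a X => by
        apply Subtype.ext
        simp }
  map_one' := by
    ext X
    simp
  map_mul' σ τ := by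
    ext X
    simp [mul_inv_rev, Matrix.mul_assoc]

/-- `ad⁰ ρbar` as a `Rep (ZMod p) Γℚ`. -/
abbrev ad0Rep (rbar : Γℚ →* M₂ k) : Rep (ZMod p) Γℚ := Rep.of (ad0Representation p rbar)

@[simp] lemma ad0Representation_apply_coe (rbar : Γℚ →* M₂ k) (σ : Γℚ) (X : ad0 k p) :
    ((ad0Representation p rbar σ X : ad0 k p) : M₂ k) = rbar σ * X.1 * rbar σ⁻¹ := rfl

lemma ad0Rep_ρ (rbar : Γℚ →* M₂ k) : (ad0Rep p rbar).ρ = ad0Representation p rbar := rfl

namespace TanCocycle

variable {p} {rbar : Γℚ →* M₂ k}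

/-- A trace-zero tangent cocycle as a 1-cocycle of `ad⁰ ρbar`. -/
def toCocycle (c : TanCocycle rbar) (htr : ∀ σ, (c.c σ).trace = 0) :
    cocycles₁ (ad0Rep p rbar) :=
  ⟨fun σ => (⟨c.c σ, (mem_ad0 _).mpr (htr σ)⟩ : ad0 k p), by
    rw [mem_cocycles₁_iff]
    intro g h
    apply Subtype.ext
    show c.c (g * h) = rbar g * c.c h * rbar g⁻¹ + c.c g
    rw [c.map_mul', add_comm]⟩

lemma toCocycle_apply_coe (c : TanCocycle rbar) (htr : ∀ σ, (c.c σ).trace = 0) (σ : Γℚ) :
    (((c.toCocycle htr : cocycles₁ (ad0Rep p rbar)) σ : ad0 k p) : M₂ k) = c.c σ := rfl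

/-- The class of a trace-zero tangent cocycle in `H¹(Γℚ, ad⁰ ρbar)`. -/
def toClass (c : TanCocycle rbar) (htr : ∀ σ, (c.c σ).trace = 0) : H1 (ad0Rep p rbar) :=
  (H1π (ad0Rep p rbar)).hom (c.toCocycle htr)

/-- Equal classes give cohomologous tangent cocycles. -/
theorem cohomologous_of_toClass_eq {c c' : TanCocycle rbar}
    (htr : ∀ σ, (c.c σ).trace = 0) (htr' : ∀ σ, (c'.c σ).trace = 0)
    (h : c.toClass (p := p) htr = c'.toClass htr') : Cohomologous c c' := by
  unfold toClass at h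
  have h1 := (H1π_eq_iff (c.toCocycle (p := p) htr) (c'.toCocycle htr')).mp h
  obtain ⟨m, hm⟩ := h1
  refine ⟨(m : ad0 k p).1, fun σ => ?_⟩
  have h2 := congrFun hm σ
  have h3 : (ad0Representation p rbar σ m : ad0 k p) - m =
      (⟨c.c σ, (mem_ad0 _).mpr (htr σ)⟩ : ad0 k p) - ⟨c'.c σ, (mem_ad0 _).mpr (htr' σ)⟩ := h2
  have h4 := congrArg (fun X : ad0 k p => (X : M₂ k)) h3
  simp only [AddSubgroupClass.coe_sub, ad0Representation_apply_coe] at h4
  rw [sub_eq_sub_iff_add_eq_add] at h4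
  have h5 : c'.c σ = c.c σ + m.1 - rbar σ * m.1 * rbar σ⁻¹ := by
    rw [eq_sub_iff_add_eq, add_comm (c'.c σ), h4, add_comm]
  rw [h5]
  abel

/-- Cohomologous trace-zero tangent cocycles have equal classes (`p ≠ 2`). -/
theorem toClass_eq_of_cohomologous (hp2 : p ≠ 2) {c c' : TanCocycle rbar}
    (htr : ∀ σ, (c.c σ).trace = 0) (htr' : ∀ σ, (c'.c σ).trace = 0)
    (h : Cohomologous c c') : c.toClass (p := p) htr = c'.toClass htr' := by
  obtain ⟨X, hX⟩ := h
  have h2 : (2 : k) ≠ 0 := by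
    have hchar : CharP k p := by
      have := (algebraMap (ZMod p) k).injective
      exact (RingHom.charP_iff (algebraMap (ZMod p) k) this p).mp inferInstance
    intro h0
    have h20 : ((2 : ℕ) : k) = 0 := by exact_mod_cast h0
    have hdvd := (CharP.cast_eq_zero_iff k p 2).mp h20
    have hp : p.Prime := Fact.out
    exact hp2 ((Nat.prime_dvd_prime_iff_eq hp Nat.prime_two).mp hdvd)
  -- the trace-zero part of `X`
  set X0 : M₂ k := X - (X.trace / 2) • (1 : M₂ k) with hX0
  have hX0tr : X0.trace = 0 := by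
    rw [hX0, Matrix.trace_sub, Matrix.trace_smul, Matrix.trace_one, Fintype.card_fin,
      smul_eq_mul]
    push_cast
    field_simp
    ring
  have hconj : ∀ σ, X0 - rbar σ * X0 * rbar σ⁻¹ = X - rbar σ * X * rbar σ⁻¹ := by
    intro σ
    rw [hX0]
    simp only [Matrix.mul_sub, Matrix.sub_mul, Matrix.mul_smul, Matrix.smul_mul, Matrix.mul_one]
    rw [rbar_mul_inv]
    abel
  unfold toClass
  rw [H1π_eq_iff]
  refine ⟨(⟨X0, (mem_ad0 _).mpr hX0tr⟩ : ad0 k p), ?_⟩
  funext σ
  apply Subtype.ext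
  show rbar σ * X0 * rbar σ⁻¹ - X0 = c.c σ - c'.c σ
  rw [hX σ, ← hconj σ]
  abel

end TanCocycle

/-! ### `ad⁰ ρbar` is a good module -/

section Good

variable (rbar : Γℚ →* M₂ k)

lemma ad0Representation_eq_one_of_rbar_eq_one {σ : Γℚ} (h : rbar σ = 1) :
    ad0Representation p rbar σ = 1 := by
  ext X
  have h' : rbar σ⁻¹ = 1 := by
    have := TanCocycle.rbar_mul_inv (rbar := rbar) σ
    rwa [h, Matrix.one_mul] at this
  simp [h, h']

instance finiteDimensional_ad0 [Module.Finite (ZMod p) k] :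
    FiniteDimensional (ZMod p) (ad0 k p) := by
  have : Module.Finite (ZMod p) (M₂ k) := inferInstance
  exact FiniteDimensional.finiteDimensional_submodule _

instance finiteDimensional_ad0Rep [Module.Finite (ZMod p) k] :
    FiniteDimensional (ZMod p) (ad0Rep p rbar) :=
  finiteDimensional_ad0 p

/-- `ad⁰ ρbar` is discrete and unramified outside `S` when `ρbar` is. -/
theorem isGoodModule_ad0Rep (hrbar : GaloisFactorsThroughFiniteLevel rbar)
    (S : Finset Nat.Primes)
    (hur : ∀ q : Nat.Primes, q ∉ S → ∀ A : ValuationSubring (AlgebraicClosure ℚ),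
      A.LiesOverPrime (q : ℕ) → ∀ g ∈ A.inertiaSubgroupIn ℚ, rbar g = 1) :
    GW.IsGoodModule p S (ad0Rep p rbar) := by
  refine ⟨fun m => ?_, fun q hq A hA g hg => ?_⟩
  · obtain ⟨L, hL, h1⟩ := hrbar
    refine ⟨L, hL, fun s hs => ?_⟩
    have hs' : rbar s = 1 :=
      h1 s ((IntermediateField.mem_fixingSubgroup_iff L s).mp hs)
    show ad0Representation p rbar s m = m
    rw [ad0Representation_eq_one_of_rbar_eq_one p rbar hs']
    rfl
  · exact ad0Representation_eq_one_of_rbar_eq_one p rbar (hur q hq A hA g hg)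

end Good

namespace TanCocycle

variable {p} {rbar : Γℚ →* M₂ k}

/-- **(4)** The class of a trace-zero tangent cocycle is continuous and unramified outside `S'`
as soon as the lift is unramified outside `S'`. -/
theorem toClass_mem_continuousH1S (hrbar : GaloisFactorsThroughFiniteLevel rbar)
    (c : TanCocycle rbar) (htr : ∀ σ, (c.c σ).trace = 0) (S' : Finset Nat.Primes)
    (hur : ∀ q : Nat.Primes, q ∉ S' → (c.lift hrbar).IsUnramifiedAt (q : ℕ)) :
    c.toClass (p := p) htr ∈ continuousH1S S' (ad0Rep p rbar) := by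
  rw [mem_continuousH1S_iff]
  refine ⟨c.toCocycle htr, ⟨c.splittingField,
    c.isUnramifiedOutside_splittingField hrbar S' hur, fun g s hs => ?_⟩, rfl⟩
  apply Subtype.ext
  exact (c.c_mul_of_mem_fixingSubgroup hrbar g s hs).1

/-- The lift is unramified outside `S'` only if `rbar` is. -/
theorem rbar_eq_one_of_unramified (hrbar : GaloisFactorsThroughFiniteLevel rbar)
    (c : TanCocycle rbar) (S' : Finset Nat.Primes)
    (hur : ∀ q : Nat.Primes, q ∉ S' → (c.lift hrbar).IsUnramifiedAt (q : ℕ)) :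
    ∀ q : Nat.Primes, q ∉ S' → ∀ A : ValuationSubring (AlgebraicClosure ℚ),
      A.LiesOverPrime (q : ℕ) → ∀ g ∈ A.inertiaSubgroupIn ℚ, rbar g = 1 :=
  fun q hq A hA g hg =>
    ((c.isUnramifiedAt_lift_iff hrbar (q : ℕ)).mp (hur q hq) A hA g hg).1

/-- **(5)** Restriction of the class along a group hom `f : H →* Γℚ` (e.g. a decomposition
group): it is the class of the restricted cocycle. -/
theorem map_toClass {H : Type} [Group H] (f : H →* Γℚ) (c : TanCocycle rbar)
    (htr : ∀ σ, (c.c σ).trace = 0) :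
    (groupCohomology.map f (𝟙 (Rep.res f (ad0Rep p rbar))) 1).hom (c.toClass (p := p) htr) =
      (H1π (Rep.res f (ad0Rep p rbar))).hom
        ((mapCocycles₁ f (𝟙 (Rep.res f (ad0Rep p rbar)))).hom (c.toCocycle htr)) :=
  H1π_comp_map_apply f (𝟙 (Rep.res f (ad0Rep p rbar))) (c.toCocycle htr)

theorem mapCocycles₁_toCocycle_apply_coe {H : Type} [Group H] (f : H →* Γℚ) (c : TanCocycle rbar)
    (htr : ∀ σ, (c.c σ).trace = 0) (h : H) :
    ((((mapCocycles₁ f (𝟙 (Rep.res f (ad0Rep p rbar)))).hom (c.toCocycle (p := p) htr) :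
      cocycles₁ (Rep.res f (ad0Rep p rbar))) h : ad0 k p) : M₂ k) = c.c (f h) := rfl

end TanCocycle

end Fermat.Agent.S56x.Dict

end
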