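import Mathlib
import Fermat.Prelude.Def_GaloisRep_DeformationRingData
import Fermat.Agent.S53.NormalizedLift
import Fermat.Agent.S53.AuxLemmas
import Fermat.Agent.S56x.Dict.TanCocycle

/-!
# P-S56 (C3): a matrix model of a lift of `ρbar` whose reduction is a prescribed matrix model of `ρbar`
-/

set_option autoImplicit false
set_option linter.unusedSectionVars false
set_option linter.style.haveILetI false

noncomputable section

namespace Fermat.Agent.S56x.Dict

open IsLocalRing Fermat.Agent.S53 TrivSqZeroExt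

local notation "Γℚ" => (AlgebraicClosure ℚ ≃ₐ[ℚ] AlgebraicClosure ℚ)
local notation "M₂" => Matrix (Fin 2) (Fin 2)

section Lift

variable {R : Type} [CommRing R] [IsLocalRing R]

/-- An invertible matrix over the residue field lifts to a pair of mutually inverse matrices. -/
theorem exists_lift_GL (P₀ : GL (Fin 2) (ResidueField R)) :
    ∃ P Q : M₂ R, P * Q = 1 ∧ Q * P = 1 ∧
      P.map (residue R) = (P₀ : M₂ (ResidueField R)) ∧
      Q.map (residue R) = ((P₀⁻¹ : GL (Fin 2) (ResidueField R)) : M₂ (ResidueField R)) := by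
  have hs : ∀ x : ResidueField R, ∃ y : R, residue R y = x := residue_surjective
  choose f hf using hs
  let P : M₂ R := Matrix.of fun i j => f ((P₀ : M₂ (ResidueField R)) i j)
  have hP : P.map (residue R) = (P₀ : M₂ (ResidueField R)) := by
    ext i j; simp [P, hf]
  have hdet : IsUnit P.det := by
    have h1 : residue R P.det = (P₀ : M₂ (ResidueField R)).det := by
      rw [← hP]
      exact (RingHom.map_det (residue R) P)
    have h2 : IsUnit ((P₀ : M₂ (ResidueField R)).det) :=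
      (Matrix.isUnit_iff_isUnit_det _).mp P₀.isUnit
    rw [← h1] at h2
    exact (isUnit_map_iff (residue R) _).mp h2
  have hPu : IsUnit P := (Matrix.isUnit_iff_isUnit_det _).mpr hdet
  obtain ⟨u, hu⟩ := hPu
  refine ⟨P, ((u⁻¹ : (M₂ R)ˣ) : M₂ R), ?_, ?_, hP, ?_⟩
  · rw [← hu]; exact u.mul_inv
  · rw [← hu]; exact u.inv_mul
  · have h3 : P.map (residue R) * ((u⁻¹ : (M₂ R)ˣ) : M₂ R).map (residue R) = 1 := by
      rw [← Matrix.map_mul, ← hu, u.mul_inv, Matrix.map_one _ (map_zero _) (map_one _)]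
    rw [hP] at h3
    have h4 : ((P₀⁻¹ : GL (Fin 2) (ResidueField R)) : M₂ (ResidueField R)) *
        (P₀ : M₂ (ResidueField R)) = 1 := by
      rw [← Units.val_mul, inv_mul_cancel, Units.val_one]
    calc ((u⁻¹ : (M₂ R)ˣ) : M₂ R).map (residue R)
        = (((P₀⁻¹ : GL (Fin 2) (ResidueField R)) : M₂ (ResidueField R)) *
            (P₀ : M₂ (ResidueField R))) * ((u⁻¹ : (M₂ R)ˣ) : M₂ R).map (residue R) := by
          rw [h4, Matrix.one_mul]
      _ = ((P₀⁻¹ : GL (Fin 2) (ResidueField R)) : M₂ (ResidueField R)) := by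
          rw [Matrix.mul_assoc, h3, Matrix.mul_one]

end Lift

section MatModel

variable {𝒪 : Type} [CommRing 𝒪] [IsLocalRing 𝒪]
variable {R : Type} [CommRing R] [IsLocalRing R] [Algebra 𝒪 R] [IsLocalHom (algebraMap 𝒪 R)]

/-- A lift `ρ` of `ρbar` to `R` has a matrix model whose reduction is the base change of a given
matrix model `rbar` of `ρbar`. -/
theorem exists_matModel (ρbar : ResidualGaloisRep (ResidueField 𝒪)) (ρ : GaloisRepAdic R)
    (hres : ρ.residual.IsEquiv (ρbar.baseChangeAlong (ResidueField.map (algebraMap 𝒪 R))))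
    (rbar : Γℚ →* M₂ (ResidueField 𝒪)) (hrbar : GaloisFactorsThroughFiniteLevel rbar)
    (e0 : ρbar.Equiv (ofMatRes rbar hrbar)) :
    ∃ (r : Γℚ →* M₂ R) (hr : IsMatCont r), Nonempty (ρ.Equiv (ofMat r hr)) ∧
      mapMat (residue R) r = mapMat (ResidueField.map (algebraMap 𝒪 R)) rbar := by
  set ι := ResidueField.map (algebraMap 𝒪 R) with hι
  set b := chosenBasis ρ
  set r₀ := toMatOfBasis ρ b
  have hr₀ : IsMatCont r₀ := isMatCont_toMatOfBasis ρ b
  have e₁ : ρ.Equiv (ofMat r₀ hr₀) := equivOfMatOfBasis ρ b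
  obtain ⟨E3⟩ := hres
  have E : (ofMatRes (mapMat (residue R) r₀) (factorsThroughFiniteLevel_residue hr₀)).Equiv
      (ofMatRes (mapMat ι rbar) (factorsThroughFiniteLevel_mapMat ι hrbar)) :=
    (((((residualOfMatEquiv r₀ hr₀).symm).trans (GaloisRepAdic.Equiv.residual e₁).symm).trans
      E3).trans (ResidualGaloisRep.Equiv.baseChangeAlong ι e0)).trans
      (ofMatResBaseChangeEquiv rbar hrbar ι)
  obtain ⟨P₀, hP₀⟩ := (ofMatRes_isEquiv_iff _ _).mp ⟨E⟩
  obtain ⟨P, Q, hPQ, hQP, hP, hQ⟩ := exists_lift_GL P₀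
  refine ⟨conjRep P Q hPQ hQP r₀, hr₀.conjRep P Q hPQ hQP,
    ⟨e₁.trans (equivConjRep hr₀ P Q hPQ hQP)⟩, ?_⟩
  rw [mapMat_conjRep]
  ext1 σ
  rw [conjRep_apply]
  have h1 := hP₀ σ
  rw [hP, hQ, h1, Matrix.mul_assoc, ← Units.val_mul, mul_inv_cancel, Units.val_one,
    Matrix.mul_one]

end MatModel

end Fermat.Agent.S56x.Dict

end
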