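import Mathlib
import Fermat.Prelude.Def_GaloisRep_DeformationRingData
import Fermat.Prelude.Thm_IsLocalRing_isAdicComplete_of_module_finite
import Fermat.Agent.S53.NormalizedLift
import Fermat.Agent.S53.AuxLemmas
import Fermat.Agent.S56x.Dict.MatModel

/-!
# P-S56 (C3): from tangent vectors of a deformation ring to tangent cocycles

`card_algHom_le_of_cocycleCount`: let `DQ : DeformationRingData 𝒪 ρbar 𝒟`, `rbar` a matrix model of
`ρbar`.  Assume

* (EQ) `𝒟` is invariant under equivalence of representations over `k[ε]`;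
* (BC) `𝒟 (DQ.ρ.baseChangeAlong φ)` for every SURJECTIVE `φ : DQ.R →ₐ[𝒪] k[ε]`;
* (CC) every finite set `T` of tangent cocycles `c` with `𝒟 (c.lift)`, pairwise non-cohomologous and
  none cohomologous to `0`, has `T.card + 1 ≤ N`.

Then every finite set of `𝒪`-algebra homomorphisms `DQ.R → k[ε]` has at most `N` elements.
-/

set_option autoImplicit false
set_option linter.unusedSectionVars false
set_option linter.style.haveILetI false

noncomputable section

namespace Fermat.Agent.S56x.Dict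

open IsLocalRing Fermat.Agent.S53 TrivSqZeroExt

local notation "Γℚ" => (AlgebraicClosure ℚ ≃ₐ[ℚ] AlgebraicClosure ℚ)
local notation "M₂" => Matrix (Fin 2) (Fin 2)

section Dual

variable {𝒪 : Type} [CommRing 𝒪] [IsLocalRing 𝒪]

attribute [local instance] dualNumberAlgebra

lemma algebraMap_dual_apply (o : 𝒪) :
    algebraMap 𝒪 (DualNumber (ResidueField 𝒪)) o = inl (residue 𝒪 o) := rfl

instance isLocalHom_algebraMap_dual :
    IsLocalHom (algebraMap 𝒪 (DualNumber (ResidueField 𝒪))) :=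
  isLocalHom_algebraMap_dualNumber 𝒪

lemma residue_dual_surjective :
    Function.Surjective (residue (DualNumber (ResidueField 𝒪)) ∘
      algebraMap 𝒪 (DualNumber (ResidueField 𝒪))) :=
  (isArtinianTestAlgebra_dualNumber 𝒪).residue_surjective

lemma fst_eq_zero_of_mem_maximalIdeal {K : Type} [Field K] {x : DualNumber K}
    (hx : x ∈ maximalIdeal (DualNumber K)) : x.fst = 0 := by
  by_contra h
  have : IsUnit x := (TrivSqZeroExt.isUnit_iff_isUnit_fst).mpr (IsUnit.mk0 _ h)
  exact hx this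

variable {R : Type} [CommRing R] [IsLocalRing R] [Algebra 𝒪 R] [IsLocalHom (algebraMap 𝒪 R)]

/-- Every `𝒪`-algebra hom to the dual numbers is local. -/
lemma isLocalHom_algHom_dual (hsurj : Function.Surjective (residue R ∘ algebraMap 𝒪 R))
    (φ : R →ₐ[𝒪] DualNumber (ResidueField 𝒪)) :
    IsLocalHom (φ : R →+* DualNumber (ResidueField 𝒪)) := by
  refine ⟨fun x hx => ?_⟩
  by_contra hnu
  have hxm : x ∈ maximalIdeal R := hnu
  obtain ⟨o, ho⟩ := hsurj (residue R x)
  have h1 : x - algebraMap 𝒪 R o ∈ maximalIdeal R := by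
    rw [← Ideal.Quotient.eq]; exact ho.symm
  have h2 : algebraMap 𝒪 R o ∈ maximalIdeal R := by
    have := (maximalIdeal R).sub_mem hxm h1
    simpa using this
  have h3 : o ∈ maximalIdeal 𝒪 := by
    by_contra ho'
    have hu : IsUnit o := by simpa [mem_maximalIdeal, mem_nonunits_iff] using ho'
    exact h2 (hu.map (algebraMap 𝒪 R))
  -- now `x = (x - o) + o`, and we show `φ x` has zero constant term
  -- consider the ring hom `fst ∘ φ : R → k`; its kernel is a proper ideal, hence inside `𝔪_R`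
  let ψ : R →+* ResidueField 𝒪 :=
    (TrivSqZeroExt.fstHom (ResidueField 𝒪) (ResidueField 𝒪) (ResidueField 𝒪)).toRingHom.comp
      (φ : R →+* DualNumber (ResidueField 𝒪))
  have hψsurj : Function.Surjective ψ := by
    intro a
    obtain ⟨o', rfl⟩ := residue_surjective a
    refine ⟨algebraMap 𝒪 R o', ?_⟩
    show (φ (algebraMap 𝒪 R o')).fst = _
    rw [φ.commutes, algebraMap_dual_apply]; rfl
  have hker : RingHom.ker ψ = maximalIdeal R := by
    have hmax : (RingHom.ker ψ).IsMaximal := RingHom.ker_isMaximal_of_surjective ψ hψsurj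
    exact IsLocalRing.eq_maximalIdeal hmax
  have h4 : ψ x = 0 := by
    have : x ∈ RingHom.ker ψ := hker ▸ hxm
    exact this
  have h5 : (φ x).fst = 0 := h4
  have : ¬ IsUnit (φ x) := by
    rw [TrivSqZeroExt.isUnit_iff_isUnit_fst, h5]
    exact not_isUnit_zero
  exact this hx

/-- The constant term of `φ x` is determined by the residue class of `x`. -/
lemma fst_algHom_dual (hsurj : Function.Surjective (residue R ∘ algebraMap 𝒪 R))
    (φ : R →ₐ[𝒪] DualNumber (ResidueField 𝒪)) (x : R) (a : ResidueField 𝒪)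
    (hxa : residue R x = ResidueField.map (algebraMap 𝒪 R) a) : (φ x).fst = a := by
  haveI := isLocalHom_algHom_dual hsurj φ
  obtain ⟨o, rfl⟩ := residue_surjective a
  rw [ResidueField.map_residue] at hxa
  have h1 : x - algebraMap 𝒪 R o ∈ maximalIdeal R := by
    rw [← Ideal.Quotient.eq]; exact hxa
  have h2 : φ (x - algebraMap 𝒪 R o) ∈ maximalIdeal (DualNumber (ResidueField 𝒪)) := by
    intro hu
    exact h1 (isUnit_of_map_unit (φ : R →+* DualNumber (ResidueField 𝒪)) _ hu)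
  have h3 := fst_eq_zero_of_mem_maximalIdeal h2
  rw [map_sub, φ.commutes, algebraMap_dual_apply, TrivSqZeroExt.fst_sub, TrivSqZeroExt.fst_inl,
    sub_eq_zero] at h3
  exact h3

/-- A non-surjective `𝒪`-algebra hom to the dual numbers has vanishing `ε`-part. -/
lemma snd_algHom_dual_of_not_surjective
    (φ : R →ₐ[𝒪] DualNumber (ResidueField 𝒪)) (hns : ¬ Function.Surjective φ) (x : R) :
    (φ x).snd = 0 := by
  by_contra h
  apply hns
  intro y
  -- `y = inl a + inr b`, `inl a = φ (algebraMap o)`, `inr b = φ(o' • (x - o''))`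
  obtain ⟨o₁, ho₁⟩ := residue_surjective (R := 𝒪) y.fst
  obtain ⟨o₂, ho₂⟩ := residue_surjective (R := 𝒪) (φ x).fst
  obtain ⟨o₃, ho₃⟩ := residue_surjective (R := 𝒪) (y.snd / (φ x).snd)
  refine ⟨algebraMap 𝒪 R o₁ + algebraMap 𝒪 R o₃ * (x - algebraMap 𝒪 R o₂), ?_⟩
  rw [map_add, map_mul, map_sub, φ.commutes, φ.commutes, φ.commutes, algebraMap_dual_apply,
    algebraMap_dual_apply, algebraMap_dual_apply, ho₁, ho₂, ho₃]
  ext
  · simp
  · simp [div_mul_cancel₀ _ h]

end Dual

section Main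

variable {𝒪 : Type} [CommRing 𝒪] [IsDomain 𝒪] [IsDiscreteValuationRing 𝒪]
  [IsAdicComplete (maximalIdeal 𝒪) 𝒪] [Finite (ResidueField 𝒪)]
variable {ρbar : ResidualGaloisRep (ResidueField 𝒪)}
variable {𝒟 : ∀ ⦃A : Type⦄ [CommRing A] [IsLocalRing A] [Algebra 𝒪 A], GaloisRepAdic A → Prop}

attribute [local instance] dualNumberAlgebra

/-- **Dictionary, counting form.** -/
theorem card_algHom_le_of_cocycleCount (DQ : GaloisRep.DeformationRingData 𝒪 ρbar 𝒟)
    (hEQ : ∀ ρ ρ' : GaloisRepAdic (DualNumber (ResidueField 𝒪)), ρ.IsEquiv ρ' → 𝒟 ρ → 𝒟 ρ')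
    (hBC : ∀ (φ : DQ.R →ₐ[𝒪] DualNumber (ResidueField 𝒪))
      (hφ : IsLocalHom (φ : DQ.R →+* DualNumber (ResidueField 𝒪))), Function.Surjective φ →
      𝒟 (DQ.ρ.baseChangeAlong (φ : DQ.R →+* DualNumber (ResidueField 𝒪)) hφ))
    (rbar : Γℚ →* M₂ (ResidueField 𝒪)) (hrbar : GaloisFactorsThroughFiniteLevel rbar)
    (e0 : ρbar.Equiv (ofMatRes rbar hrbar)) (N : ℕ)
    (hCC : ∀ T : Finset (TanCocycle rbar), (∀ c ∈ T, 𝒟 (c.lift hrbar)) →
      (∀ c ∈ T, ∀ c' ∈ T, TanCocycle.Cohomologous c c' → c = c') →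
      (∀ c ∈ T, ∀ c₀ : TanCocycle rbar, (∀ σ, c₀.c σ = 0) → ¬ TanCocycle.Cohomologous c₀ c) →
      T.card + 1 ≤ N) :
    ∀ s : Finset (DQ.R →ₐ[𝒪] DualNumber (ResidueField 𝒪)), s.card ≤ N := by
  classical
  intro s
  have hsurjR := DQ.residue_surjective
  obtain ⟨r, hr, ⟨e⟩, hred⟩ := exists_matModel ρbar DQ.ρ DQ.residual_isEquiv rbar hrbar e0
  -- every hom is local
  have hloc : ∀ φ : DQ.R →ₐ[𝒪] DualNumber (ResidueField 𝒪),
      IsLocalHom (φ : DQ.R →+* DualNumber (ResidueField 𝒪)) :=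
    fun φ => isLocalHom_algHom_dual hsurjR φ
  -- constant part of the mapped matrix model
  have hfst : ∀ (φ : DQ.R →ₐ[𝒪] DualNumber (ResidueField 𝒪)) (σ : Γℚ),
      fstM (mapMat (φ : DQ.R →+* DualNumber (ResidueField 𝒪)) r σ) = rbar σ := by
    intro φ σ
    ext i j
    rw [fstM_apply, mapMat_apply, Matrix.map_apply]
    refine fst_algHom_dual hsurjR φ _ _ ?_
    have := congrFun (congrFun (congrArg (fun m : Γℚ →* M₂ (ResidueField DQ.R) => m σ) hred) i) j
    simpa using this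
  -- the cocycle of a tangent vector
  let cφ : (DQ.R →ₐ[𝒪] DualNumber (ResidueField 𝒪)) → TanCocycle rbar := fun φ =>
    TanCocycle.ofLift (mapMat (φ : DQ.R →+* DualNumber (ResidueField 𝒪)) r)
      (hr.map _ (hloc φ)) (hfst φ)
  have hlift : ∀ φ : DQ.R →ₐ[𝒪] DualNumber (ResidueField 𝒪),
      (cφ φ).liftMat = mapMat (φ : DQ.R →+* DualNumber (ResidueField 𝒪)) r :=
    fun φ => TanCocycle.liftMat_ofLift _ _ _
  -- the lift of the cocycle is the base change of the universal representation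
  have hequiv : ∀ φ : DQ.R →ₐ[𝒪] DualNumber (ResidueField 𝒪),
      (DQ.ρ.baseChangeAlong (φ : DQ.R →+* DualNumber (ResidueField 𝒪))
        (hloc φ)).IsEquiv ((cφ φ).lift hrbar) := by
    intro φ
    refine ⟨((GaloisRepAdic.Equiv.baseChangeAlong _ (hloc φ) e).trans
      (ofMatBaseChangeEquiv r hr _ (hloc φ))).trans (ofMatCongr _ _ (hlift φ).symm)⟩
  -- uniqueness from the universal property
  haveI : Finite (DualNumber (ResidueField 𝒪)) := finite_dualNumber _
  haveI : Module.Finite 𝒪 (DualNumber (ResidueField 𝒪)) := Module.Finite.of_finite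
  haveI : IsArtinianRing (DualNumber (ResidueField 𝒪)) := isArtinianRing_dualNumber _
  haveI : IsNoetherianRing (DualNumber (ResidueField 𝒪)) := inferInstance
  haveI : IsAdicComplete (maximalIdeal (DualNumber (ResidueField 𝒪)))
      (DualNumber (ResidueField 𝒪)) := IsLocalRing.isAdicComplete_of_module_finite (𝒪 := 𝒪)
  have huniq : ∀ φ ψ : DQ.R →ₐ[𝒪] DualNumber (ResidueField 𝒪), Function.Surjective ψ →
      ((cφ φ).lift hrbar).IsEquiv ((cφ ψ).lift hrbar) → φ = ψ := by
    intro φ ψ hψ hE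
    have hD : 𝒟 (DQ.ρ.baseChangeAlong (ψ : DQ.R →+* DualNumber (ResidueField 𝒪)) (hloc ψ)) :=
      hBC ψ (hloc ψ) hψ
    have hres := residual_isEquiv_baseChangeAlong ρbar DQ.ρ DQ.residual_isEquiv ψ (hloc ψ)
    obtain ⟨χ, -, hχ⟩ := DQ.universal (DualNumber (ResidueField 𝒪)) residue_dual_surjective
      _ hD hres
    have h1 : φ = χ := hχ φ ⟨hloc φ, by
      obtain ⟨E1⟩ := hequiv φ
      obtain ⟨E2⟩ := hE
      obtain ⟨E3⟩ := hequiv ψ
      exact ⟨(E1.trans E2).trans E3.symm⟩⟩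
    have h2 : ψ = χ := hχ ψ ⟨hloc ψ, ⟨GaloisRepAdic.Equiv.refl _⟩⟩
    rw [h1, h2]
  -- split `s` into surjective and non-surjective homs
  set s₁ := s.filter (fun φ : DQ.R →ₐ[𝒪] DualNumber (ResidueField 𝒪) => Function.Surjective ⇑φ) with hs₁
  set s₂ := s.filter (fun φ : DQ.R →ₐ[𝒪] DualNumber (ResidueField 𝒪) => ¬ Function.Surjective ⇑φ) with hs₂
  have hcard : s.card = s₁.card + s₂.card := by
    rw [hs₁, hs₂, Finset.card_filter_add_card_filter_not]
  -- at most one non-surjective hom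
  have hs₂card : s₂.card ≤ 1 := by
    rw [Finset.card_le_one]
    intro φ hφ ψ hψ
    have hφ' := (Finset.mem_filter.mp hφ).2
    have hψ' := (Finset.mem_filter.mp hψ).2
    ext x
    · obtain ⟨a, ha⟩ : ∃ a, residue DQ.R x = ResidueField.map (algebraMap 𝒪 DQ.R) a := by
        obtain ⟨o, ho⟩ := hsurjR (residue DQ.R x)
        exact ⟨residue 𝒪 o, by rw [ResidueField.map_residue]; exact ho.symm⟩
      rw [fst_algHom_dual hsurjR φ x a ha, fst_algHom_dual hsurjR ψ x a ha]
    · rw [snd_algHom_dual_of_not_surjective φ hφ' x, snd_algHom_dual_of_not_surjective ψ hψ' x]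
  -- the cocycles of the surjective homs
  have hinj : Set.InjOn cφ (s₁ : Set _) := by
    intro φ hφ ψ hψ h
    have hψ' := (Finset.mem_filter.mp (Finset.mem_coe.mp hψ)).2
    exact huniq φ ψ hψ' (by rw [h]; exact ⟨GaloisRepAdic.Equiv.refl _⟩)
  have hT := hCC (s₁.image cφ) ?_ ?_ ?_
  · rw [Finset.card_image_of_injOn hinj] at hT
    omega
  · intro c hc
    obtain ⟨φ, hφ, rfl⟩ := Finset.mem_image.mp hc
    have hφ' := (Finset.mem_filter.mp hφ).2
    exact hEQ _ _ (hequiv φ) (hBC φ (hloc φ) hφ')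
  · intro c hc c' hc' hcoh
    obtain ⟨φ, hφ, rfl⟩ := Finset.mem_image.mp hc
    obtain ⟨ψ, hψ, rfl⟩ := Finset.mem_image.mp hc'
    have hψ' := (Finset.mem_filter.mp hψ).2
    rw [huniq φ ψ hψ' (TanCocycle.lift_isEquiv_of_cohomologous hrbar hcoh)]
  · intro c hc c₀ hc₀ hcoh
    obtain ⟨ψ, hψ, rfl⟩ := Finset.mem_image.mp hc
    have hψ' := (Finset.mem_filter.mp hψ).2
    -- the trivial tangent vector
    -- `c₀.lift` is the lift attached to the non-surjective hom `φ₀`; we argue directly: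
    -- define `φ₀ := inl ∘ fst ∘ ψ`
    let φ₀ : DQ.R →ₐ[𝒪] DualNumber (ResidueField 𝒪) :=
      { toRingHom := (TrivSqZeroExt.inlHom (ResidueField 𝒪) (ResidueField 𝒪)).comp
          ((TrivSqZeroExt.fstHom (ResidueField 𝒪) (ResidueField 𝒪)
            (ResidueField 𝒪)).toRingHom.comp (ψ : DQ.R →+* DualNumber (ResidueField 𝒪)))
        commutes' := fun o => by
          show inl ((ψ (algebraMap 𝒪 DQ.R o)).fst) = _
          rw [ψ.commutes, algebraMap_dual_apply]; rfl }
    have hφ₀ : ∀ x, φ₀ x = inl (ψ x).fst := fun x => rfl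
    have hφ₀ns : ¬ Function.Surjective φ₀ := by
      intro h
      obtain ⟨x, hx⟩ := h (inr 1)
      have := congrArg TrivSqZeroExt.snd hx
      rw [hφ₀] at this
      simp at this
    -- `cφ φ₀ = c₀` as maps
    have hc₀' : ∀ σ, (cφ φ₀).c σ = c₀.c σ := by
      intro σ
      rw [hc₀ σ]
      show sndM (mapMat (φ₀ : DQ.R →+* DualNumber (ResidueField 𝒪)) r σ) * rbar σ⁻¹ = 0
      have : sndM (mapMat (φ₀ : DQ.R →+* DualNumber (ResidueField 𝒪)) r σ) = 0 := by
        ext i j
        rw [sndM_apply, mapMat_apply, Matrix.map_apply]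
        show (φ₀ (r σ i j)).snd = 0
        rw [hφ₀]; simp
      rw [this, Matrix.zero_mul]
    have hceq : cφ φ₀ = c₀ := by
      ext σ : 2
      exact hc₀' σ
    have : φ₀ = ψ := huniq φ₀ ψ hψ' (by
      rw [hceq]; exact TanCocycle.lift_isEquiv_of_cohomologous hrbar hcoh)
    exact hφ₀ns (this ▸ hψ')

end Main

end Fermat.Agent.S56x.Dict

end
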