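import Mathlib
import Fermat.Agent.S56x.GW.Interface
import Fermat.Agent.S56x.Dict.Ad0Rep

/-!
# P-S56 (C4): localisations of the class of a tangent cocycle are continuous

For a trace-zero tangent cocycle `c : TanCocycle rbar` and any group hom `f : H →* Γℚ`, the
restriction of `c.toClass` along `f` lies in `continuousH1 f (Rep.res f (ad⁰ ρbar))`; in particular
`(locRes (extArithLoc S') M v).hom (c.toClass htr) ∈ GW.locH1 S' M v` for every `v`.
Together with `TanCocycle.toClass_mem_continuousH1S` this gives membership in
`GW.Sel S' M (fun v => GW.locH1 S' M v)` and, for local conditions `L` containing the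
localisations, in `GW.Sel S' M L`.
-/

set_option autoImplicit false
set_option linter.unusedSectionVars false
set_option linter.style.haveILetI false

noncomputable section

namespace Fermat.Agent.S56x.Dict

open Fermat.Agent.S53 groupCohomology CategoryTheory ExtCitation Module

local notation "Γℚ" => (AlgebraicClosure ℚ ≃ₐ[ℚ] AlgebraicClosure ℚ)
local notation "M₂" => Matrix (Fin 2) (Fin 2)

variable {k : Type} [Field k] {p : ℕ} [Fact p.Prime] [Algebra (ZMod p) k]
  {rbar : Γℚ →* M₂ k}

namespace TanCocycle

/-- The restriction of the cocycle of `c` along `f` is level constant. -/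
theorem isLevelConstant₁_mapCocycles₁ (hrbar : GaloisFactorsThroughFiniteLevel rbar)
    {H : Type} [Group H] (f : H →* Γℚ) (c : TanCocycle rbar) (htr : ∀ σ, (c.c σ).trace = 0) :
    IsLevelConstant₁ f ((mapCocycles₁ f (𝟙 (Rep.res f (ad0Rep p rbar)))).hom
      (c.toCocycle (p := p) htr)) := by
  refine ⟨c.splittingField, c.finiteDimensional_splittingField hrbar, fun g s hs => ?_⟩
  apply Subtype.ext
  show c.c (f (g * s)) = c.c (f g)
  rw [map_mul]
  exact (c.c_mul_of_mem_fixingSubgroup hrbar (f g) (f s) hs).1

/-- The restriction of the class of `c` along `f` is a continuous class. -/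
theorem map_toClass_mem_continuousH1 (hrbar : GaloisFactorsThroughFiniteLevel rbar)
    {H : Type} [Group H] (f : H →* Γℚ) (c : TanCocycle rbar) (htr : ∀ σ, (c.c σ).trace = 0) :
    (groupCohomology.map f (𝟙 (Rep.res f (ad0Rep p rbar))) 1).hom (c.toClass (p := p) htr) ∈
      continuousH1 f (Rep.res f (ad0Rep p rbar)) := by
  rw [map_toClass]
  exact H1π_mem_continuousH1 f _ (c.isLevelConstant₁_mapCocycles₁ hrbar f htr)

/-- **(SelMember, local part)** every localisation of the class of `c` is continuous. -/
theorem locRes_toClass_mem_locH1 (hrbar : GaloisFactorsThroughFiniteLevel rbar)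
    (S' : Finset Nat.Primes) (c : TanCocycle rbar) (htr : ∀ σ, (c.c σ).trace = 0)
    (v : extArithIndex S') :
    (locRes (extArithLoc S') (ad0Rep p rbar) v).hom (c.toClass (p := p) htr) ∈
      GW.locH1 S' (ad0Rep p rbar) v :=
  c.map_toClass_mem_continuousH1 hrbar (extArithLoc S' v) htr

/-- **(SelMember)** the class of a trace-zero tangent cocycle whose lift is unramified outside
`S'` lies in the Selmer group of any family of local conditions containing its localisations. -/
theorem toClass_mem_Sel (hrbar : GaloisFactorsThroughFiniteLevel rbar)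
    (S' : Finset Nat.Primes) (c : TanCocycle rbar) (htr : ∀ σ, (c.c σ).trace = 0)
    (hur : ∀ q : Nat.Primes, q ∉ S' → (c.lift hrbar).IsUnramifiedAt (q : ℕ))
    (L : ∀ v : extArithIndex S',
      Submodule (ZMod p) (H1 (Rep.res (extArithLoc S' v) (ad0Rep p rbar))))
    (hL : ∀ v, (locRes (extArithLoc S') (ad0Rep p rbar) v).hom (c.toClass (p := p) htr) ∈ L v) :
    c.toClass (p := p) htr ∈ GW.Sel S' (ad0Rep p rbar) L :=
  ⟨c.toClass_mem_continuousH1S hrbar htr S' hur,
    (mem_selmer_iff (extArithLoc S') (ad0Rep p rbar) L _).mpr hL⟩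

/-- The class lies in the Selmer group with the full continuous local conditions. -/
theorem toClass_mem_Sel_locH1 (hrbar : GaloisFactorsThroughFiniteLevel rbar)
    (S' : Finset Nat.Primes) (c : TanCocycle rbar) (htr : ∀ σ, (c.c σ).trace = 0)
    (hur : ∀ q : Nat.Primes, q ∉ S' → (c.lift hrbar).IsUnramifiedAt (q : ℕ)) :
    c.toClass (p := p) htr ∈
      GW.Sel S' (ad0Rep p rbar) (fun v => GW.locH1 S' (ad0Rep p rbar) v) :=
  c.toClass_mem_Sel hrbar S' htr hur _ (fun v => c.locRes_toClass_mem_locH1 hrbar S' htr v)

end TanCocycle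

end Fermat.Agent.S56x.Dict

end
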