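import Mathlib
import Fermat.Agent.S56x.GW.Interface
import Fermat.Agent.S56x.Group.Cocycle

/-!
# P-S56 (C)/(D)/(E) adapter: the Tate dual of `ad⁰ ρbar` in matrix form

Block (B) (`GWPackage`) fixes the dual module `M^* := M.dualTwist χ = Hom_{𝔽_p}(M, 𝔽_p) ⊗ χ`
(the Prelude `𝔽_p`-linear dual), whereas blocks (D)/(E) compute with matrix valued cocycles
`ψ : G → M₂(k)` for the twisted adjoint action `adTwMat (r g) X = det (r g) • r g X (r g)⁻¹`
(`Fermat.Agent.S56x.Group.IsCocycle`).  This file is the bridge: the trace form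
`(X, Y) ↦ Tr_{k/𝔽_p} tr (X Y)` on trace-zero matrices is perfect (`p ≠ 2`) and `Ad`-invariant, hence
identifies `M^*` with the trace-zero matrices with the twisted adjoint action.

To stay independent of the file defining `ad⁰ ρbar : Rep (ZMod p) Γ`, everything is stated for an
abstract *matrix model* `Ad0Model M r` of a representation `M`.
-/

set_option autoImplicit false
set_option linter.unusedSectionVars false

open Matrix groupCohomology

noncomputable section

namespace Fermat.Agent.S56x.Dict.DualAd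

open Fermat.Agent.S56x.Group

local notation "M₂" => Matrix (Fin 2) (Fin 2)

section TraceForm

variable (p : ℕ) [Fact p.Prime] (k : Type) [Field k] [Algebra (ZMod p) k]

/-- The `𝔽_p`-bilinear trace form `(X, Y) ↦ Tr_{k/𝔽_p} (tr (X Y))` on `M₂(k)`. -/
def trF : M₂ k →ₗ[ZMod p] M₂ k →ₗ[ZMod p] ZMod p :=
  LinearMap.mk₂ (ZMod p) (fun X Y => Algebra.trace (ZMod p) k (Matrix.trace (X * Y)))
    (fun X X' Y => by rw [Matrix.add_mul, Matrix.trace_add, map_add])
    (fun c X Y => by rw [Matrix.smul_mul, Matrix.trace_smul, map_smul])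
    (fun X Y Y' => by rw [Matrix.mul_add, Matrix.trace_add, map_add])
    (fun c X Y => by rw [Matrix.mul_smul, Matrix.trace_smul, map_smul])

variable {p k}

@[simp] lemma trF_apply (X Y : M₂ k) :
    trF p k X Y = Algebra.trace (ZMod p) k (Matrix.trace (X * Y)) := rfl

lemma trF_comm (X Y : M₂ k) : trF p k X Y = trF p k Y X := by
  rw [trF_apply, trF_apply, Matrix.trace_mul_comm]

/-- `Ad`-invariance of the trace form. -/
lemma trF_conj (g : GL (Fin 2) k) (X Y : M₂ k) :
    trF p k ((g : M₂ k) * X * ((g⁻¹ : GL (Fin 2) k) : M₂ k))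
      ((g : M₂ k) * Y * ((g⁻¹ : GL (Fin 2) k) : M₂ k)) = trF p k X Y := by
  rw [trF_apply, trF_apply]
  congr 1
  have h : ((g⁻¹ : GL (Fin 2) k) : M₂ k) * (g : M₂ k) = 1 := by
    rw [← Units.val_mul, inv_mul_cancel, Units.val_one]
  calc Matrix.trace ((g : M₂ k) * X * ((g⁻¹ : GL (Fin 2) k) : M₂ k) *
        ((g : M₂ k) * Y * ((g⁻¹ : GL (Fin 2) k) : M₂ k)))
      = Matrix.trace ((g : M₂ k) * (X * Y) * ((g⁻¹ : GL (Fin 2) k) : M₂ k)) := by
        congr 1
        simp only [Matrix.mul_assoc]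
        rw [← Matrix.mul_assoc ((g⁻¹ : GL (Fin 2) k) : M₂ k) (g : M₂ k), h, Matrix.one_mul]
    _ = Matrix.trace (X * Y) := by
        rw [Matrix.trace_mul_cycle, h, Matrix.one_mul]

lemma trace_mul_fin_two (X Y : M₂ k) :
    Matrix.trace (X * Y) = X 0 0 * Y 0 0 + X 0 1 * Y 1 0 + (X 1 0 * Y 0 1 + X 1 1 * Y 1 1) := by
  rw [Matrix.trace_fin_two, Matrix.mul_apply, Matrix.mul_apply, Fin.sum_univ_two, Fin.sum_univ_two]

/-- The field trace separates points of the finite field `k`. -/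
lemma eq_zero_of_forall_trace_mul_eq_zero [Finite k] (a : k)
    (h : ∀ t : k, Algebra.trace (ZMod p) k (a * t) = 0) : a = 0 := by
  have hnd := _root_.traceForm_nondegenerate (ZMod p) k
  exact hnd.1 a fun t => by rw [Algebra.traceForm_apply]; exact h t

/-- **Nondegeneracy of the trace form on trace-zero matrices** (`p ≠ 2`). -/
theorem eq_zero_of_trF_eq_zero [Finite k] (h2 : (2 : k) ≠ 0) {X : M₂ k} (hX : X.trace = 0)
    (h : ∀ Y : M₂ k, Y.trace = 0 → trF p k X Y = 0) : X = 0 := by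
  have h01 : X 0 1 = 0 := by
    refine eq_zero_of_forall_trace_mul_eq_zero (p := p) _ fun t => ?_
    have := h !![0, 0; t, 0] (by simp [Matrix.trace_fin_two])
    rw [trF_apply, trace_mul_fin_two] at this
    simpa using this
  have h10 : X 1 0 = 0 := by
    refine eq_zero_of_forall_trace_mul_eq_zero (p := p) _ fun t => ?_
    have := h !![0, t; 0, 0] (by simp [Matrix.trace_fin_two])
    rw [trF_apply, trace_mul_fin_two] at this
    simpa using this
  have h11 : X 1 1 = -X 0 0 := by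
    rw [Matrix.trace_fin_two] at hX
    exact eq_neg_of_add_eq_zero_right hX
  have h00 : X 0 0 = 0 := by
    have h2a : 2 * X 0 0 = 0 := by
      refine eq_zero_of_forall_trace_mul_eq_zero (p := p) _ fun t => ?_
      have := h !![t, 0; 0, -t] (by simp [Matrix.trace_fin_two])
      rw [trF_apply, trace_mul_fin_two] at this
      have e : X 0 0 * (!![t, 0; 0, -t] : M₂ k) 0 0 + X 0 1 * (!![t, 0; 0, -t] : M₂ k) 1 0 +
          (X 1 0 * (!![t, 0; 0, -t] : M₂ k) 0 1 + X 1 1 * (!![t, 0; 0, -t] : M₂ k) 1 1) =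
          2 * X 0 0 * t := by
        rw [h11]; simp; ring
      rwa [e] at this
    exact (mul_eq_zero.mp h2a).resolve_left h2
  ext i j
  fin_cases i <;> fin_cases j
  · simpa using h00
  · simpa using h01
  · simpa using h10
  · simpa [h00] using h11

/-- Right-handed version of the nondegeneracy. -/
theorem eq_of_trF_eq [Finite k] (h2 : (2 : k) ≠ 0) {Y Y' : M₂ k} (hY : Y.trace = 0)
    (hY' : Y'.trace = 0) (h : ∀ X : M₂ k, X.trace = 0 → trF p k X Y = trF p k X Y') : Y = Y' := by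
  rw [← sub_eq_zero]
  refine eq_zero_of_trF_eq_zero (p := p) h2 (by rw [Matrix.trace_sub, hY, hY', sub_zero])
    fun X hX => ?_
  rw [trF_comm, map_sub, sub_eq_zero]
  exact h X hX

end TraceForm

section Model

variable {p : ℕ} [Fact p.Prime] {k : Type} [Field k] [Algebra (ZMod p) k] {G : Type} [Group G]

/-- A matrix model of `ad⁰`: an `𝔽_p`-linear injection of `M` into `M₂(k)` with image the trace-zero
matrices, intertwining the action of `g` with conjugation by `r g`. -/
structure Ad0Model (M : Rep.{0, 0, 0} (ZMod p) G) (r : G →* GL (Fin 2) k) where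
  /-- the underlying linear map -/
  toMat : M →ₗ[ZMod p] M₂ k
  inj : Function.Injective toMat
  range_eq : ∀ X : M₂ k, X ∈ LinearMap.range toMat ↔ X.trace = 0
  equivariant : ∀ (g : G) (m : M),
    toMat (M.ρ g m) = (r g : M₂ k) * toMat m * (((r g)⁻¹ : GL (Fin 2) k) : M₂ k)

/-- A matrix model of `ad⁰(1)`: as `Ad0Model`, for the adjoint action twisted by the determinant
(`adTwMat` of block (D)). -/
structure Ad0TwModel (N : Rep.{0, 0, 0} (ZMod p) G) (r : G →* GL (Fin 2) k) where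
  /-- the underlying linear map -/
  toMat : N →ₗ[ZMod p] M₂ k
  inj : Function.Injective toMat
  range_eq : ∀ X : M₂ k, X ∈ LinearMap.range toMat ↔ X.trace = 0
  equivariant : ∀ (g : G) (n : N), toMat (N.ρ g n) = adTwMat (r g) (toMat n)

namespace Ad0Model

variable {M : Rep.{0, 0, 0} (ZMod p) G} {r : G →* GL (Fin 2) k} (μ : Ad0Model M r)

lemma trace_toMat (m : M) : (μ.toMat m).trace = 0 :=
  (μ.range_eq _).1 ⟨m, rfl⟩

lemma exists_toMat_eq {X : M₂ k} (hX : X.trace = 0) : ∃ m : M, μ.toMat m = X :=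
  (μ.range_eq X).2 hX

include μ in
lemma finiteDimensional [Finite k] : FiniteDimensional (ZMod p) M :=
  FiniteDimensional.of_injective μ.toMat μ.inj

/-- `Y ↦ (m ↦ trF (toMat m) Y)`. -/
def pairMap : M₂ k →ₗ[ZMod p] Module.Dual (ZMod p) M :=
  μ.toMat.dualMap ∘ₗ (trF p k).flip

@[simp] lemma pairMap_apply (Y : M₂ k) (m : M) : μ.pairMap Y m = trF p k (μ.toMat m) Y := rfl

lemma pairMap_injOn [Finite k] (h2 : (2 : k) ≠ 0) {Y : M₂ k} (hY : Y.trace = 0)
    (h : μ.pairMap Y = 0) : Y = 0 := by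
  refine eq_zero_of_trF_eq_zero (p := p) h2 hY fun X hX => ?_
  obtain ⟨m, rfl⟩ := μ.exists_toMat_eq hX
  rw [trF_comm]
  exact LinearMap.congr_fun h m

/-- The perfect pairing as a linear equivalence `range toMat ≃ Dual M`. -/
def rangeEquivDual [Finite k] (h2 : (2 : k) ≠ 0) :
    LinearMap.range μ.toMat ≃ₗ[ZMod p] Module.Dual (ZMod p) M :=
  haveI := μ.finiteDimensional
  LinearMap.linearEquivOfInjective (μ.pairMap ∘ₗ (LinearMap.range μ.toMat).subtype)
    (by
      rw [← LinearMap.ker_eq_bot, LinearMap.ker_eq_bot']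
      rintro ⟨Y, hY⟩ h
      have := μ.pairMap_injOn h2 ((μ.range_eq Y).1 hY) h
      exact Subtype.ext this)
    (by
      rw [Subspace.dual_finrank_eq]
      exact (LinearEquiv.ofInjective μ.toMat μ.inj).finrank_eq.symm)

/-- The matrix attached to a linear form on `M` by the trace pairing. -/
def dualToMat [Finite k] (h2 : (2 : k) ≠ 0) : Module.Dual (ZMod p) M →ₗ[ZMod p] M₂ k :=
  (LinearMap.range μ.toMat).subtype ∘ₗ (μ.rangeEquivDual h2).symm.toLinearMap

variable [Finite k] (h2 : (2 : k) ≠ 0)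

lemma trace_dualToMat (f : Module.Dual (ZMod p) M) : (μ.dualToMat h2 f).trace = 0 :=
  (μ.range_eq _).1 ((μ.rangeEquivDual h2).symm f).2

/-- **The defining property**: `f m = Tr_{k/𝔽_p} tr (toMat m * dualToMat f)`. -/
lemma trF_dualToMat (f : Module.Dual (ZMod p) M) (m : M) :
    trF p k (μ.toMat m) (μ.dualToMat h2 f) = f m := by
  have h : μ.rangeEquivDual h2 ((μ.rangeEquivDual h2).symm f) = f := LinearEquiv.apply_symm_apply _ _
  have h' := LinearMap.congr_fun h m
  have := μ.finiteDimensional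
  rw [rangeEquivDual, LinearMap.linearEquivOfInjective_apply] at h'
  exact h'

lemma dualToMat_injective : Function.Injective (μ.dualToMat h2) := by
  intro f f' h
  ext m
  rw [← μ.trF_dualToMat h2 f m, ← μ.trF_dualToMat h2 f' m, h]

lemma exists_dualToMat_eq {Y : M₂ k} (hY : Y.trace = 0) : ∃ f, μ.dualToMat h2 f = Y := by
  refine ⟨μ.rangeEquivDual h2 ⟨Y, (μ.range_eq Y).2 hY⟩, ?_⟩
  simp [dualToMat]

/-- Uniqueness: a trace-zero matrix representing `f` is `dualToMat f`. -/
lemma dualToMat_eq_of_forall {f : Module.Dual (ZMod p) M} {Y : M₂ k} (hY : Y.trace = 0)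
    (h : ∀ m, trF p k (μ.toMat m) Y = f m) : μ.dualToMat h2 f = Y := by
  refine eq_of_trF_eq (p := p) h2 (μ.trace_dualToMat h2 f) hY fun X hX => ?_
  obtain ⟨m, rfl⟩ := μ.exists_toMat_eq hX
  rw [μ.trF_dualToMat h2, h]

/-- The trace form against a twisted conjugate. -/
lemma trF_adTwMat (g : GL (Fin 2) k) (c : ZMod p)
    (hc : algebraMap (ZMod p) k c = ((Matrix.GeneralLinearGroup.det g : kˣ) : k)) (X Y : M₂ k) :
    trF p k X (adTwMat g Y) =
      c * trF p k (((g⁻¹ : GL (Fin 2) k) : M₂ k) * X * (g : M₂ k)) Y := by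
  rw [trF_apply, trF_apply, adTwMat, ← hc, Matrix.mul_smul, Matrix.trace_smul,
    algebraMap_smul, map_smul, smul_eq_mul]
  congr 2
  rw [← Matrix.mul_assoc, ← Matrix.mul_assoc, Matrix.trace_mul_cycle, ← Matrix.mul_assoc]

/-- **The matrix model of the Tate dual**: under the trace pairing, `M.dualTwist χ` becomes the
trace-zero matrices with the adjoint action twisted by `det`, provided `χ = det ∘ r`. -/
def dual (χ : G →* (ZMod p)ˣ)
    (hχ : ∀ g, algebraMap (ZMod p) k ((χ g : (ZMod p)ˣ) : ZMod p) =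
      ((Matrix.GeneralLinearGroup.det (r g) : kˣ) : k)) :
    Ad0TwModel (M.dualTwist χ) r where
  toMat := μ.dualToMat h2
  inj := μ.dualToMat_injective h2
  range_eq X := ⟨by rintro ⟨f, rfl⟩; exact μ.trace_dualToMat h2 f,
    fun hX => μ.exists_dualToMat_eq h2 hX⟩
  equivariant g f := by
    refine μ.dualToMat_eq_of_forall h2 (trace_adTwMat_eq_zero _ (μ.trace_dualToMat h2 f))
      fun m => ?_
    rw [trF_adTwMat (r g) _ (hχ g), Rep.dualTwist_ρ_apply]
    have h1 : ((r g)⁻¹ : GL (Fin 2) k) = r g⁻¹ := (map_inv r g).symm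
    have h3 : μ.toMat (M.ρ g⁻¹ m) =
        (((r g)⁻¹ : GL (Fin 2) k) : M₂ k) * μ.toMat m * (r g : M₂ k) := by
      rw [μ.equivariant, h1, map_inv, inv_inv]
    rw [← h3, μ.trF_dualToMat h2]
    rfl

@[simp] lemma dual_toMat (χ : G →* (ZMod p)ˣ)
    (hχ : ∀ g, algebraMap (ZMod p) k ((χ g : (ZMod p)ˣ) : ZMod p) =
      ((Matrix.GeneralLinearGroup.det (r g) : kˣ) : k)) (f : Module.Dual (ZMod p) M) :
    (μ.dual h2 χ hχ).toMat f = μ.dualToMat h2 f := rfl

end Ad0Model

namespace Ad0TwModel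

variable {N : Rep.{0, 0, 0} (ZMod p) G} {r : G →* GL (Fin 2) k} (ν : Ad0TwModel N r)

lemma trace_toMat (n : N) : (ν.toMat n).trace = 0 :=
  (ν.range_eq _).1 ⟨n, rfl⟩

lemma exists_toMat_eq {X : M₂ k} (hX : X.trace = 0) : ∃ n : N, ν.toMat n = X :=
  (ν.range_eq X).2 hX

/-- The matrix valued function attached to an `N`-valued function. -/
def psi (c : G → N) : G → M₂ k := fun g => ν.toMat (c g)

@[simp] lemma psi_apply (c : G → N) (g : G) : ν.psi c g = ν.toMat (c g) := rfl

lemma trace_psi (c : G → N) (g : G) : (ν.psi c g).trace = 0 := ν.trace_toMat _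

/-- **Cocycles**: `c` is a 1-cocycle of `N` iff `psi c` is a cocycle for the twisted adjoint action
(convention of `Fermat.Agent.S56x.Group.IsCocycle`). -/
theorem mem_cocycles₁_iff (c : G → N) : c ∈ cocycles₁ N ↔ IsCocycle r (ν.psi c) := by
  rw [groupCohomology.mem_cocycles₁_iff]
  refine forall₂_congr fun g h => ?_
  rw [psi_apply, psi_apply, psi_apply, ← ν.equivariant, ← map_add]
  exact ⟨fun e => by rw [e, add_comm], fun e => (ν.inj e).trans (add_comm _ _)⟩

theorem isCocycle_psi (c : cocycles₁ N) : IsCocycle r (ν.psi c) :=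
  (ν.mem_cocycles₁_iff c).1 c.2

/-- **Coboundaries**. -/
theorem mem_coboundaries₁_iff (c : G → N) : c ∈ coboundaries₁ N ↔ IsCoboundary r (ν.psi c) := by
  constructor
  · rintro ⟨a, rfl⟩
    refine ⟨ν.toMat a, ν.trace_toMat a, fun g => ?_⟩
    rw [psi_apply, ← ν.equivariant, ← map_sub]
    rfl
  · rintro ⟨m, hm, h⟩
    obtain ⟨a, rfl⟩ := ν.exists_toMat_eq hm
    refine ⟨a, funext fun g => ν.inj ?_⟩
    have := h g
    rw [psi_apply, ← ν.equivariant, ← map_sub] at this
    rw [this]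
    rfl

theorem H1π_eq_zero_iff (c : cocycles₁ N) : H1π N c = 0 ↔ IsCoboundary r (ν.psi c) := by
  rw [groupCohomology.H1π_eq_zero_iff, ν.mem_coboundaries₁_iff]

/-- **The condition of (KILL)**: `n ∈ (σ - 1) N` in matrix terms. -/
theorem exists_eq_sub_iff (σ : G) (n : N) :
    (∃ a : N, n = N.ρ σ a - a) ↔
      ∃ m : M₂ k, m.trace = 0 ∧ ν.toMat n = adTwMat (r σ) m - m := by
  constructor
  · rintro ⟨a, rfl⟩
    exact ⟨ν.toMat a, ν.trace_toMat a, by rw [map_sub, ν.equivariant]⟩
  · rintro ⟨m, hm, h⟩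
    obtain ⟨a, rfl⟩ := ν.exists_toMat_eq hm
    exact ⟨a, ν.inj (by rw [h, map_sub, ν.equivariant])⟩

theorem mem_range_sub_one_iff (σ : G) (n : N) :
    n ∈ LinearMap.range (N.ρ σ - 1) ↔
      ∃ m : M₂ k, m.trace = 0 ∧ ν.toMat n = adTwMat (r σ) m - m := by
  rw [← ν.exists_eq_sub_iff]
  constructor
  · rintro ⟨a, rfl⟩
    exact ⟨a, rfl⟩
  · rintro ⟨a, rfl⟩
    exact ⟨a, rfl⟩

/-- The cocycle of `N` attached to a trace-zero matrix cocycle. -/
def ofPsi (ψ : G → M₂ k) (hψ : IsCocycle r ψ) (htr : ∀ g, (ψ g).trace = 0) : cocycles₁ N :=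
  ⟨fun g => (ν.exists_toMat_eq (htr g)).choose, by
    rw [ν.mem_cocycles₁_iff]
    have : ν.psi (fun g => (ν.exists_toMat_eq (htr g)).choose) = ψ :=
      funext fun g => (ν.exists_toMat_eq (htr g)).choose_spec
    rwa [this]⟩

@[simp] lemma psi_ofPsi (ψ : G → M₂ k) (hψ : IsCocycle r ψ) (htr : ∀ g, (ψ g).trace = 0) :
    ν.psi (ν.ofPsi ψ hψ htr) = ψ :=
  funext fun g => (ν.exists_toMat_eq (htr g)).choose_spec

/-- Invariants in matrix terms. -/
theorem mem_invariants_iff (n : N) :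
    n ∈ N.ρ.invariants ↔ ∀ g, adTwMat (r g) (ν.toMat n) = ν.toMat n := by
  rw [Representation.mem_invariants]
  refine forall_congr' fun g => ?_
  rw [← ν.equivariant]
  exact ⟨fun e => by rw [e], fun e => ν.inj e⟩

/-- Invariants of a restriction in matrix terms. -/
theorem mem_invariants_res_iff {H : Type} [Group H] (f : H →* G) (n : N) :
    n ∈ (Rep.res f N).ρ.invariants ↔ ∀ h : H, adTwMat (r (f h)) (ν.toMat n) = ν.toMat n := by
  rw [Representation.mem_invariants]
  refine forall_congr' fun h => ?_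
  rw [← ν.equivariant]
  exact ⟨fun e => congrArg ν.toMat e, fun e => ν.inj e⟩

end Ad0TwModel

namespace Ad0Model

variable {M : Rep.{0, 0, 0} (ZMod p) G} {r : G →* GL (Fin 2) k} (μ : Ad0Model M r)

/-- Invariants in matrix terms. -/
theorem mem_invariants_iff (m : M) :
    m ∈ M.ρ.invariants ↔
      ∀ g, (r g : M₂ k) * μ.toMat m * (((r g)⁻¹ : GL (Fin 2) k) : M₂ k) = μ.toMat m := by
  rw [Representation.mem_invariants]
  refine forall_congr' fun g => ?_
  rw [← μ.equivariant]
  exact ⟨fun e => by rw [e], fun e => μ.inj e⟩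

/-- Invariants of a restriction in matrix terms. -/
theorem mem_invariants_res_iff {H : Type} [Group H] (f : H →* G) (m : M) :
    m ∈ (Rep.res f M).ρ.invariants ↔
      ∀ h : H, (r (f h) : M₂ k) * μ.toMat m * (((r (f h))⁻¹ : GL (Fin 2) k) : M₂ k) =
        μ.toMat m := by
  rw [Representation.mem_invariants]
  refine forall_congr' fun h => ?_
  rw [← μ.equivariant]
  exact ⟨fun e => congrArg μ.toMat e, fun e => μ.inj e⟩

end Ad0Model

end Model

section OfMonoidHom

variable {p : ℕ} [Fact p.Prime] {k : Type} [Field k] [Algebra (ZMod p) k] {G : Type} [Group G]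

/-- Constructor of a matrix model from a matrix valued monoid homomorphism `rbar : G →* M₂(k)`
(the convention of `Dict/TanCocycle`): the `GL₂`-valued homomorphism is `rbar.toHomUnits`. -/
def Ad0Model.ofMonoidHom {M : Rep.{0, 0, 0} (ZMod p) G} (rbar : G →* M₂ k)
    (toMat : M →ₗ[ZMod p] M₂ k) (inj : Function.Injective toMat)
    (range_eq : ∀ X : M₂ k, X ∈ LinearMap.range toMat ↔ X.trace = 0)
    (equivariant : ∀ (g : G) (m : M), toMat (M.ρ g m) = rbar g * toMat m * rbar g⁻¹) :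
    Ad0Model M rbar.toHomUnits where
  toMat := toMat
  inj := inj
  range_eq := range_eq
  equivariant g m := by
    rw [equivariant, ← map_inv, MonoidHom.coe_toHomUnits, MonoidHom.coe_toHomUnits]

lemma coe_toHomUnits_apply (rbar : G →* M₂ k) (g : G) :
    ((rbar.toHomUnits g : GL (Fin 2) k) : M₂ k) = rbar g :=
  MonoidHom.coe_toHomUnits rbar g

lemma det_toHomUnits_apply (rbar : G →* M₂ k) (g : G) :
    ((Matrix.GeneralLinearGroup.det (rbar.toHomUnits g) : kˣ) : k) = (rbar g).det := by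
  rw [Matrix.GeneralLinearGroup.val_det_apply, MonoidHom.coe_toHomUnits]

end OfMonoidHom

section Galois

open ExtCitation

local notation "Γℚ" => (AlgebraicClosure ℚ ≃ₐ[ℚ] AlgebraicClosure ℚ)

variable {p : ℕ} [Fact p.Prime] {k : Type} [Field k] [Algebra (ZMod p) k]
variable {N : Rep.{0, 0, 0} (ZMod p) Γℚ} {r : Γℚ →* GL (Fin 2) k} (ν : Ad0TwModel N r)

/-- Level-constancy passes to the matrix cocycle. -/
lemma Ad0TwModel.isLevelConstantS₁_psi {S : Finset Nat.Primes} {c : Γℚ → N}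
    (hc : IsLevelConstantS₁ S c) : IsLevelConstantS₁ S (ν.psi c) :=
  hc.comp ν.toMat

/-- ... and back. -/
lemma Ad0TwModel.isLevelConstantS₁_of_psi {S : Finset Nat.Primes} {c : Γℚ → N}
    (hc : IsLevelConstantS₁ S (ν.psi c)) : IsLevelConstantS₁ S c := by
  obtain ⟨F, hF, h⟩ := hc
  exact ⟨F, hF, fun g s hs => ν.inj (h g s hs)⟩

/-- **The (KILL) adapter.**  A nonzero class `x ∈ continuousH1S S N` of a module `N` with a twisted
matrix model is represented by a level-constant trace-zero matrix cocycle `ψ` which is not a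
coboundary, and for every `σ` such that `ψ σ` is not of the form `adTwMat (r σ) B - B` the value
`c σ` of the representing cocycle is not in `(σ - 1) N`. -/
theorem Ad0TwModel.exists_matrix_cocycle {S : Finset Nat.Primes} {x : H1 N}
    (hx : x ∈ continuousH1S S N) (hx0 : x ≠ 0) :
    ∃ c : cocycles₁ N, IsLevelConstantS₁ S c ∧ (H1π N).hom c = x ∧
      IsCocycle r (ν.psi c) ∧ (∀ g, (ν.psi c g).trace = 0) ∧ ¬ IsCoboundary r (ν.psi c) ∧
      IsLevelConstantS₁ S (ν.psi c) ∧
      ∀ σ : Γℚ, (∀ B : M₂ k, adTwMat (r σ) B - B ≠ ν.psi c σ) →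
        c σ ∉ LinearMap.range (N.ρ σ - 1) := by
  obtain ⟨c, hc, rfl⟩ := (mem_continuousH1S_iff S N x).1 hx
  refine ⟨c, hc, rfl, ν.isCocycle_psi c, ν.trace_psi c, ?_, ν.isLevelConstantS₁_psi hc, ?_⟩
  · intro hcob
    exact hx0 ((ν.H1π_eq_zero_iff c).2 hcob)
  · intro σ hσ hmem
    obtain ⟨m, -, hm⟩ := (ν.mem_range_sub_one_iff σ (c σ)).1 hmem
    exact hσ m hm.symm

/-- The twisted matrix model of the Tate dual `tateDual p M = M.dualTwist (cycloChar p)` of a module
with an `ad⁰`-model, when `det ∘ r` is the mod `p` cyclotomic character. -/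
def tateDualModel [Finite k] (h2 : (2 : k) ≠ 0) {M : Rep.{0, 0, 0} (ZMod p) Γℚ}
    (μ : Ad0Model M r)
    (hχ : ∀ g, algebraMap (ZMod p) k ((cycloChar p g : (ZMod p)ˣ) : ZMod p) =
      ((Matrix.GeneralLinearGroup.det (r g) : kˣ) : k)) :
    Ad0TwModel (Fermat.Agent.S56x.GW.tateDual p M) r :=
  μ.dual h2 (cycloChar p) hχ

end Galois

end Fermat.Agent.S56x.Dict.DualAd

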