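import Fermat.Agent.S56x.Dict.Ad0Rep
import Fermat.Agent.S56x.Dict.DualAd

/-!
# P-S56: the matrix models of `ad0Rep p rbar` and of its Tate dual

Instantiates the abstract adapter `Dict/DualAd` at the module `ad0Rep p rbar` of `Dict/Ad0Rep`:

* `ad0RepModel rbar : Ad0Model (ad0Rep p rbar) rbar.toHomUnits` (the inclusion of trace-zero
  matrices);
* `ad0RepDualModel h2 rbar hdet : Ad0TwModel (tateDual p (ad0Rep p rbar)) rbar.toHomUnits`, when
  `det ∘ rbar` is the mod `p` cyclotomic character: the Tate dual of `ad⁰ ρbar` is the space of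
  trace-zero matrices with the action `adTwMat (r g) X = det (r g) • r g X (r g)⁻¹` of block (D);
* `exists_matrix_cocycle_of_ne_zero`: the (KILL) adapter for nonzero classes of
  `continuousH1S S (tateDual p (ad0Rep p rbar))`.
-/

set_option autoImplicit false
set_option linter.unusedSectionVars false

open Matrix groupCohomology ExtCitation

noncomputable section

namespace Fermat.Agent.S56x.Dict.DualAd

open Fermat.Agent.S56x.Group Fermat.Agent.S56x.Dict

local notation "Γℚ" => (AlgebraicClosure ℚ ≃ₐ[ℚ] AlgebraicClosure ℚ)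
local notation "M₂" => Matrix (Fin 2) (Fin 2)

variable {p : ℕ} [Fact p.Prime] {k : Type} [Field k] [Algebra (ZMod p) k]

/-- The tautological matrix model of `ad0Rep p rbar`. -/
def ad0RepModel (rbar : Γℚ →* M₂ k) : Ad0Model (ad0Rep p rbar) rbar.toHomUnits :=
  Ad0Model.ofMonoidHom rbar (ad0 k p).subtype Subtype.val_injective
    (fun X => by
      rw [Submodule.range_subtype]
      exact mem_ad0 X)
    (fun _ _ => rfl)

@[simp] lemma ad0RepModel_toMat (rbar : Γℚ →* M₂ k) (X : ad0 k p) :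
    (ad0RepModel (p := p) rbar).toMat X = (X : M₂ k) := rfl

variable [Finite k]

/-- The twisted matrix model of the Tate dual of `ad0Rep p rbar`. -/
def ad0RepDualModel (h2 : (2 : k) ≠ 0) (rbar : Γℚ →* M₂ k)
    (hdet : ∀ g, algebraMap (ZMod p) k ((cycloChar p g : (ZMod p)ˣ) : ZMod p) = (rbar g).det) :
    Ad0TwModel (Fermat.Agent.S56x.GW.tateDual p (ad0Rep p rbar)) rbar.toHomUnits :=
  tateDualModel h2 (ad0RepModel rbar) fun g => by rw [det_toHomUnits_apply, hdet]

/-- The defining property of the dual model: a linear form `f` on trace-zero matrices is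
`X ↦ Tr_{k/𝔽_p} tr (X * toMat f)`. -/
lemma trF_ad0RepDualModel (h2 : (2 : k) ≠ 0) (rbar : Γℚ →* M₂ k)
    (hdet : ∀ g, algebraMap (ZMod p) k ((cycloChar p g : (ZMod p)ˣ) : ZMod p) = (rbar g).det)
    (f : Module.Dual (ZMod p) (ad0 k p)) (X : ad0 k p) :
    trF p k (X : M₂ k) ((ad0RepDualModel h2 rbar hdet).toMat f) = f X :=
  (ad0RepModel (p := p) rbar).trF_dualToMat h2 f X

/-- **(KILL) adapter for `ad⁰ ρbar`**: a nonzero class of
`continuousH1S S (tateDual p (ad0Rep p rbar))` is represented by a level-constant cocycle `c` whose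
matrix form `ψ` is a trace-zero cocycle for the twisted adjoint action of block (D), not a
coboundary; and `c σ ∉ (σ - 1) M^*` as soon as `ψ σ` is not of the form `adTwMat (r σ) B - B`. -/
theorem exists_matrix_cocycle_of_ne_zero (h2 : (2 : k) ≠ 0) (rbar : Γℚ →* M₂ k)
    (hdet : ∀ g, algebraMap (ZMod p) k ((cycloChar p g : (ZMod p)ˣ) : ZMod p) = (rbar g).det)
    {S : Finset Nat.Primes} {x : H1 (Fermat.Agent.S56x.GW.tateDual p (ad0Rep p rbar))}
    (hx : x ∈ continuousH1S S (Fermat.Agent.S56x.GW.tateDual p (ad0Rep p rbar))) (hx0 : x ≠ 0) :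
    ∃ (c : cocycles₁ (Fermat.Agent.S56x.GW.tateDual p (ad0Rep p rbar)))
      (ψ : Γℚ → M₂ k),
      IsLevelConstantS₁ S c ∧
      (H1π (Fermat.Agent.S56x.GW.tateDual p (ad0Rep p rbar))).hom c = x ∧
      IsCocycle rbar.toHomUnits ψ ∧ (∀ g, (ψ g).trace = 0) ∧
      ¬ IsCoboundary rbar.toHomUnits ψ ∧ IsLevelConstantS₁ S ψ ∧
      ∀ σ : Γℚ, (∀ B : M₂ k, adTwMat (rbar.toHomUnits σ) B - B ≠ ψ σ) →
        c σ ∉ LinearMap.range
          ((Fermat.Agent.S56x.GW.tateDual p (ad0Rep p rbar)).ρ σ - 1) := by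
  obtain ⟨c, h1, h2', h3, h4, h5, h6, h7⟩ :=
    (ad0RepDualModel h2 rbar hdet).exists_matrix_cocycle hx hx0
  exact ⟨c, _, h1, h2', h3, h4, h5, h6, h7⟩

end Fermat.Agent.S56x.Dict.DualAd
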