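/-
P-S56, block (C), part C2 (helper54): ring-theoretic facts on the dual numbers `k[ε]`,
`k = ResidueField 𝒪`, as an `𝒪`-algebra (`S53.dualNumberAlgebra 𝒪`):

* `isLocalHom_algHom_dual` : every `𝒪`-algebra hom `R → k[ε]` (`R` local) is local;
* `surjective_or_forall_eq_zero` : such a hom is surjective or kills `𝔪_R`;
* `isAdicComplete_dual`, `isNoetherianRing_dual`, `finite_residueField_dual` : the instances needed
  to apply `DeformationRingData.universal` at `A = k[ε]`.
-/
import Mathlib
import Fermat.Agent.S53.AuxLemmas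
import Fermat.Agent.S53.IndexSet

set_option autoImplicit false
set_option linter.style.haveILetI false
set_option linter.unusedSectionVars false

noncomputable section

namespace Fermat.Agent.S56x.Dict.DualRing

open IsLocalRing Fermat.Agent.S53

/-- a ring is adically complete for a nilpotent ideal. -/
theorem isAdicComplete_of_pow_eq_bot {R : Type*} [CommRing R] (I : Ideal R) {N : ℕ}
    (hN : I ^ N = ⊥) : IsAdicComplete I R := by
  have hbot : (I ^ N • ⊤ : Submodule R R) = ⊥ := by rw [hN, Submodule.bot_smul]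
  refine { haus' := fun x hx => ?_, prec' := fun f hf => ⟨f N, fun n => ?_⟩ }
  · have h := hx N
    rw [hbot, SModEq.sub_mem, Submodule.mem_bot, sub_zero] at h
    exact h
  · rcases le_total n N with h | h
    · exact hf h
    · have h1 := hf h
      rw [hbot, SModEq.sub_mem, Submodule.mem_bot, sub_eq_zero] at h1
      rw [h1]

theorem mem_maximalIdeal_dual_iff {k : Type} [Field k] (y : DualNumber k) :
    y ∈ maximalIdeal (DualNumber k) ↔ y.fst = 0 := by
  rw [IsLocalRing.mem_maximalIdeal, mem_nonunits_iff, TrivSqZeroExt.isUnit_iff_isUnit_fst,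
    isUnit_iff_ne_zero, not_not]

section Dual

variable {𝒪 : Type} [CommRing 𝒪] [IsLocalRing 𝒪]

attribute [local instance] dualNumberAlgebra

local notation "kε" => DualNumber (ResidueField 𝒪)

theorem algebraMap_dual_apply (o : 𝒪) :
    algebraMap 𝒪 kε o = TrivSqZeroExt.inl (residue 𝒪 o) := rfl

theorem isAdicComplete_dual : IsAdicComplete (maximalIdeal kε) kε := by
  obtain ⟨N, hN⟩ := maximalIdeal_pow_eq_bot_of_isArtinianTestAlgebra
    (isArtinianTestAlgebra_dualNumber 𝒪)
  exact isAdicComplete_of_pow_eq_bot _ hN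

theorem isNoetherianRing_dual : IsNoetherianRing kε := by
  haveI : IsArtinianRing kε := isArtinianRing_dualNumber _
  infer_instance

theorem finite_residueField_dual [Finite (ResidueField 𝒪)] : Finite (ResidueField kε) := by
  haveI : Finite kε := finite_dualNumber _
  exact Finite.of_surjective _ residue_surjective

variable {R : Type} [CommRing R] [IsLocalRing R] [Algebra 𝒪 R]

theorem algHom_algebraMap_dual (φ : R →ₐ[𝒪] kε) (o : 𝒪) :
    φ (algebraMap 𝒪 R o) = TrivSqZeroExt.inl (residue 𝒪 o) := by
  rw [AlgHom.commutes, algebraMap_dual_apply]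

/-- every `𝒪`-algebra hom to the dual numbers is local. -/
theorem isLocalHom_algHom_dual (φ : R →ₐ[𝒪] kε) : IsLocalHom (φ : R →+* kε) := by
  -- the composite `R → k[ε] → k` is onto a field, so its kernel is the maximal ideal
  let π : kε →+* ResidueField 𝒪 :=
    TrivSqZeroExt.fstHom (ResidueField 𝒪) (ResidueField 𝒪) (ResidueField 𝒪)
  have hsurj : Function.Surjective (π.comp (φ : R →+* kε)) := by
    intro x
    obtain ⟨o, rfl⟩ := residue_surjective x
    refine ⟨algebraMap 𝒪 R o, ?_⟩
    show π (φ (algebraMap 𝒪 R o)) = residue 𝒪 o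
    rw [algHom_algebraMap_dual]
    rfl
  have hmax : (RingHom.ker (π.comp (φ : R →+* kε))).IsMaximal :=
    RingHom.ker_isMaximal_of_surjective _ hsurj
  have hker := IsLocalRing.eq_maximalIdeal hmax
  refine ⟨fun a ha => ?_⟩
  by_contra hna
  have h1 : a ∈ maximalIdeal R := (IsLocalRing.mem_maximalIdeal a).mpr hna
  rw [← hker, RingHom.mem_ker, RingHom.comp_apply] at h1
  have h2 : (φ a).fst = 0 := h1
  have h3 : φ a ∈ maximalIdeal kε := (mem_maximalIdeal_dual_iff _).mpr h2
  exact (IsLocalRing.mem_maximalIdeal _).mp h3 ha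

/-- an `𝒪`-algebra hom to the dual numbers is surjective or kills the maximal ideal. -/
theorem surjective_or_forall_eq_zero (φ : R →ₐ[𝒪] kε) :
    Function.Surjective (φ : R →+* kε) ∨ ∀ a ∈ maximalIdeal R, (φ : R →+* kε) a = 0 := by
  by_cases h : ∀ a ∈ maximalIdeal R, (φ : R →+* kε) a = 0
  · exact Or.inr h
  · left
    push Not at h
    obtain ⟨x, hx, hx0⟩ := h
    haveI := isLocalHom_algHom_dual φ
    have h1 : (φ x).fst = 0 :=
      (mem_maximalIdeal_dual_iff _).mp (map_nonunit (φ : R →+* kε) x hx)
    have hc : (φ x).snd ≠ 0 := by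
      intro h2
      exact hx0 (TrivSqZeroExt.ext h1 h2)
    intro y
    obtain ⟨oa, hoa⟩ := residue_surjective (R := 𝒪) y.fst
    obtain ⟨od, hod⟩ := residue_surjective (R := 𝒪) (y.snd / (φ x).snd)
    refine ⟨algebraMap 𝒪 R oa + algebraMap 𝒪 R od * x, ?_⟩
    rw [AlgHom.coe_toRingHom, map_add, map_mul, algHom_algebraMap_dual, algHom_algebraMap_dual,
      hoa, hod]
    refine TrivSqZeroExt.ext ?_ ?_
    · simp [h1]
    · simp [h1, div_mul_cancel₀ _ hc]

end Dual

end Fermat.Agent.S56x.Dict.DualRing
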