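import Mathlib
import Fermat.Prelude.Def_GaloisRep_StrictOrdinary
import Fermat.Prelude.Def_GaloisRep_Flat

/-!
# P-S56, block (C) dictionary: the deformation conditions are stable under base change

For a local homomorphism `φ : A →+* B` of local rings and `ρ : GaloisRepAdic A`, the conditions
`DetIsCyclotomic p`, `IsUnramifiedAt q`, `IsUnipotentOnInertiaAt q`, `IsStrictOrdinaryAt p` pass
from `ρ` to `ρ.baseChangeAlong φ hφ`; hence so do `strictOrdinaryCondition` and the unipotence
conditions.  In particular every tangent vector `R → k[ε]` of a deformation ring gives a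
deformation of the same type.
-/

set_option autoImplicit false
set_option linter.style.haveILetI false

namespace Fermat.Agent.S56x.Dict.TypeBaseChange

open scoped TensorProduct
open Polynomial

local notation "Γℚ" => (AlgebraicClosure ℚ ≃ₐ[ℚ] AlgebraicClosure ℚ)

variable {A B : Type} [CommRing A] [IsLocalRing A] [CommRing B] [IsLocalRing B]
  (φ : A →+* B) (hφ : IsLocalHom φ) (ρ : GaloisRepAdic A)

include φ hφ in
/-- The image of a natural number of the maximal ideal stays in the maximal ideal. -/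
theorem natCast_mem_maximalIdeal {p : ℕ} (h : (p : A) ∈ IsLocalRing.maximalIdeal A) :
    (p : B) ∈ IsLocalRing.maximalIdeal B := by
  have h2 : φ (p : A) ∈ IsLocalRing.maximalIdeal B := by
    haveI := hφ
    exact map_nonunit φ _ h
  rwa [map_natCast] at h2

/-- The determinant of the base change. -/
theorem det_baseChangeAlong (σ : Γℚ) :
    LinearMap.det ((ρ.baseChangeAlong φ hφ).ρ σ) = φ (LinearMap.det (ρ.ρ σ)) := by
  letI : Algebra A B := φ.toAlgebra
  show LinearMap.det ((ρ.ρ σ).baseChange B) = φ (LinearMap.det (ρ.ρ σ))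
  rw [LinearMap.det_baseChange]
  rfl

/-- The characteristic polynomial of the base change. -/
theorem charpoly_baseChangeAlong (σ : Γℚ) :
    LinearMap.charpoly ((ρ.baseChangeAlong φ hφ).ρ σ) = (LinearMap.charpoly (ρ.ρ σ)).map φ := by
  letI : Algebra A B := φ.toAlgebra
  show LinearMap.charpoly ((ρ.ρ σ).baseChange B) = (LinearMap.charpoly (ρ.ρ σ)).map φ
  rw [LinearMap.charpoly_baseChange]
  rfl

/-- The trace of the base change. -/
theorem trace_baseChangeAlong (σ : Γℚ) :
    (ρ.baseChangeAlong φ hφ).trace σ = φ (ρ.trace σ) := by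
  letI : Algebra A B := φ.toAlgebra
  show LinearMap.trace B (B ⊗[A] ρ.V) ((ρ.ρ σ).baseChange B) = φ (LinearMap.trace A ρ.V (ρ.ρ σ))
  rw [LinearMap.trace_baseChange]
  rfl

theorem isUnramifiedAt_baseChangeAlong {q : ℕ} (h : ρ.IsUnramifiedAt q) :
    (ρ.baseChangeAlong φ hφ).IsUnramifiedAt q := by
  intro P hP σ hσ
  letI : Algebra A B := φ.toAlgebra
  show (ρ.ρ σ).baseChange B = 1
  rw [h P hP σ hσ, LinearMap.baseChange_one]

theorem detIsCyclotomic_baseChangeAlong {p : ℕ} (h : ρ.DetIsCyclotomic p) :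
    (ρ.baseChangeAlong φ hφ).DetIsCyclotomic p := by
  refine ⟨natCast_mem_maximalIdeal φ hφ h.1, fun n σ a ha => ?_⟩
  rw [det_baseChangeAlong]
  have h1 := h.2 n σ a ha
  rw [Ideal.mem_span_singleton] at h1 ⊢
  obtain ⟨c, hc⟩ := h1
  refine ⟨φ c, ?_⟩
  have h2 := congrArg φ hc
  rw [map_sub, map_natCast, map_mul, map_natCast] at h2
  exact h2

theorem isUnipotentOnInertiaAt_baseChangeAlong {q : ℕ} (h : ρ.IsUnipotentOnInertiaAt q) :
    (ρ.baseChangeAlong φ hφ).IsUnipotentOnInertiaAt q := by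
  intro P hP σ hσ
  rw [charpoly_baseChangeAlong, h P hP σ hσ, Polynomial.map_pow, Polynomial.map_sub,
    Polynomial.map_X, Polynomial.map_one]

section Line

variable [Algebra A B] {V : Type} [AddCommGroup V] [Module A V]

omit [IsLocalRing A] [IsLocalRing B] in
/-- Moving a scalar of `A` out of the second factor. -/
theorem tmul_smul_eq (a : A) (c : B) (v : V) :
    c ⊗ₜ[A] (a • v) = algebraMap A B a • (c ⊗ₜ[A] v) := by
  rw [TensorProduct.tmul_smul, TensorProduct.smul_tmul', TensorProduct.smul_tmul',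
    Algebra.smul_def, smul_eq_mul]

omit [IsLocalRing A] [IsLocalRing B] in
/-- A pure tensor with second factor in the line `A ∙ v` lies in the line `B ∙ (1 ⊗ v)`. -/
theorem tmul_mem_span_singleton (v : V) (c : B) {l : V} (hl : l ∈ (A ∙ v : Submodule A V)) :
    c ⊗ₜ[A] l ∈ (B ∙ ((1 : B) ⊗ₜ[A] v) : Submodule B (B ⊗[A] V)) := by
  obtain ⟨a, rfl⟩ := Submodule.mem_span_singleton.mp hl
  have h : c ⊗ₜ[A] (a • v) = (a • c) • ((1 : B) ⊗ₜ[A] v) := by
    rw [TensorProduct.smul_tmul', smul_eq_mul, mul_one, TensorProduct.tmul_smul,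
      TensorProduct.smul_tmul']
  rw [h]
  exact Submodule.smul_mem _ _ (Submodule.mem_span_singleton_self _)

end Line

theorem isStrictOrdinaryAt_baseChangeAlong {p : ℕ} (h : ρ.IsStrictOrdinaryAt p) :
    (ρ.baseChangeAlong φ hφ).IsStrictOrdinaryAt p := by
  letI : Algebra A B := φ.toAlgebra
  refine ⟨natCast_mem_maximalIdeal φ hφ h.1, fun P hP => ?_⟩
  obtain ⟨L, ⟨b, hb⟩, hD, hI, hxz⟩ := h.2 P hP
  show ∃ L' : Submodule B (B ⊗[A] ρ.V),
    (∃ b' : Module.Basis (Fin 2) B (B ⊗[A] ρ.V), L' = B ∙ b' 0) ∧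
    (∀ σ ∈ P.decompositionSubgroup ℚ, ∀ v ∈ L', ((ρ.ρ σ).baseChange B) v ∈ L') ∧
    (∀ σ ∈ P.inertiaSubgroupIn ℚ, ∀ v : B ⊗[A] ρ.V, ((ρ.ρ σ).baseChange B) v - v ∈ L') ∧
    (∀ σ ∈ P.decompositionSubgroup ℚ, ∃ x z : B,
      (∀ w ∈ L', ((ρ.ρ σ).baseChange B) w = x • w) ∧
      (∀ v : B ⊗[A] ρ.V, ((ρ.ρ σ).baseChange B) v - z • v ∈ L') ∧
      ∀ (n a : ℕ), (∀ μ : AlgebraicClosure ℚ, μ ^ p ^ n = 1 → σ μ = μ ^ a) →
        x - (a : B) * z ∈ Ideal.span {((p ^ n : ℕ) : B)})
  have hb0 : b.baseChange B 0 = (1 : B) ⊗ₜ[A] b 0 := Module.Basis.baseChange_apply B b 0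
  -- membership in the new line
  have hmem : ∀ (c : B) (l : ρ.V), l ∈ L →
      c ⊗ₜ[A] l ∈ (B ∙ (b.baseChange B 0) : Submodule B (B ⊗[A] ρ.V)) := by
    intro c l hl
    rw [hb0]
    rw [hb] at hl
    exact tmul_mem_span_singleton (b 0) c hl
  have hb0L : b 0 ∈ L := by
    rw [hb]
    exact Submodule.mem_span_singleton_self _
  refine ⟨(B ∙ (b.baseChange B 0) : Submodule B (B ⊗[A] ρ.V)), ⟨b.baseChange B, rfl⟩, ?_, ?_, ?_⟩
  · -- stability under the decomposition group
    intro σ hσ v hv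
    obtain ⟨c, rfl⟩ := Submodule.mem_span_singleton.mp hv
    rw [map_smul, hb0, LinearMap.baseChange_tmul]
    refine Submodule.smul_mem _ _ ?_
    rw [← hb0]
    exact hmem 1 _ (hD σ hσ _ hb0L)
  · -- inertia acts trivially on the quotient
    intro σ hσ v
    induction v using TensorProduct.induction_on with
    | zero => rw [LinearMap.map_zero, sub_zero]; exact Submodule.zero_mem _
    | tmul c v0 =>
      rw [LinearMap.baseChange_tmul, ← TensorProduct.tmul_sub]
      exact hmem c _ (hI σ hσ v0)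
    | add x y hx hy =>
      rw [map_add, add_sub_add_comm]
      exact Submodule.add_mem _ hx hy
  · -- the two characters
    intro σ hσ
    obtain ⟨x, z, hx, hz, hcong⟩ := hxz σ hσ
    refine ⟨φ x, φ z, ?_, ?_, ?_⟩
    · intro w hw
      obtain ⟨c, rfl⟩ := Submodule.mem_span_singleton.mp hw
      rw [map_smul, hb0, LinearMap.baseChange_tmul, hx _ hb0L, tmul_smul_eq, smul_comm]
      rfl
    · intro v
      induction v using TensorProduct.induction_on with
      | zero => rw [LinearMap.map_zero, smul_zero, sub_zero]; exact Submodule.zero_mem _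
      | tmul c v0 =>
        have h1 : φ z • (c ⊗ₜ[A] v0) = c ⊗ₜ[A] (z • v0) := (tmul_smul_eq z c v0).symm
        rw [LinearMap.baseChange_tmul, h1, ← TensorProduct.tmul_sub]
        exact hmem c _ (hz v0)
      | add x' y' hx' hy' =>
        rw [map_add, smul_add, add_sub_add_comm]
        exact Submodule.add_mem _ hx' hy'
    · intro n a ha
      have h1 := hcong n a ha
      rw [Ideal.mem_span_singleton] at h1 ⊢
      obtain ⟨c, hc⟩ := h1
      refine ⟨φ c, ?_⟩
      have h2 := congrArg φ hc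
      rw [map_sub, map_mul, map_natCast, map_mul, map_natCast] at h2
      exact h2

/-- The strict ordinary deformation condition is stable under base change. -/
theorem strictOrdinaryCondition_baseChangeAlong {𝒪 : Type} [CommRing 𝒪] [Algebra 𝒪 A]
    [Algebra 𝒪 B] {p : ℕ} {S : Finset ℕ}
    (h : GaloisRep.strictOrdinaryCondition 𝒪 p S ρ) :
    GaloisRep.strictOrdinaryCondition 𝒪 p S (ρ.baseChangeAlong φ hφ) :=
  ⟨detIsCyclotomic_baseChangeAlong φ hφ ρ h.1, isStrictOrdinaryAt_baseChangeAlong φ hφ ρ h.2.1,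
    fun q hq hqS => isUnramifiedAt_baseChangeAlong φ hφ ρ (h.2.2 q hq hqS)⟩

end Fermat.Agent.S56x.Dict.TypeBaseChange
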