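import Mathlib
import Fermat.Prelude.Def_GaloisRep_Flat
import Fermat.Agent.S56x.Dict.TypeBaseChange

/-!
# P-S56, block (C) dictionary: flatness is stable under surjective base change

For a SURJECTIVE local homomorphism `φ : A →+* B` of local rings and `ρ : GaloisRepAdic A`, the
finite quotients of `ρ.baseChangeAlong φ hφ` are finite quotients of `ρ`, Galois equivariantly:
`quotEquiv : V ⧸ (φ⁻¹ I') V ≃ₗ[A] (B ⊗[A] V) ⧸ I' (B ⊗[A] V)`.  Hence `IsFlatAt p` and
`flatCondition` pass from `ρ` to `ρ.baseChangeAlong φ hφ`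
(`isFlatAt_baseChangeAlong`, `flatCondition_baseChangeAlong`).  In particular every surjective
tangent vector `R → k[ε]` of a flat deformation ring gives a flat deformation to `k[ε]`.
-/

set_option autoImplicit false
set_option linter.style.haveILetI false

namespace Fermat.Agent.S56x.Dict.FlatBaseChange

open scoped TensorProduct
open Fermat.Agent.S56x.Dict.TypeBaseChange

local notation "Γℚ" => (AlgebraicClosure ℚ ≃ₐ[ℚ] AlgebraicClosure ℚ)

section Quot

variable {A B : Type} [CommRing A] [CommRing B] [Algebra A B]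
  {V : Type} [AddCommGroup V] [Module A V] (I' : Ideal B)

/-- The comparison map `V ⧸ (φ⁻¹ I') V → (B ⊗ V) ⧸ I' (B ⊗ V)`, `v ↦ 1 ⊗ v`. -/
noncomputable def quotMap :
    (V ⧸ ((I'.comap (algebraMap A B)) • (⊤ : Submodule A V))) →ₗ[A]
      ((B ⊗[A] V) ⧸ (I' • (⊤ : Submodule B (B ⊗[A] V)))) :=
  Submodule.liftQ _
    (((I' • (⊤ : Submodule B (B ⊗[A] V))).mkQ.restrictScalars A).comp (TensorProduct.mk A B V 1))
    (by
      rw [Submodule.smul_le]
      intro r hr n _
      rw [LinearMap.mem_ker, LinearMap.comp_apply, TensorProduct.mk_apply, tmul_smul_eq]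
      show (I' • (⊤ : Submodule B (B ⊗[A] V))).mkQ (algebraMap A B r • ((1 : B) ⊗ₜ[A] n)) = 0
      rw [Submodule.mkQ_apply, Submodule.Quotient.mk_eq_zero]
      exact Submodule.smul_mem_smul (Ideal.mem_comap.mp hr) Submodule.mem_top)

theorem quotMap_mk (v : V) :
    quotMap (A := A) I' (Submodule.Quotient.mk v) = Submodule.Quotient.mk ((1 : B) ⊗ₜ[A] v) :=
  rfl

/-- Every element of `B ⊗ V` is of the form `1 ⊗ v` when `A → B` is surjective. -/
theorem exists_one_tmul (hsurj : Function.Surjective (algebraMap A B)) (x : B ⊗[A] V) :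
    ∃ v : V, x = (1 : B) ⊗ₜ[A] v := by
  induction x using TensorProduct.induction_on with
  | zero => exact ⟨0, by rw [TensorProduct.tmul_zero]⟩
  | tmul c v =>
    obtain ⟨a, rfl⟩ := hsurj c
    refine ⟨a • v, ?_⟩
    rw [tmul_smul_eq, TensorProduct.smul_tmul', smul_eq_mul, mul_one]
  | add x y hx hy =>
    obtain ⟨v, rfl⟩ := hx
    obtain ⟨w, rfl⟩ := hy
    exact ⟨v + w, by rw [TensorProduct.tmul_add]⟩

theorem quotMap_surjective (hsurj : Function.Surjective (algebraMap A B)) :
    Function.Surjective (quotMap (A := A) (V := V) I') := by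
  intro y
  obtain ⟨x, rfl⟩ := Submodule.Quotient.mk_surjective _ y
  obtain ⟨v, rfl⟩ := exists_one_tmul hsurj x
  exact ⟨Submodule.Quotient.mk v, quotMap_mk I' v⟩

/-- The coordinates of an element of `I' • ⊤` lie in `I'`. -/
theorem repr_mem_of_mem_smul_top {ι : Type*} (b' : Module.Basis ι B (B ⊗[A] V))
    {x : B ⊗[A] V} (hx : x ∈ I' • (⊤ : Submodule B (B ⊗[A] V))) (i : ι) :
    b'.repr x i ∈ I' := by
  refine Submodule.smul_induction_on (p := fun x => b'.repr x i ∈ I') hx ?_ ?_
  · intro r hr n _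
    rw [map_smul, Finsupp.smul_apply, smul_eq_mul]
    exact I'.mul_mem_right _ hr
  · intro x y hx hy
    rw [map_add, Finsupp.add_apply]
    exact I'.add_mem hx hy

theorem quotMap_injective [Module.Free A V] [Module.Finite A V] :
    Function.Injective (quotMap (A := A) (V := V) I') := by
  rw [injective_iff_map_eq_zero]
  intro y hy
  obtain ⟨v, rfl⟩ := Submodule.Quotient.mk_surjective _ y
  rw [quotMap_mk, Submodule.Quotient.mk_eq_zero] at hy
  rw [Submodule.Quotient.mk_eq_zero]
  let b := Module.Free.chooseBasis A V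
  have hcoord : ∀ i, b.repr v i ∈ I'.comap (algebraMap A B) := by
    intro i
    have h1 := repr_mem_of_mem_smul_top I' (b.baseChange B) hy i
    rw [Module.Basis.baseChange_repr_tmul, Algebra.smul_def, mul_one] at h1
    exact Ideal.mem_comap.mpr h1
  rw [← b.sum_repr v]
  exact Submodule.sum_mem _ fun i _ => Submodule.smul_mem_smul (hcoord i) Submodule.mem_top

/-- The comparison isomorphism. -/
noncomputable def quotEquiv [Module.Free A V] [Module.Finite A V]
    (hsurj : Function.Surjective (algebraMap A B)) :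
    (V ⧸ ((I'.comap (algebraMap A B)) • (⊤ : Submodule A V))) ≃ₗ[A]
      ((B ⊗[A] V) ⧸ (I' • (⊤ : Submodule B (B ⊗[A] V)))) :=
  LinearEquiv.ofBijective (quotMap I') ⟨quotMap_injective I', quotMap_surjective I' hsurj⟩

theorem quotEquiv_mk [Module.Free A V] [Module.Finite A V]
    (hsurj : Function.Surjective (algebraMap A B)) (v : V) :
    quotEquiv (A := A) I' hsurj (Submodule.Quotient.mk v)
      = Submodule.Quotient.mk ((1 : B) ⊗ₜ[A] v) :=
  rfl

end Quot

section Flat

variable {A B : Type} [CommRing A] [IsLocalRing A] [CommRing B] [IsLocalRing B]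
  (φ : A →+* B) (hφ : IsLocalHom φ) (ρ : GaloisRepAdic A)

/-- **Flatness is stable under surjective base change.** -/
theorem isFlatAt_baseChangeAlong (hsurj : Function.Surjective φ) {p : ℕ} (h : ρ.IsFlatAt p) :
    (ρ.baseChangeAlong φ hφ).IsFlatAt p := by
  letI : Algebra A B := φ.toAlgebra
  have hsurj' : Function.Surjective (algebraMap A B) := hsurj
  refine ⟨?_, fun I' hI' => ?_⟩
  · -- the residue field is finite
    haveI := h.1
    haveI := hφ
    refine Finite.of_surjective (IsLocalRing.ResidueField.map φ) ?_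
    intro y
    obtain ⟨c, rfl⟩ := IsLocalRing.residue_surjective y
    obtain ⟨a, rfl⟩ := hsurj c
    exact ⟨IsLocalRing.residue A a, rfl⟩
  · -- the finite quotients
    have hJ : Finite (A ⧸ I'.comap φ) :=
      Finite.of_injective (Ideal.quotientMap I' φ le_rfl) Ideal.quotientMap_injective
    obtain ⟨H, i1, i2, hfin, hflat, hco, e, hadd, hequiv⟩ := h.2 (I'.comap φ) hJ
    let ψ : (ρ.V ⧸ ((I'.comap φ) • (⊤ : Submodule A ρ.V))) ≃ₗ[A]
        ((B ⊗[A] ρ.V) ⧸ (I' • (⊤ : Submodule B (B ⊗[A] ρ.V)))) :=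
      quotEquiv (A := A) (V := ρ.V) I' hsurj'
    refine ⟨H, i1, i2, hfin, hflat, hco, e.trans ψ.toEquiv, ?_, ?_⟩
    · intro f g
      show ψ (e (f * g)) = ψ (e f) + ψ (e g)
      rw [hadd, map_add]
    · intro σ f g hfg
      show ψ (e g) = (ρ.baseChangeAlong φ hφ).levelAction I' σ (ψ (e f))
      rw [hequiv σ f g hfg]
      obtain ⟨v, hv⟩ := Submodule.Quotient.mk_surjective _ (e f)
      rw [← hv]
      show ψ (Submodule.Quotient.mk (ρ.ρ σ v))
        = Submodule.Quotient.mk (((ρ.ρ σ).baseChange B) ((1 : B) ⊗ₜ[A] v))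
      rw [LinearMap.baseChange_tmul]
      rfl

/-- The flat deformation condition is stable under surjective base change. -/
theorem flatCondition_baseChangeAlong (hsurj : Function.Surjective φ) {𝒪 : Type} [CommRing 𝒪]
    [Algebra 𝒪 A] [Algebra 𝒪 B] {p : ℕ} {S : Finset ℕ}
    (h : GaloisRep.flatCondition 𝒪 p S ρ) :
    GaloisRep.flatCondition 𝒪 p S (ρ.baseChangeAlong φ hφ) :=
  ⟨detIsCyclotomic_baseChangeAlong φ hφ ρ h.1, isFlatAt_baseChangeAlong φ hφ ρ hsurj h.2.1,
    fun q hq hqS => isUnramifiedAt_baseChangeAlong φ hφ ρ (h.2.2 q hq hqS)⟩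

end Flat

end Fermat.Agent.S56x.Dict.FlatBaseChange
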