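/-
P-S56, block (C), part C2 (helper54): `GaloisRepAdic.IsFlatAt` is stable under base change along
local homomorphisms that FACTOR THROUGH THE RESIDUE FIELD (`A → A ⧸ 𝔪 → B`): then
`(B ⊗ V) ⧸ I (B ⊗ V) ≃ (V ⧸ 𝔪 V)ⁿ`, `n = dim (B ⧸ I)`, equivariantly.
-/
import Mathlib
import Fermat.Agent.S56x.Dict.FFPoints

set_option autoImplicit false
set_option linter.style.haveILetI false
set_option linter.unusedSectionVars false

noncomputable section

namespace Fermat.Agent.S56x.Dict.FlatFactor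

open Fermat.Agent.S56x.Dict.FFPoints

open scoped TensorProduct
open IsLocalRing

local notation "Γℚ" => (AlgebraicClosure ℚ ≃ₐ[ℚ] AlgebraicClosure ℚ)

section FactorAbstract

variable {A B : Type} [CommRing A] [CommRing B] (𝔪 : Ideal A)
  [Algebra A B] [Algebra (A ⧸ 𝔪) B] [IsScalarTower A (A ⧸ 𝔪) B]
  {V : Type} [AddCommGroup V] [Module A V] (I : Ideal B)
  {n : ℕ} (c : Module.Basis (Fin n) (A ⧸ 𝔪) (B ⧸ I))

/-- the bilinear map `(b, v) ↦ (coordᵢ(b̄) • v̄)ᵢ`. -/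
def coordBil : B →ₗ[A] V →ₗ[A] (Fin n → V ⧸ (𝔪 • (⊤ : Submodule A V))) :=
  LinearMap.mk₂ A
    (fun b v i => c.repr (Ideal.Quotient.mk I b) i •
      (Submodule.Quotient.mk v : V ⧸ (𝔪 • (⊤ : Submodule A V))))
    (fun b b' v => by
      funext i
      simp only [map_add, Finsupp.coe_add, Pi.add_apply, add_smul])
    (fun a b v => by
      funext i
      have h1 : Ideal.Quotient.mk I (a • b) =
          (Ideal.Quotient.mk 𝔪 a) • Ideal.Quotient.mk I b := by
        rw [← algebraMap_smul (A ⧸ 𝔪) a b]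
        rfl
      simp only [h1, map_smul, Finsupp.coe_smul, Pi.smul_apply, smul_eq_mul, mul_smul]
      rfl)
    (fun b v v' => by
      funext i
      simp only [Submodule.Quotient.mk_add, smul_add, Pi.add_apply])
    (fun a b v => by
      funext i
      simp only [Submodule.Quotient.mk_smul, Pi.smul_apply]
      rw [smul_comm])

/-- `Ψ₀ : B ⊗ V → (V ⧸ 𝔪 V)ⁿ`. -/
def coordMap : (B ⊗[A] V) →ₗ[A] (Fin n → V ⧸ (𝔪 • (⊤ : Submodule A V))) :=
  TensorProduct.lift (coordBil 𝔪 I c)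

theorem coordMap_tmul (b : B) (v : V) (i : Fin n) :
    coordMap 𝔪 I c (b ⊗ₜ[A] v) i = c.repr (Ideal.Quotient.mk I b) i •
      (Submodule.Quotient.mk v : V ⧸ (𝔪 • (⊤ : Submodule A V))) := rfl

theorem coordMap_smul_eq_zero {j : B} (hj : j ∈ I) (w : B ⊗[A] V) :
    coordMap 𝔪 I c (j • w) = 0 := by
  induction w using TensorProduct.induction_on with
  | zero => rw [smul_zero, map_zero]
  | tmul b v =>
    funext i
    rw [TensorProduct.smul_tmul', coordMap_tmul, smul_eq_mul,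
      (Ideal.Quotient.eq_zero_iff_mem).mpr (I.mul_mem_right b hj), map_zero]
    simp
  | add x y hx hy => rw [smul_add, map_add, hx, hy, add_zero]

theorem coordMap_eq_zero_of_mem {w : B ⊗[A] V} (hw : w ∈ I • (⊤ : Submodule B (B ⊗[A] V))) :
    coordMap 𝔪 I c w = 0 := by
  refine Submodule.smul_induction_on hw (fun j hj w _ => coordMap_smul_eq_zero 𝔪 I c hj w) ?_
  intro x y hx hy
  rw [map_add, hx, hy, add_zero]

end FactorAbstract

section Theta

variable {A B : Type} [CommRing A] [CommRing B] (𝔪 : Ideal A)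
  [Algebra A B] [Algebra (A ⧸ 𝔪) B] [IsScalarTower A (A ⧸ 𝔪) B]
  {V : Type} [AddCommGroup V] [Module A V] (I : Ideal B)
  {n : ℕ} (c : Module.Basis (Fin n) (A ⧸ 𝔪) (B ⧸ I))

theorem smul_eq_zero_of_mem {a : A} (ha : a ∈ 𝔪) (b : B) : a • b = 0 := by
  rw [← algebraMap_smul (A ⧸ 𝔪) a b]
  have : algebraMap A (A ⧸ 𝔪) a = 0 := (Ideal.Quotient.eq_zero_iff_mem).mpr ha
  rw [this, zero_smul]

/-- `v̄ ↦ [b ⊗ v]`. -/
def thetaComp (b : B) : (V ⧸ (𝔪 • (⊤ : Submodule A V))) →ₗ[A]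
    ((B ⊗[A] V) ⧸ (I • (⊤ : Submodule B (B ⊗[A] V)))) :=
  Submodule.liftQ _
    (((I • (⊤ : Submodule B (B ⊗[A] V))).mkQ.restrictScalars A).comp (TensorProduct.mk A B V b))
    (by
      rw [Submodule.smul_le]
      intro a ha v _
      rw [LinearMap.mem_ker, LinearMap.comp_apply, TensorProduct.mk_apply,
        TensorProduct.tmul_smul, TensorProduct.smul_tmul', smul_eq_zero_of_mem 𝔪 ha,
        TensorProduct.zero_tmul, map_zero])

theorem thetaComp_mk (b : B) (v : V) :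
    thetaComp 𝔪 I b (Submodule.Quotient.mk v) = Submodule.Quotient.mk (b ⊗ₜ[A] v) := rfl

variable (cl : Fin n → B)

/-- `Θ : (V ⧸ 𝔪 V)ⁿ → (B ⊗ V) ⧸ I (B ⊗ V)`, `(v̄ᵢ) ↦ ∑ [clᵢ ⊗ vᵢ]`. -/
def thetaMap : (Fin n → V ⧸ (𝔪 • (⊤ : Submodule A V))) →ₗ[A]
    ((B ⊗[A] V) ⧸ (I • (⊤ : Submodule B (B ⊗[A] V)))) :=
  ∑ i, (thetaComp 𝔪 I (cl i)).comp (LinearMap.proj i)

theorem thetaMap_apply (w : Fin n → V ⧸ (𝔪 • (⊤ : Submodule A V))) :
    thetaMap 𝔪 I cl w = ∑ i, thetaComp 𝔪 I (cl i) (w i) := by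
  simp [thetaMap]

theorem thetaMap_mk (v : Fin n → V) :
    thetaMap (V := V) 𝔪 I cl (fun i => Submodule.Quotient.mk (v i)) =
      Submodule.Quotient.mk (∑ i, cl i ⊗ₜ[A] v i) := by
  rw [thetaMap_apply]
  simp only [thetaComp_mk]
  rw [← Submodule.mkQ_apply, map_sum]
  rfl

variable (hcl : ∀ i, Ideal.Quotient.mk I (cl i) = c i)

include hcl in
theorem coordMap_sum (v : Fin n → V) (j : Fin n) :
    coordMap 𝔪 I c (∑ i, cl i ⊗ₜ[A] v i) j =
      (Submodule.Quotient.mk (v j) : V ⧸ (𝔪 • (⊤ : Submodule A V))) := by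
  classical
  rw [map_sum, Finset.sum_apply]
  simp only [coordMap_tmul, hcl, Module.Basis.repr_self]
  rw [Finset.sum_eq_single j]
  · rw [Finsupp.single_eq_same, one_smul]
  · intro i _ hij
    rw [Finsupp.single_eq_of_ne (Ne.symm hij), zero_smul]
  · intro h
    exact absurd (Finset.mem_univ j) h

include hcl in
theorem thetaMap_injective : Function.Injective (thetaMap (V := V) 𝔪 I cl) := by
  rw [← LinearMap.ker_eq_bot, LinearMap.ker_eq_bot']
  intro w hw
  have hv : ∀ i, ∃ v : V, Submodule.Quotient.mk v = w i :=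
    fun i => Submodule.Quotient.mk_surjective _ (w i)
  choose v hv using hv
  have hw' : w = fun i => Submodule.Quotient.mk (v i) := funext fun i => (hv i).symm
  rw [hw', thetaMap_mk, Submodule.Quotient.mk_eq_zero] at hw
  have h0 := coordMap_eq_zero_of_mem 𝔪 I c hw
  rw [hw']
  funext j
  rw [← coordMap_sum 𝔪 I c cl hcl v j, h0]

theorem mk_tmul_eq_of_sub_mem {b b' : B} (h : b - b' ∈ I) (v : V) :
    (Submodule.Quotient.mk (b ⊗ₜ[A] v) :
      (B ⊗[A] V) ⧸ (I • (⊤ : Submodule B (B ⊗[A] V)))) = Submodule.Quotient.mk (b' ⊗ₜ[A] v) := by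
  rw [Submodule.Quotient.eq, ← TensorProduct.sub_tmul]
  have : (b - b') ⊗ₜ[A] v = (b - b') • ((1 : B) ⊗ₜ[A] v) := by
    rw [TensorProduct.smul_tmul', smul_eq_mul, mul_one]
  rw [this]
  exact Submodule.smul_mem_smul h Submodule.mem_top

include hcl in
theorem thetaMap_surjective : Function.Surjective (thetaMap (V := V) 𝔪 I cl) := by
  intro y
  obtain ⟨x, rfl⟩ := Submodule.Quotient.mk_surjective _ y
  induction x using TensorProduct.induction_on with
  | zero => exact ⟨0, by rw [map_zero]; rfl⟩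
  | tmul b v =>
    have ha : ∀ i, ∃ a : A, Ideal.Quotient.mk 𝔪 a = c.repr (Ideal.Quotient.mk I b) i :=
      fun i => Ideal.Quotient.mk_surjective _
    choose a ha using ha
    refine ⟨fun i => Submodule.Quotient.mk (a i • v), ?_⟩
    rw [thetaMap_mk]
    have h1 : ∑ i, cl i ⊗ₜ[A] (a i • v) = (∑ i, a i • cl i) ⊗ₜ[A] v := by
      rw [TensorProduct.sum_tmul]
      refine Finset.sum_congr rfl fun i _ => ?_
      rw [TensorProduct.tmul_smul, TensorProduct.smul_tmul']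
    rw [h1]
    refine mk_tmul_eq_of_sub_mem I ?_ v
    rw [← Ideal.Quotient.eq_zero_iff_mem, map_sub, sub_eq_zero, map_sum]
    conv_rhs => rw [← c.sum_repr (Ideal.Quotient.mk I b)]
    refine Finset.sum_congr rfl fun i _ => ?_
    rw [← ha i, ← hcl i, ← algebraMap_smul (A ⧸ 𝔪) (a i) (cl i)]
    rfl
  | add x y hx hy =>
    obtain ⟨x', hx'⟩ := hx
    obtain ⟨y', hy'⟩ := hy
    exact ⟨x' + y', by rw [map_add, hx', hy']; rfl⟩

/-- the comparison isomorphism `(V ⧸ 𝔪 V)ⁿ ≃ (B ⊗ V) ⧸ I (B ⊗ V)`. -/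
def thetaEquiv : (Fin n → V ⧸ (𝔪 • (⊤ : Submodule A V))) ≃+
    ((B ⊗[A] V) ⧸ (I • (⊤ : Submodule B (B ⊗[A] V)))) :=
  AddEquiv.ofBijective (thetaMap (V := V) 𝔪 I cl).toAddMonoidHom
    ⟨thetaMap_injective 𝔪 I c cl hcl, thetaMap_surjective 𝔪 I c cl hcl⟩

theorem thetaEquiv_apply (w : Fin n → V ⧸ (𝔪 • (⊤ : Submodule A V))) :
    thetaEquiv 𝔪 I c cl hcl w = thetaMap 𝔪 I cl w := rfl

/-- equivariance of `Θ`. -/
theorem thetaMap_mapQ (f : V →ₗ[A] V)
    (h1 : 𝔪 • (⊤ : Submodule A V) ≤ (𝔪 • (⊤ : Submodule A V)).comap f)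
    (h2 : I • (⊤ : Submodule B (B ⊗[A] V)) ≤
      (I • (⊤ : Submodule B (B ⊗[A] V))).comap (f.baseChange B))
    (w : Fin n → V ⧸ (𝔪 • (⊤ : Submodule A V))) :
    thetaMap 𝔪 I cl (fun i => Submodule.mapQ _ _ f h1 (w i)) =
      Submodule.mapQ _ _ (f.baseChange B) h2 (thetaMap 𝔪 I cl w) := by
  have hv : ∀ i, ∃ v : V, Submodule.Quotient.mk v = w i :=
    fun i => Submodule.Quotient.mk_surjective _ (w i)
  choose v hv using hv
  have hw' : w = fun i => Submodule.Quotient.mk (v i) := funext fun i => (hv i).symm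
  rw [hw']
  have : (fun i => Submodule.mapQ _ _ f h1
      ((fun i => (Submodule.Quotient.mk (v i) : V ⧸ (𝔪 • (⊤ : Submodule A V)))) i)) =
      fun i => Submodule.Quotient.mk (f (v i)) := by
    funext i
    rw [Submodule.mapQ_apply]
  rw [this, thetaMap_mk, thetaMap_mk, Submodule.mapQ_apply, map_sum]
  simp only [LinearMap.baseChange_tmul]

end Theta

section Factor

variable {A B : Type} [CommRing A] [IsLocalRing A] [CommRing B] [IsLocalRing B]
  (ψ : ResidueField A →+* B) (hφ : IsLocalHom (ψ.comp (residue A))) (ρ : GaloisRepAdic A)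

/-- **`IsFlatAt` is stable under base change along local homomorphisms factoring through the
residue field.** -/
theorem isFlatAt_baseChangeAlong_of_factors {p : ℕ} (h : ρ.IsFlatAt p)
    (hB : Finite (ResidueField B)) :
    (ρ.baseChangeAlong (ψ.comp (residue A)) hφ).IsFlatAt p := by
  letI : Algebra A B := (ψ.comp (residue A)).toAlgebra
  letI : Algebra (A ⧸ maximalIdeal A) B := RingHom.toAlgebra (ψ : (A ⧸ maximalIdeal A) →+* B)
  haveI : IsScalarTower A (A ⧸ maximalIdeal A) B := IsScalarTower.of_algebraMap_eq fun a => rfl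
  rw [isFlatAt_iff] at h ⊢
  obtain ⟨hfin, hI⟩ := h
  refine ⟨hB, fun I hIfin => ?_⟩
  haveI := hIfin
  have hm : Finite (A ⧸ maximalIdeal A) := hfin
  have h1 := hI (maximalIdeal A) hm
  letI : Field (A ⧸ maximalIdeal A) := Ideal.Quotient.field _
  haveI : Module.Finite (A ⧸ maximalIdeal A) (B ⧸ I) := Module.Finite.of_finite
  obtain ⟨n, ⟨c⟩⟩ : ∃ n : ℕ, Nonempty (Module.Basis (Fin n) (A ⧸ maximalIdeal A) (B ⧸ I)) :=
    ⟨_, ⟨Module.finBasis (A ⧸ maximalIdeal A) (B ⧸ I)⟩⟩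
  have hcl : ∀ i, ∃ b : B, Ideal.Quotient.mk I b = c i := fun i => Ideal.Quotient.mk_surjective _
  choose cl hcl using hcl
  refine (h1.pi n).transport (thetaEquiv (V := ρ.V) (maximalIdeal A) I c cl hcl) fun σ w => ?_
  exact thetaMap_mapQ (maximalIdeal A) I cl (ρ.ρ σ) _ _ w

end Factor

end Fermat.Agent.S56x.Dict.FlatFactor
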