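/-
P-S56, block (C), part C2 (helper54): `GaloisRepAdic.IsFlatAt` under base change to the dual
numbers and under equivalence.  EXPORTS (interface fixed by architect helper72):

* `isFlatAt_of_isEquiv` : `ρ.IsEquiv ρ' → ρ.IsFlatAt p → ρ'.IsFlatAt p`;
* `isFlatAt_baseChangeAlong_dual` : for ANY `𝒪`-algebra hom `φ : R → k[ε]` (`R` a local
  `𝒪`-algebra), `ρ.IsFlatAt p → (ρ.baseChangeAlong φ hφ).IsFlatAt p`
  (surjective `φ` : helper76's `FlatBaseChange.isFlatAt_baseChangeAlong`; the only other case is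
  `φ = (k → k[ε]) ∘ (R → k)`, handled by `isFlatAt_baseChangeAlong_of_factors`, i.e. `H ⊗ H`);
* `flatCondition_of_isEquiv`, `flatCondition_baseChangeAlong_dual`, `condFlat_of_isEquiv`,
  `condFlat_baseChangeAlong_dual`, `condSO_of_isEquiv`, `condSO_baseChangeAlong` : the same for the
  conditions of `S56x/Assembly/TopLevel.lean`.
-/
import Mathlib
import Fermat.Agent.S56x.Assembly.TopLevel
import Fermat.Agent.S56x.Dict.TypeBaseChange
import Fermat.Agent.S56x.Dict.TypeEquiv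
import Fermat.Agent.S56x.Dict.FlatBaseChange
import Fermat.Agent.S56x.Dict.FlatFactor
import Fermat.Agent.S56x.Dict.DualRing

set_option autoImplicit false
set_option linter.style.haveILetI false
set_option linter.unusedSectionVars false

noncomputable section

namespace Fermat.Agent.S56x.Dict.BaseChange

open Fermat.Agent.S56x.Dict Fermat.Agent.S56x.Dict.FFPoints Fermat.Agent.S56x.Dict.FlatFactor
  Fermat.Agent.S56x.Dict.DualRing

open IsLocalRing Fermat.Agent.S53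

local notation "Γℚ" => (AlgebraicClosure ℚ ≃ₐ[ℚ] AlgebraicClosure ℚ)

section Equiv

variable {A : Type} [CommRing A] [IsLocalRing A] {ρ ρ' : GaloisRepAdic A}

/-- the isomorphism `V ⧸ I V ≃ V' ⧸ I V'` induced by an equivalence. -/
def quotEquivOfEquiv (e : GaloisRepAdic.Equiv ρ ρ') (I : Ideal A) :
    (ρ.V ⧸ (I • (⊤ : Submodule A ρ.V))) ≃ₗ[A] (ρ'.V ⧸ (I • (⊤ : Submodule A ρ'.V))) :=
  Submodule.Quotient.equiv _ _ e.toLinearEquiv (by
    rw [Submodule.map_smul'', Submodule.map_top, LinearEquiv.range])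

theorem quotEquivOfEquiv_mk (e : GaloisRepAdic.Equiv ρ ρ') (I : Ideal A) (v : ρ.V) :
    quotEquivOfEquiv e I (Submodule.Quotient.mk v) = Submodule.Quotient.mk (e.toLinearEquiv v) :=
  rfl

/-- **`IsFlatAt` is invariant under equivalence.** -/
theorem isFlatAt_of_isEquiv (h : ρ.IsEquiv ρ') {p : ℕ} (hP : ρ.IsFlatAt p) : ρ'.IsFlatAt p := by
  obtain ⟨e⟩ := h
  rw [isFlatAt_iff] at hP ⊢
  refine ⟨hP.1, fun I hI => ?_⟩
  refine (hP.2 I hI).transport (quotEquivOfEquiv e I).toAddEquiv fun σ x => ?_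
  obtain ⟨v, rfl⟩ := Submodule.Quotient.mk_surjective _ x
  show quotEquivOfEquiv e I (Submodule.Quotient.mk (ρ.ρ σ v)) =
    Submodule.Quotient.mk (ρ'.ρ σ (e.toLinearEquiv v))
  rw [quotEquivOfEquiv_mk, e.map_apply]

/-- the flat condition is invariant under equivalence. -/
theorem flatCondition_of_isEquiv {𝒪 : Type} [CommRing 𝒪] [Algebra 𝒪 A] {p : ℕ} {S : Finset ℕ}
    (h : ρ.IsEquiv ρ') (hP : GaloisRep.flatCondition 𝒪 p S ρ) :
    GaloisRep.flatCondition 𝒪 p S ρ' :=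
  ⟨TypeEquiv.detIsCyclotomic_of_isEquiv h hP.1, isFlatAt_of_isEquiv h hP.2.1,
    fun q hq hqS => TypeEquiv.isUnramifiedAt_of_isEquiv h (hP.2.2 q hq hqS)⟩

/-- `condFlat` is invariant under equivalence. -/
theorem condFlat_of_isEquiv {𝒪 : Type} [CommRing 𝒪] [Algebra 𝒪 A] {p : ℕ} {Smin Q : Finset ℕ}
    (h : ρ.IsEquiv ρ') (hP : condFlat 𝒪 p Smin Q ρ) : condFlat 𝒪 p Smin Q ρ' :=
  ⟨flatCondition_of_isEquiv h hP.1,
    fun q hq hqp hne => TypeEquiv.isUnipotentOnInertiaAt_of_isEquiv h (hP.2 q hq hqp hne)⟩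

/-- `condSO` is invariant under equivalence. -/
theorem condSO_of_isEquiv {𝒪 : Type} [CommRing 𝒪] [Algebra 𝒪 A] {p : ℕ} {Smin Q : Finset ℕ}
    (h : ρ.IsEquiv ρ') (hP : condSO 𝒪 p Smin Q ρ) : condSO 𝒪 p Smin Q ρ' :=
  ⟨TypeEquiv.strictOrdinaryCondition_of_isEquiv h hP.1,
    fun q hq hqp hne => TypeEquiv.isUnipotentOnInertiaAt_of_isEquiv h (hP.2 q hq hqp hne)⟩

end Equiv

section BaseChange

variable {A B : Type} [CommRing A] [IsLocalRing A] [CommRing B] [IsLocalRing B]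
  (φ : A →+* B) (hφ : IsLocalHom φ) (ρ : GaloisRepAdic A)

/-- `IsFlatAt` along a local hom killing the maximal ideal. -/
theorem isFlatAt_baseChangeAlong_of_forall_eq_zero {p : ℕ}
    (hker : ∀ a ∈ maximalIdeal A, φ a = 0)
    (h : ρ.IsFlatAt p) (hB : Finite (ResidueField B)) : (ρ.baseChangeAlong φ hφ).IsFlatAt p := by
  obtain ⟨ψ, hψ⟩ : ∃ ψ : ResidueField A →+* B, φ = ψ.comp (residue A) :=
    ⟨Ideal.Quotient.lift (maximalIdeal A) φ hker, by ext a; rfl⟩
  subst hψ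
  exact isFlatAt_baseChangeAlong_of_factors ψ hφ ρ h hB

/-- `IsFlatAt` along a local hom that is surjective or kills the maximal ideal. -/
theorem isFlatAt_baseChangeAlong_of_cases {p : ℕ}
    (hcase : Function.Surjective φ ∨ ∀ a ∈ maximalIdeal A, φ a = 0)
    (hB : Finite (ResidueField B)) (h : ρ.IsFlatAt p) : (ρ.baseChangeAlong φ hφ).IsFlatAt p := by
  rcases hcase with hs | hk
  · exact FlatBaseChange.isFlatAt_baseChangeAlong φ hφ ρ hs h
  · exact isFlatAt_baseChangeAlong_of_forall_eq_zero φ hφ ρ hk h hB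

/-- `condSO` is stable under base change along any local hom. -/
theorem condSO_baseChangeAlong {𝒪 : Type} [CommRing 𝒪] [Algebra 𝒪 A] [Algebra 𝒪 B] {p : ℕ}
    {Smin Q : Finset ℕ} (h : condSO 𝒪 p Smin Q ρ) :
    condSO 𝒪 p Smin Q (ρ.baseChangeAlong φ hφ) :=
  ⟨TypeBaseChange.strictOrdinaryCondition_baseChangeAlong φ hφ ρ h.1,
    fun q hq hqp hne => TypeBaseChange.isUnipotentOnInertiaAt_baseChangeAlong φ hφ ρ
      (h.2 q hq hqp hne)⟩

end BaseChange

section Dual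

variable {𝒪 : Type} [CommRing 𝒪] [IsLocalRing 𝒪]

attribute [local instance] dualNumberAlgebra

local notation "kε" => DualNumber (ResidueField 𝒪)

variable {R : Type} [CommRing R] [IsLocalRing R] [Algebra 𝒪 R] (ρ : GaloisRepAdic R)

/-- **`IsFlatAt` is stable under base change along ANY `𝒪`-algebra hom to the dual numbers**
(`Finite k` version). -/
theorem isFlatAt_baseChangeAlong_dual [Finite (ResidueField 𝒪)] {p : ℕ}
    (φ : R →ₐ[𝒪] kε) (hφ : IsLocalHom (φ : R →+* kε)) (h : ρ.IsFlatAt p) :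
    (ρ.baseChangeAlong (φ : R →+* kε) hφ).IsFlatAt p :=
  isFlatAt_baseChangeAlong_of_cases _ hφ ρ (surjective_or_forall_eq_zero φ)
    finite_residueField_dual h

/-- the flat condition along any `𝒪`-algebra hom to the dual numbers. -/
theorem flatCondition_baseChangeAlong_dual [Finite (ResidueField 𝒪)] {p : ℕ} {S : Finset ℕ}
    (φ : R →ₐ[𝒪] kε) (hφ : IsLocalHom (φ : R →+* kε)) (h : GaloisRep.flatCondition 𝒪 p S ρ) :
    GaloisRep.flatCondition 𝒪 p S (ρ.baseChangeAlong (φ : R →+* kε) hφ) :=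
  ⟨TypeBaseChange.detIsCyclotomic_baseChangeAlong _ hφ ρ h.1,
    isFlatAt_baseChangeAlong_dual ρ φ hφ h.2.1,
    fun q hq hqS => TypeBaseChange.isUnramifiedAt_baseChangeAlong _ hφ ρ (h.2.2 q hq hqS)⟩

/-- `condFlat` along any `𝒪`-algebra hom to the dual numbers. -/
theorem condFlat_baseChangeAlong_dual [Finite (ResidueField 𝒪)] {p : ℕ} {Smin Q : Finset ℕ}
    (φ : R →ₐ[𝒪] kε) (hφ : IsLocalHom (φ : R →+* kε)) (h : condFlat 𝒪 p Smin Q ρ) :
    condFlat 𝒪 p Smin Q (ρ.baseChangeAlong (φ : R →+* kε) hφ) :=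
  ⟨flatCondition_baseChangeAlong_dual ρ φ hφ h.1,
    fun q hq hqp hne => TypeBaseChange.isUnipotentOnInertiaAt_baseChangeAlong _ hφ ρ
      (h.2 q hq hqp hne)⟩

end Dual

end Fermat.Agent.S56x.Dict.BaseChange
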