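import Mathlib
import Fermat.Agent.S56x.Dict.Ad0Rep

/-!
# P-S56 (C): counting tangent cocycles by their classes in `H¹(Γℚ, ad⁰ ρbar)`

Complements `Dict/Ad0Rep` (helper16) and feeds `Dict/Main.card_algHom_le_of_cocycleCount`.

* `finrank_ad0`, `finrank_ad0Rep` : `dim_{𝔽_p} ad⁰ = 3 [k : 𝔽_p]`.
* `mem_invariants_ad0Rep_iff`, `mem_invariants_res_ad0Rep_iff` : (local) invariants of `ad⁰` are
  the trace-zero matrices commuting with `rbar` (resp. `rbar ∘ f`).
* `TanCocycle.map_toClass_eq_zero_iff` : the localisation along `f : H →* Γℚ` (the Prelude's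
  `locRes`) of the class of `c` vanishes iff `c ∘ f` is the coboundary of a trace-zero matrix.
* `TanCocycle.card_add_one_le_natCard`, `TanCocycle.card_add_one_le_pow` : pairwise
  non-cohomologous trace-zero tangent cocycles, none cohomologous to `0`, whose classes lie in a
  finite submodule `W ≤ H¹(Γℚ, ad⁰)`: `#T + 1 ≤ #W = p ^ finrank W`; hence `#T + 1 ≤ (#k)^r` as soon
  as `finrank W ≤ [k : 𝔽_p] * r`.
* `TanCocycle.cocycleCount_of_finrank_le` : exactly the hypothesis `hCC` of
  `card_algHom_le_of_cocycleCount` from "every cocycle of type `𝒟` is trace-zero with class in `W`"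
  and `finrank W ≤ [k : 𝔽_p] * r`.
-/

set_option autoImplicit false
set_option linter.unusedSectionVars false

noncomputable section

namespace Fermat.Agent.S56x.Dict

open groupCohomology CategoryTheory Module Fermat.Agent.S53

local notation "Γℚ" => (AlgebraicClosure ℚ ≃ₐ[ℚ] AlgebraicClosure ℚ)
local notation "M₂" => Matrix (Fin 2) (Fin 2)

variable {k : Type} [Field k] (p : ℕ) [Fact p.Prime] [Algebra (ZMod p) k]

section Module

/-- The trace-zero matrices are `3`-dimensional over `k`. -/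
lemma finrank_ker_trace :
    finrank k (LinearMap.ker (Matrix.traceLinearMap (Fin 2) k k)) = 3 := by
  have h1 := LinearMap.finrank_range_add_finrank_ker (Matrix.traceLinearMap (Fin 2) k k)
  have h2 : LinearMap.range (Matrix.traceLinearMap (Fin 2) k k) = ⊤ := by
    rw [LinearMap.range_eq_top]
    intro x
    refine ⟨!![x, 0; 0, 0], ?_⟩
    simp [Matrix.trace_fin_two]
  rw [h2, finrank_top, Module.finrank_self, Module.finrank_matrix] at h1
  simp only [Fintype.card_fin, Module.finrank_self] at h1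
  omega

/-- `ad⁰` has `𝔽_p`-dimension `3 [k : 𝔽_p]`. -/
lemma finrank_ad0 [Module.Finite (ZMod p) k] :
    finrank (ZMod p) (ad0 k p) = 3 * finrank (ZMod p) k := by
  have := Module.finrank_mul_finrank (ZMod p) k
    (LinearMap.ker (Matrix.traceLinearMap (Fin 2) k k))
  rw [finrank_ker_trace, mul_comm] at this
  exact this.symm

variable (rbar : Γℚ →* M₂ k)

lemma finrank_ad0Rep [Module.Finite (ZMod p) k] :
    finrank (ZMod p) (ad0Rep p rbar) = 3 * finrank (ZMod p) k :=
  finrank_ad0 p

/-- The local invariants of `ad⁰` along `f : H →* Γℚ`: trace-zero matrices commuting with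
`rbar ∘ f`. -/
lemma mem_invariants_res_ad0Rep_iff {H : Type} [Group H] (f : H →* Γℚ) (X : ad0 k p) :
    X ∈ (Rep.res f (ad0Rep p rbar)).ρ.invariants ↔
      ∀ h : H, rbar (f h) * X.1 = X.1 * rbar (f h) := by
  rw [Representation.mem_invariants]
  refine forall_congr' fun g => ?_
  constructor
  · intro h
    have h1 : rbar (f g) * X.1 * rbar (f g)⁻¹ = X.1 := congrArg Subtype.val h
    calc rbar (f g) * X.1 = rbar (f g) * X.1 * (rbar (f g)⁻¹ * rbar (f g)) := by
          rw [TanCocycle.rbar_inv_mul, Matrix.mul_one]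
      _ = (rbar (f g) * X.1 * rbar (f g)⁻¹) * rbar (f g) := by simp only [Matrix.mul_assoc]
      _ = X.1 * rbar (f g) := by rw [h1]
  · intro h
    apply Subtype.ext
    change rbar (f g) * X.1 * rbar (f g)⁻¹ = X.1
    rw [h, Matrix.mul_assoc, TanCocycle.rbar_mul_inv, Matrix.mul_one]

/-- The invariants of `ad⁰`: trace-zero matrices commuting with `rbar`. -/
lemma mem_invariants_ad0Rep_iff (X : ad0 k p) :
    X ∈ (ad0Rep p rbar).ρ.invariants ↔ ∀ g, rbar g * X.1 = X.1 * rbar g :=
  mem_invariants_res_ad0Rep_iff p rbar (MonoidHom.id Γℚ) X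

end Module

namespace TanCocycle

variable {p} {rbar : Γℚ →* M₂ k}

/-- The zero tangent cocycle has class `0`. -/
lemma toClass_eq_zero_of_forall_eq_zero (c₀ : TanCocycle rbar) (h0 : ∀ σ, c₀.c σ = 0)
    (htr : ∀ σ, (c₀.c σ).trace = 0) : c₀.toClass (p := p) htr = 0 := by
  have : c₀.toCocycle (p := p) htr = 0 := by
    apply Subtype.ext
    funext σ
    apply Subtype.ext
    exact h0 σ
  unfold toClass
  rw [this, map_zero]

/-- There is a zero tangent cocycle (`TanCocycle.zero` of `Dict/SelmerToCount`; restated here as an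
existence statement to keep this file independent). -/
lemma exists_zeroTan (rbar : Γℚ →* M₂ k) : ∃ c₀ : TanCocycle rbar, ∀ σ, c₀.c σ = 0 :=
  ⟨{ c := fun _ => 0
     map_mul' := fun σ τ => by simp
     open' := ⟨⊥, inferInstance, fun _ _ => rfl⟩ }, fun _ => rfl⟩

/-- The localisation of the class of `c` along `f` (`groupCohomology.map f (𝟙 _) 1` is the
Prelude's `locRes`) vanishes iff `c ∘ f` is the coboundary of a trace-zero matrix. -/
theorem map_toClass_eq_zero_iff {H : Type} [Group H] (f : H →* Γℚ) (c : TanCocycle rbar)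
    (htr : ∀ σ, (c.c σ).trace = 0) :
    (groupCohomology.map f (𝟙 (Rep.res f (ad0Rep p rbar))) 1).hom (c.toClass (p := p) htr) = 0 ↔
      ∃ X : M₂ k, X.trace = 0 ∧ ∀ h : H, c.c (f h) = rbar (f h) * X * rbar (f h)⁻¹ - X := by
  rw [map_toClass]
  change H1π (Rep.res f (ad0Rep p rbar))
    ((mapCocycles₁ f (𝟙 (Rep.res f (ad0Rep p rbar)))).hom (c.toCocycle htr)) = 0 ↔ _
  rw [H1π_eq_zero_iff]
  constructor
  · rintro ⟨X, hX⟩
    refine ⟨(X : ad0 k p).1, (X : ad0 k p).2, fun h => ?_⟩
    have h2 := congrFun hX h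
    rw [d₀₁_hom_apply] at h2
    exact (congrArg Subtype.val h2).symm
  · rintro ⟨X, hX0, hX⟩
    refine ⟨(⟨X, (mem_ad0 _).mpr hX0⟩ : ad0 k p), ?_⟩
    funext h
    rw [d₀₁_hom_apply]
    apply Subtype.ext
    exact (hX h).symm

/-- Pairwise non-cohomologous trace-zero tangent cocycles, none of them cohomologous to `0`,
whose classes lie in a finite submodule `W`: there are at most `#W - 1` of them. -/
theorem card_add_one_le_natCard
    (T : Finset (TanCocycle rbar)) (htr : ∀ c ∈ T, ∀ σ, (c.c σ).trace = 0)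
    (hT : ∀ c ∈ T, ∀ c' ∈ T, Cohomologous c c' → c = c')
    (hT0 : ∀ c ∈ T, ∀ c₀ : TanCocycle rbar, (∀ σ, c₀.c σ = 0) → ¬ Cohomologous c₀ c)
    (W : Submodule (ZMod p) (H1 (ad0Rep p rbar))) [Finite W]
    (hW : ∀ c (hc : c ∈ T), c.toClass (p := p) (htr c hc) ∈ W) :
    T.card + 1 ≤ Nat.card W := by
  classical
  let f : Option T → W := fun o =>
    match o with
    | none => 0
    | some c => ⟨c.1.toClass (htr c.1 c.2), hW c.1 c.2⟩
  obtain ⟨z, hz0⟩ := exists_zeroTan rbar
  have hz : ∀ σ, (z.c σ).trace = 0 := fun σ => by rw [hz0 σ, Matrix.trace_zero]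
  have hne : ∀ c : T, c.1.toClass (p := p) (htr c.1 c.2) ≠ 0 := by
    intro c h0
    refine hT0 c.1 c.2 z hz0 ?_
    refine cohomologous_of_toClass_eq (p := p) hz (htr c.1 c.2) ?_
    rw [h0]
    exact toClass_eq_zero_of_forall_eq_zero z hz0 hz
  have hf : Function.Injective f := by
    intro a b h
    match a, b with
    | none, none => rfl
    | none, some c =>
      exact absurd (congrArg Subtype.val h).symm (hne c)
    | some c, none =>
      exact absurd (congrArg Subtype.val h) (hne c)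
    | some c, some c' =>
      have h1 : c.1.toClass (p := p) (htr c.1 c.2) = c'.1.toClass (htr c'.1 c'.2) :=
        congrArg Subtype.val h
      have := hT c.1 c.2 c'.1 c'.2 (cohomologous_of_toClass_eq _ _ h1)
      exact congrArg some (Subtype.ext this)
  have := Nat.card_le_card_of_injective f hf
  rwa [Nat.card_eq_fintype_card, Fintype.card_option, Fintype.card_coe] at this

/-- Cardinality form: if `W` has `𝔽_p`-dimension at most `[k : 𝔽_p] * r` then
`#T + 1 ≤ (#k)^r`. -/
theorem card_add_one_le_pow [Finite k]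
    (T : Finset (TanCocycle rbar)) (htr : ∀ c ∈ T, ∀ σ, (c.c σ).trace = 0)
    (hT : ∀ c ∈ T, ∀ c' ∈ T, Cohomologous c c' → c = c')
    (hT0 : ∀ c ∈ T, ∀ c₀ : TanCocycle rbar, (∀ σ, c₀.c σ = 0) → ¬ Cohomologous c₀ c)
    (W : Submodule (ZMod p) (H1 (ad0Rep p rbar))) [Module.Finite (ZMod p) W]
    (hW : ∀ c (hc : c ∈ T), c.toClass (p := p) (htr c hc) ∈ W) (r : ℕ)
    (hr : finrank (ZMod p) W ≤ finrank (ZMod p) k * r) :
    T.card + 1 ≤ Nat.card k ^ r := by
  have : Finite W := Module.finite_of_finite (ZMod p)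
  refine (card_add_one_le_natCard T htr hT hT0 W hW).trans ?_
  have h1 : Nat.card W = p ^ finrank (ZMod p) W := by
    rw [Module.natCard_eq_pow_finrank (K := ZMod p) (V := W), Nat.card_zmod]
  have h2 : Nat.card k = p ^ finrank (ZMod p) k := by
    rw [Module.natCard_eq_pow_finrank (K := ZMod p) (V := k), Nat.card_zmod]
  rw [h1, h2, ← pow_mul]
  exact Nat.pow_le_pow_right (Fact.out : p.Prime).pos hr

/-- The hypothesis `hCC` of `card_algHom_le_of_cocycleCount` for an arbitrary predicate `D` on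
tangent cocycles (think `D c := 𝒟 (c.lift hrbar)`): if every cocycle of type `D` is trace-zero
with class in `W`, and `finrank W ≤ [k : 𝔽_p] * r`, then `#T + 1 ≤ (#k)^r`. -/
theorem cocycleCount_of_finrank_le [Finite k] (D : TanCocycle rbar → Prop)
    (W : Submodule (ZMod p) (H1 (ad0Rep p rbar))) [Module.Finite (ZMod p) W]
    (hD : ∀ c, D c → ∃ htr : ∀ σ, (c.c σ).trace = 0, c.toClass (p := p) htr ∈ W) (r : ℕ)
    (hr : finrank (ZMod p) W ≤ finrank (ZMod p) k * r) :
    ∀ T : Finset (TanCocycle rbar), (∀ c ∈ T, D c) →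
      (∀ c ∈ T, ∀ c' ∈ T, Cohomologous c c' → c = c') →
      (∀ c ∈ T, ∀ c₀ : TanCocycle rbar, (∀ σ, c₀.c σ = 0) → ¬ Cohomologous c₀ c) →
      T.card + 1 ≤ Nat.card k ^ r := by
  intro T hTD hT hT0
  exact card_add_one_le_pow T (fun c hc => (hD c (hTD c hc)).1) hT hT0 W
    (fun c hc => (hD c (hTD c hc)).2) r hr

end TanCocycle

end Fermat.Agent.S56x.Dict
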