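import Mathlib
import Fermat.Agent.S56x.GW.Interface
import Fermat.Agent.S56x.Dict.Ad0Rep

/-!
# P-S56 (C5): the cocycle count (CC) from a bound on a Selmer group

`cocycleCount_of_finrank_sel_le`: let `P` be a predicate on tangent cocycles (the type of the
lift) such that every `c` with `P c` has trace zero, has a lift unramified outside `S'`, and
localises into the local conditions `L`.  If the Selmer group `Sel S' (ad⁰ ρbar) L` has
`𝔽_p`-dimension at most `[k : 𝔽_p] · r`, then every finite set `T` of pairwise non-cohomologous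
tangent cocycles of type `P`, none of which is cohomologous to zero, has `T.card + 1 ≤ (#k)^r`.
This is the hypothesis `hCC` of `Dict.card_algHom_le_of_cocycleCount`.
-/

set_option autoImplicit false
set_option linter.unusedSectionVars false
set_option linter.style.haveILetI false

noncomputable section

namespace Fermat.Agent.S56x.Dict

open Fermat.Agent.S53 groupCohomology CategoryTheory ExtCitation Module

local notation "Γℚ" => (AlgebraicClosure ℚ ≃ₐ[ℚ] AlgebraicClosure ℚ)
local notation "M₂" => Matrix (Fin 2) (Fin 2)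

variable {k : Type} [Field k] {p : ℕ} [Fact p.Prime] [Algebra (ZMod p) k]
  {rbar : Γℚ →* M₂ k}

namespace TanCocycle

/-- The zero tangent cocycle. -/
def zero (rbar : Γℚ →* M₂ k) : TanCocycle rbar where
  c _ := 0
  map_mul' σ τ := by simp
  open' := ⟨⊥, inferInstance, fun _ _ => rfl⟩

lemma toClass_zero (htr : ∀ σ, ((zero rbar).c σ).trace = 0) :
    (zero rbar).toClass (p := p) htr = 0 := by
  unfold toClass
  have : (zero rbar).toCocycle (p := p) htr = 0 := by
    ext σ
    rfl
  rw [this, map_zero]

/-- A tangent cocycle vanishing identically is `zero`. -/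
lemma eq_zero_of_forall (c₀ : TanCocycle rbar) (h : ∀ σ, c₀.c σ = 0) : c₀ = zero rbar := by
  ext σ : 2
  exact h σ

end TanCocycle

/-- **(CC) from a Selmer bound.** -/
theorem cocycleCount_of_finrank_sel_le [Finite k]
    (hrbar : GaloisFactorsThroughFiniteLevel rbar) (S' : Finset Nat.Primes)
    (P : TanCocycle rbar → Prop)
    (htr : ∀ c, P c → ∀ σ, (c.c σ).trace = 0)
    (hur : ∀ c, P c → ∀ q : Nat.Primes, q ∉ S' → (c.lift hrbar).IsUnramifiedAt (q : ℕ))
    (L : ∀ v : extArithIndex S',
      Submodule (ZMod p) (H1 (Rep.res (extArithLoc S' v) (ad0Rep p rbar))))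
    (hL : ∀ c (hc : P c) (v : extArithIndex S'),
      (locRes (extArithLoc S') (ad0Rep p rbar) v).hom (c.toClass (htr c hc)) ∈ L v)
    [Module.Finite (ZMod p) (GW.Sel S' (ad0Rep p rbar) L)]
    (r : ℕ)
    (hbound : finrank (ZMod p) (GW.Sel S' (ad0Rep p rbar) L) ≤ finrank (ZMod p) k * r)
    (T : Finset (TanCocycle rbar)) (hT : ∀ c ∈ T, P c)
    (hT2 : ∀ c ∈ T, ∀ c' ∈ T, TanCocycle.Cohomologous c c' → c = c')
    (hT3 : ∀ c ∈ T, ∀ c₀ : TanCocycle rbar, (∀ σ, c₀.c σ = 0) → ¬ TanCocycle.Cohomologous c₀ c) :
    T.card + 1 ≤ Nat.card k ^ r := by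
  classical
  set Sel := GW.Sel S' (ad0Rep p rbar) L with hSel
  have hp : p.Prime := Fact.out
  -- the class map
  have hmem : ∀ c (hc : P c), c.toClass (p := p) (htr c hc) ∈ Sel := by
    intro c hc
    refine ⟨c.toClass_mem_continuousH1S hrbar (htr c hc) S' (hur c hc), ?_⟩
    exact (mem_selmer_iff (extArithLoc S') (ad0Rep p rbar) L _).mpr (hL c hc)
  let F : Option (↥T) → Sel := fun x =>
    match x with
    | none => 0
    | some c => ⟨c.1.toClass (htr c.1 (hT c.1 c.2)), hmem c.1 (hT c.1 c.2)⟩
  have hzero_tr : ∀ σ, ((TanCocycle.zero rbar).c σ).trace = 0 := fun σ => by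
    show (0 : M₂ k).trace = 0
    exact Matrix.trace_zero (Fin 2) k
  have hne : ∀ c : ↥T, c.1.toClass (p := p) (htr c.1 (hT c.1 c.2)) ≠ 0 := by
    intro c h0
    have h1 : (TanCocycle.zero rbar).toClass (p := p) hzero_tr =
        c.1.toClass (htr c.1 (hT c.1 c.2)) := by
      rw [TanCocycle.toClass_zero, h0]
    exact hT3 c.1 c.2 (TanCocycle.zero rbar) (fun _ => rfl)
      (TanCocycle.cohomologous_of_toClass_eq hzero_tr _ h1)
  have hF : Function.Injective F := by
    intro x y hxy
    match x, y with
    | none, none => rfl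
    | none, some c =>
      exfalso
      have := congrArg Subtype.val hxy
      exact hne c this.symm
    | some c, none =>
      exfalso
      have := congrArg Subtype.val hxy
      exact hne c this
    | some c, some c' =>
      have h1 : c.1.toClass (p := p) (htr c.1 (hT c.1 c.2)) =
          c'.1.toClass (htr c'.1 (hT c'.1 c'.2)) := congrArg Subtype.val hxy
      have h2 := hT2 c.1 c.2 c'.1 c'.2 (TanCocycle.cohomologous_of_toClass_eq _ _ h1)
      exact congrArg some (Subtype.ext h2)
  -- cardinalities
  haveI : Finite (ZMod p) := inferInstance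
  haveI : Module.Finite (ZMod p) k := Module.Finite.of_finite
  haveI : Finite Sel := Module.finite_of_finite (ZMod p)
  have h1 := Nat.card_le_card_of_injective F hF
  have h2 : Nat.card (Option ↥T) = T.card + 1 := by
    rw [Nat.card_eq_fintype_card, Fintype.card_option, Fintype.card_coe]
  have h3 : Nat.card Sel = p ^ finrank (ZMod p) Sel := by
    rw [Module.natCard_eq_pow_finrank (K := ZMod p), Nat.card_zmod]
  have h4 : Nat.card k = p ^ finrank (ZMod p) k := by
    rw [Module.natCard_eq_pow_finrank (K := ZMod p) (V := k), Nat.card_zmod]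
  rw [h2, h3] at h1
  calc T.card + 1 ≤ p ^ finrank (ZMod p) Sel := h1
    _ ≤ p ^ (finrank (ZMod p) k * r) := Nat.pow_le_pow_right hp.pos hbound
    _ = Nat.card k ^ r := by rw [h4, pow_mul]

end Fermat.Agent.S56x.Dict

end
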