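import Mathlib
import Fermat.Agent.S56x.Dict.TypeBaseChange

/-!
# P-S56, block (C) dictionary: the deformation conditions only depend on the equivalence class

For `ρ ρ' : GaloisRepAdic A` with `ρ.IsEquiv ρ'`, the conditions `DetIsCyclotomic p`,
`IsUnramifiedAt q`, `IsUnipotentOnInertiaAt q`, `IsOrdinaryAt p`, `IsStrictOrdinaryAt p` (hence
`strictOrdinaryCondition`, `ordinaryCondition`) pass from `ρ` to `ρ'`.  We also add the stability
of `IsOrdinaryAt` under base change (missing from `TypeBaseChange`).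
-/

set_option autoImplicit false
set_option linter.style.haveILetI false

namespace Fermat.Agent.S56x.Dict.TypeEquiv

open scoped TensorProduct
open Polynomial
open Fermat.Agent.S56x.Dict.TypeBaseChange

local notation "Γℚ" => (AlgebraicClosure ℚ ≃ₐ[ℚ] AlgebraicClosure ℚ)

variable {A : Type} [CommRing A] [IsLocalRing A]

section Conj

variable {ρ ρ' : GaloisRepAdic A}

/-- An equivalence conjugates the actions. -/
theorem rho_eq_conj (e : GaloisRepAdic.Equiv ρ ρ') (σ : Γℚ) : ρ'.ρ σ = e.toLinearEquiv.conj (ρ.ρ σ) := by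
  refine LinearMap.ext fun y => ?_
  rw [LinearEquiv.conj_apply_apply, e.map_apply, LinearEquiv.apply_symm_apply]

theorem det_eq_of_equiv (e : GaloisRepAdic.Equiv ρ ρ') (σ : Γℚ) : LinearMap.det (ρ'.ρ σ) = LinearMap.det (ρ.ρ σ) := by
  rw [rho_eq_conj e]
  exact LinearMap.det_conj (ρ.ρ σ) e.toLinearEquiv

theorem charpoly_eq_of_equiv (e : GaloisRepAdic.Equiv ρ ρ') (σ : Γℚ) :
    LinearMap.charpoly (ρ'.ρ σ) = LinearMap.charpoly (ρ.ρ σ) := by
  rw [rho_eq_conj e, LinearEquiv.charpoly_conj]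

theorem trace_eq_of_equiv (e : GaloisRepAdic.Equiv ρ ρ') (σ : Γℚ) : ρ'.trace σ = ρ.trace σ := by
  show LinearMap.trace A ρ'.V (ρ'.ρ σ) = LinearMap.trace A ρ.V (ρ.ρ σ)
  rw [rho_eq_conj e, LinearMap.trace_conj']

end Conj

variable {ρ ρ' : GaloisRepAdic A}

theorem detIsCyclotomic_of_isEquiv (h : ρ.IsEquiv ρ') {p : ℕ} (hP : ρ.DetIsCyclotomic p) :
    ρ'.DetIsCyclotomic p := by
  obtain ⟨e⟩ := h
  refine ⟨hP.1, fun n σ a ha => ?_⟩
  rw [det_eq_of_equiv e]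
  exact hP.2 n σ a ha

theorem isUnramifiedAt_of_isEquiv (h : ρ.IsEquiv ρ') {q : ℕ} (hP : ρ.IsUnramifiedAt q) :
    ρ'.IsUnramifiedAt q := by
  obtain ⟨e⟩ := h
  intro P hPq σ hσ
  rw [rho_eq_conj e, hP P hPq σ hσ]
  refine LinearMap.ext fun y => ?_
  rw [LinearEquiv.conj_apply_apply, Module.End.one_apply, LinearEquiv.apply_symm_apply,
    Module.End.one_apply]

theorem isUnipotentOnInertiaAt_of_isEquiv (h : ρ.IsEquiv ρ') {q : ℕ}
    (hP : ρ.IsUnipotentOnInertiaAt q) : ρ'.IsUnipotentOnInertiaAt q := by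
  obtain ⟨e⟩ := h
  intro P hPq σ hσ
  rw [charpoly_eq_of_equiv e, hP P hPq σ hσ]

/-- Transport of a line spanned by the first vector of a basis. -/
theorem map_span_basis_zero (e : GaloisRepAdic.Equiv ρ ρ') (b : Module.Basis (Fin 2) A ρ.V) :
    (A ∙ b 0 : Submodule A ρ.V).map (e.toLinearEquiv : ρ.V →ₗ[A] ρ'.V)
      = (A ∙ (b.map e.toLinearEquiv) 0 : Submodule A ρ'.V) := by
  rw [Submodule.map_span, Set.image_singleton]
  rfl

theorem isOrdinaryAt_of_isEquiv (h : ρ.IsEquiv ρ') {p : ℕ} (hP : ρ.IsOrdinaryAt p) :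
    ρ'.IsOrdinaryAt p := by
  obtain ⟨e⟩ := h
  intro P hPp
  obtain ⟨L, ⟨b, hb⟩, hD, hI⟩ := hP P hPp
  refine ⟨L.map (e.toLinearEquiv : ρ.V →ₗ[A] ρ'.V), ⟨b.map e.toLinearEquiv, ?_⟩, ?_, ?_⟩
  · rw [hb]
    exact map_span_basis_zero e b
  · intro σ hσ v hv
    obtain ⟨w, hw, rfl⟩ := Submodule.mem_map.mp hv
    refine Submodule.mem_map.mpr ⟨ρ.ρ σ w, hD σ hσ w hw, ?_⟩
    exact e.map_apply σ w
  · intro σ hσ v
    obtain ⟨w, rfl⟩ := e.toLinearEquiv.surjective v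
    refine Submodule.mem_map.mpr ⟨ρ.ρ σ w - w, hI σ hσ w, ?_⟩
    rw [map_sub]
    congr 1
    exact e.map_apply σ w

theorem isStrictOrdinaryAt_of_isEquiv (h : ρ.IsEquiv ρ') {p : ℕ} (hP : ρ.IsStrictOrdinaryAt p) :
    ρ'.IsStrictOrdinaryAt p := by
  obtain ⟨e⟩ := h
  refine ⟨hP.1, fun P hPp => ?_⟩
  obtain ⟨L, ⟨b, hb⟩, hD, hI, hxz⟩ := hP.2 P hPp
  refine ⟨L.map (e.toLinearEquiv : ρ.V →ₗ[A] ρ'.V), ⟨b.map e.toLinearEquiv, ?_⟩, ?_, ?_, ?_⟩
  · rw [hb]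
    exact map_span_basis_zero e b
  · intro σ hσ v hv
    obtain ⟨w, hw, rfl⟩ := Submodule.mem_map.mp hv
    refine Submodule.mem_map.mpr ⟨ρ.ρ σ w, hD σ hσ w hw, ?_⟩
    exact e.map_apply σ w
  · intro σ hσ v
    obtain ⟨w, rfl⟩ := e.toLinearEquiv.surjective v
    refine Submodule.mem_map.mpr ⟨ρ.ρ σ w - w, hI σ hσ w, ?_⟩
    rw [map_sub]
    congr 1
    exact e.map_apply σ w
  · intro σ hσ
    obtain ⟨x, z, hx, hz, hcong⟩ := hxz σ hσ
    refine ⟨x, z, ?_, ?_, hcong⟩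
    · intro v hv
      obtain ⟨w, hw, rfl⟩ := Submodule.mem_map.mp hv
      show ρ'.ρ σ (e.toLinearEquiv w) = x • e.toLinearEquiv w
      rw [← e.map_apply, hx w hw, map_smul]
    · intro v
      obtain ⟨w, rfl⟩ := e.toLinearEquiv.surjective v
      refine Submodule.mem_map.mpr ⟨ρ.ρ σ w - z • w, hz w, ?_⟩
      rw [map_sub, map_smul]
      congr 1
      exact e.map_apply σ w

/-- The strict ordinary deformation condition only depends on the equivalence class. -/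
theorem strictOrdinaryCondition_of_isEquiv {𝒪 : Type} [CommRing 𝒪] [Algebra 𝒪 A] {p : ℕ}
    {S : Finset ℕ} (h : ρ.IsEquiv ρ') (hP : GaloisRep.strictOrdinaryCondition 𝒪 p S ρ) :
    GaloisRep.strictOrdinaryCondition 𝒪 p S ρ' :=
  ⟨detIsCyclotomic_of_isEquiv h hP.1, isStrictOrdinaryAt_of_isEquiv h hP.2.1,
    fun q hq hqS => isUnramifiedAt_of_isEquiv h (hP.2.2 q hq hqS)⟩

/-- The ordinary deformation condition only depends on the equivalence class. -/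
theorem ordinaryCondition_of_isEquiv {𝒪 : Type} [CommRing 𝒪] [Algebra 𝒪 A] {p : ℕ}
    {S : Finset ℕ} (h : ρ.IsEquiv ρ') (hP : GaloisRep.ordinaryCondition 𝒪 p S ρ) :
    GaloisRep.ordinaryCondition 𝒪 p S ρ' :=
  ⟨detIsCyclotomic_of_isEquiv h hP.1, isOrdinaryAt_of_isEquiv h hP.2.1,
    fun q hq hqS => isUnramifiedAt_of_isEquiv h (hP.2.2 q hq hqS)⟩

section BaseChange

variable {B : Type} [CommRing B] [IsLocalRing B] (φ : A →+* B) (hφ : IsLocalHom φ)
  (ρ₀ : GaloisRepAdic A)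

/-- Ordinarity is stable under base change along a local homomorphism. -/
theorem isOrdinaryAt_baseChangeAlong {p : ℕ} (h : ρ₀.IsOrdinaryAt p) :
    (ρ₀.baseChangeAlong φ hφ).IsOrdinaryAt p := by
  letI : Algebra A B := φ.toAlgebra
  intro P hP
  obtain ⟨L, ⟨b, hb⟩, hD, hI⟩ := h P hP
  show ∃ L' : Submodule B (B ⊗[A] ρ₀.V),
    (∃ b' : Module.Basis (Fin 2) B (B ⊗[A] ρ₀.V), L' = B ∙ b' 0) ∧
    (∀ σ ∈ P.decompositionSubgroup ℚ, ∀ v ∈ L', ((ρ₀.ρ σ).baseChange B) v ∈ L') ∧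
    (∀ σ ∈ P.inertiaSubgroupIn ℚ, ∀ v : B ⊗[A] ρ₀.V, ((ρ₀.ρ σ).baseChange B) v - v ∈ L')
  have hb0 : b.baseChange B 0 = (1 : B) ⊗ₜ[A] b 0 := Module.Basis.baseChange_apply B b 0
  have hmem : ∀ (c : B) (l : ρ₀.V), l ∈ L →
      c ⊗ₜ[A] l ∈ (B ∙ (b.baseChange B 0) : Submodule B (B ⊗[A] ρ₀.V)) := by
    intro c l hl
    rw [hb0]
    rw [hb] at hl
    exact tmul_mem_span_singleton (b 0) c hl
  have hb0L : b 0 ∈ L := by
    rw [hb]
    exact Submodule.mem_span_singleton_self _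
  refine ⟨(B ∙ (b.baseChange B 0) : Submodule B (B ⊗[A] ρ₀.V)), ⟨b.baseChange B, rfl⟩, ?_, ?_⟩
  · intro σ hσ v hv
    obtain ⟨c, rfl⟩ := Submodule.mem_span_singleton.mp hv
    rw [map_smul, hb0, LinearMap.baseChange_tmul]
    refine Submodule.smul_mem _ _ ?_
    rw [← hb0]
    exact hmem 1 _ (hD σ hσ _ hb0L)
  · intro σ hσ v
    induction v using TensorProduct.induction_on with
    | zero => rw [LinearMap.map_zero, sub_zero]; exact Submodule.zero_mem _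
    | tmul c v0 =>
      rw [LinearMap.baseChange_tmul, ← TensorProduct.tmul_sub]
      exact hmem c _ (hI σ hσ v0)
    | add x y hx hy =>
      rw [map_add, add_sub_add_comm]
      exact Submodule.add_mem _ hx hy

/-- The ordinary deformation condition is stable under base change. -/
theorem ordinaryCondition_baseChangeAlong {𝒪 : Type} [CommRing 𝒪] [Algebra 𝒪 A]
    [Algebra 𝒪 B] {p : ℕ} {S : Finset ℕ}
    (h : GaloisRep.ordinaryCondition 𝒪 p S ρ₀) :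
    GaloisRep.ordinaryCondition 𝒪 p S (ρ₀.baseChangeAlong φ hφ) :=
  ⟨detIsCyclotomic_baseChangeAlong φ hφ ρ₀ h.1, isOrdinaryAt_baseChangeAlong φ hφ ρ₀ h.2.1,
    fun q hq hqS => isUnramifiedAt_baseChangeAlong φ hφ ρ₀ (h.2.2 q hq hqS)⟩

end BaseChange

end Fermat.Agent.S56x.Dict.TypeEquiv
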